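import Mathlib

/-!
# Abstract counting lemma behind Hilbert's Theorem 92

Let `M` be a finitely generated abelian group with an automorphism `s` of prime order `p`.
Under suitable rank hypotheses (which hold for the unit group of a cyclic extension of
degree `p`), `H^1(⟨s⟩, M) ≠ 0`: there is `η` with `(1 + s + ⋯ + s^(p-1)) η = 0` which is
not of the form `s ε - ε`.
-/

set_option autoImplicit false

namespace Fermat.Agent.Kummer.Counting

open Module Polynomial

section ModP

variable {A : Type*} [AddCommGroup A]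

/-- The torsion of an abelian group, as an additive subgroup. -/
def tors (A : Type*) [AddCommGroup A] : AddSubgroup A := (Submodule.torsion ℤ A).toAddSubgroup

lemma mem_tors {x : A} : x ∈ tors A ↔ ∃ n : ℤ, n ≠ 0 ∧ n • x = 0 := by
  unfold tors
  simp only [Submodule.mem_toAddSubgroup, Submodule.mem_torsion_iff]
  constructor
  · rintro ⟨⟨n, hn⟩, h⟩
    exact ⟨n, nonZeroDivisors.ne_zero hn, h⟩
  · rintro ⟨n, hn, h⟩
    exact ⟨⟨n, mem_nonZeroDivisors_of_ne_zero hn⟩, h⟩

variable [Module.Finite ℤ A]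

instance finite_tors : Finite (tors A) := by
  have : Module.IsTorsion ℤ (Submodule.torsion ℤ A) := Submodule.torsion_isTorsion
  exact Module.finite_of_fg_torsion (Submodule.torsion ℤ A) this

lemma finrank_quot_tors : finrank ℤ (A ⧸ Submodule.torsion ℤ A) = finrank ℤ A := by
  have h := Submodule.finrank_quotient_add_finrank (Submodule.torsion ℤ A)
  have : finrank ℤ (Submodule.torsion ℤ A) = 0 :=
    Module.finrank_eq_zero_iff_isTorsion.mpr Submodule.torsion_isTorsion
  omega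

/-- index of `pA ⊔ T` -/
lemma index_range_nsmul_sup_tors {p : ℕ} (hp : p.Prime) :
    ((nsmulAddMonoidHom p : A →+ A).range ⊔ tors A).index = p ^ finrank ℤ A := by
  have : NeZero p := ⟨hp.ne_zero⟩
  set F := A ⧸ Submodule.torsion ℤ A with hF
  have : Module.Free ℤ F := Module.free_of_finite_type_torsion_free'
  let π : A →+ F := (Submodule.torsion ℤ A).mkQ.toAddMonoidHom
  have hπ : Function.Surjective π := (Submodule.torsion ℤ A).mkQ_surjective
  have hπ0 : ∀ t, π t = 0 ↔ t ∈ tors A := by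
    intro t
    simp only [π, LinearMap.toAddMonoidHom_coe, Submodule.mkQ_apply]
    rw [Submodule.Quotient.mk_eq_zero]
    rfl
  let HF : AddSubgroup F := (LinearMap.range (LinearMap.lsmul ℤ F (p : ℤ))).toAddSubgroup
  have hcomap : (nsmulAddMonoidHom p : A →+ A).range ⊔ tors A = HF.comap π := by
    ext x
    simp only [AddSubgroup.mem_comap, HF, Submodule.mem_toAddSubgroup, LinearMap.mem_range,
      LinearMap.lsmul_apply]
    constructor
    · intro hx
      obtain ⟨y, hy, t, ht, rfl⟩ := AddSubgroup.mem_sup.mp hx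
      obtain ⟨a, rfl⟩ := hy
      refine ⟨π a, ?_⟩
      have : π t = 0 := (hπ0 t).mpr ht
      simp [map_add, this]
    · rintro ⟨y, hy⟩
      obtain ⟨a, rfl⟩ := hπ y
      have : π (x - p • a) = 0 := by
        rw [map_sub, ← hy, map_nsmul]; simp
      have ht : x - p • a ∈ tors A := (hπ0 _).mp this
      refine AddSubgroup.mem_sup.mpr ⟨p • a, ⟨a, rfl⟩, x - p • a, ht, by abel⟩
  rw [hcomap, AddSubgroup.index_comap_of_surjective _ hπ]
  have : HF.index = Nat.card (ModN F p) := by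
    rw [AddSubgroup.index_eq_card]
    rfl
  rw [this, ModN.natCard_eq, finrank_quot_tors]

lemma relIndex_range_nsmul_sup_tors {p : ℕ} (hp : p.Prime) :
    (nsmulAddMonoidHom p : A →+ A).range.relIndex ((nsmulAddMonoidHom p : A →+ A).range ⊔ tors A)
      = Nat.card {x : A // p • x = 0} := by
  set H := (nsmulAddMonoidHom p : A →+ A).range with hH
  set T := tors A with hT
  rw [AddSubgroup.relIndex_sup_left, ← AddSubgroup.inf_relIndex_right]
  -- `H ⊓ T = pT`
  have hinf : (H ⊓ T).addSubgroupOf T = (nsmulAddMonoidHom p : T →+ T).range := by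
    ext ⟨t, ht⟩
    simp only [AddSubgroup.mem_addSubgroupOf, AddSubgroup.mem_inf, AddMonoidHom.mem_range,
      nsmulAddMonoidHom_apply, Subtype.ext_iff, AddSubgroup.coe_nsmul, H]
    constructor
    · rintro ⟨⟨a, rfl⟩, h2⟩
      have ha : a ∈ T := by
        obtain ⟨n, hn, h⟩ := mem_tors.mp h2
        refine mem_tors.mpr ⟨n * p, mul_ne_zero hn (by exact_mod_cast hp.ne_zero), ?_⟩
        rw [mul_smul]
        simpa using h
      exact ⟨⟨a, ha⟩, rfl⟩
    · rintro ⟨⟨a, ha⟩, rfl⟩
      exact ⟨⟨a, rfl⟩, T.nsmul_mem ha p⟩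
  rw [AddSubgroup.relIndex, hinf]
  have : (nsmulAddMonoidHom p : T →+ T).ker.FiniteIndex := AddSubgroup.finiteIndex_of_finite_quotient
  rw [AddSubgroup.index_range]
  refine Nat.card_congr ⟨fun x => ⟨x.1.1, ?_⟩, fun x => ⟨⟨x.1, ?_⟩, ?_⟩, ?_, ?_⟩
  · have h1 : (nsmulAddMonoidHom p : T →+ T) x.1 = 0 := x.2
    have h2 : ((p • x.1 : T) : A) = 0 := congrArg Subtype.val h1
    exact h2
  · have h1 : p • x.1 = 0 := x.2
    refine mem_tors.mpr ⟨p, by exact_mod_cast hp.ne_zero, ?_⟩
    rw [natCast_zsmul]; exact h1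
  · have h1 : p • x.1 = 0 := x.2
    rw [AddMonoidHom.mem_ker, nsmulAddMonoidHom_apply]
    exact Subtype.ext h1
  · intro x; rfl
  · intro x; rfl

/-- For a finitely generated abelian group `A`: `|A / pA| = p ^ rank A * |A[p]|`. -/
theorem index_range_nsmul {p : ℕ} (hp : p.Prime) :
    (nsmulAddMonoidHom p : A →+ A).range.index
      = p ^ finrank ℤ A * Nat.card {x : A // p • x = 0} := by
  rw [← AddSubgroup.relIndex_mul_index (le_sup_left : _ ≤ _ ⊔ tors A),
    relIndex_range_nsmul_sup_tors hp, index_range_nsmul_sup_tors hp, mul_comm]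

lemma index_range_nsmul_ne_zero {p : ℕ} (hp : p.Prime) :
    (nsmulAddMonoidHom p : A →+ A).range.index ≠ 0 := by
  have : AddGroup.FG A := Module.Finite.iff_addGroup_fg.mp inferInstance
  exact (AddSubgroup.finiteIndex_range_nsmulAddMonoidHom_of_fg A hp.ne_zero).index_ne_zero

end ModP

section Filtration

variable {A : Type*} [AddCommGroup A]

lemma index_range_pow_dvd (T : A →ₗ[ℤ] A) (i : ℕ) :
    (T ^ i).toAddMonoidHom.range.index ∣ T.toAddMonoidHom.range.index ^ i := by
  induction i with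
  | zero =>
    simp only [pow_zero]
    have : (1 : A →ₗ[ℤ] A).toAddMonoidHom.range = ⊤ := by
      ext x; simp
    rw [this, AddSubgroup.index_top]
  | succ i ih =>
    have h1 : (T ^ (i + 1)).toAddMonoidHom.range
        = T.toAddMonoidHom.range.map (T ^ i).toAddMonoidHom := by
      rw [AddMonoidHom.map_range, pow_succ]
      rfl
    rw [h1, AddSubgroup.index_map, pow_succ, mul_comm]
    exact mul_dvd_mul ih (AddSubgroup.index_dvd_of_le le_sup_left)

end Filtration

section PolyId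

lemma geom_sum_eq_C_add (p : ℕ) :
    ∃ V : ℤ[X], (∑ i ∈ Finset.range p, (X : ℤ[X]) ^ i) = C (p : ℤ) + (X - 1) * V := by
  have h := Polynomial.X_sub_C_dvd_sub_C_eval (a := (1 : ℤ))
    (p := ∑ i ∈ Finset.range p, (X : ℤ[X]) ^ i)
  obtain ⟨V, hV⟩ := h
  refine ⟨V, ?_⟩
  have he : (∑ i ∈ Finset.range p, (X : ℤ[X]) ^ i).eval 1 = (p : ℤ) := by
    simp [eval_finsetSum]
  rw [he] at hV
  rw [map_one] at hV
  linear_combination hV

lemma geom_sum_eq_pow_add {p : ℕ} (hp : p.Prime) :
    ∃ W : ℤ[X], (∑ i ∈ Finset.range p, (X : ℤ[X]) ^ i) = (X - 1) ^ (p - 1) + C (p : ℤ) * W := by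
  have : Fact p.Prime := ⟨hp⟩
  set q : ℤ[X] := (∑ i ∈ Finset.range p, (X : ℤ[X]) ^ i) - (X - 1) ^ (p - 1) with hq
  have hmap : q.map (Int.castRingHom (ZMod p)) = 0 := by
    have h1 : (X - 1 : (ZMod p)[X]) * (∑ i ∈ Finset.range p, (X : (ZMod p)[X]) ^ i)
        = (X - 1) * (X - 1) ^ (p - 1) := by
      rw [mul_geom_sum, ← pow_succ', Nat.sub_add_cancel hp.one_le, sub_pow_char, one_pow]
    have h2 : (X - 1 : (ZMod p)[X]) ≠ 0 := X_sub_C_ne_zero (1 : ZMod p)
    have h3 := mul_left_cancel₀ h2 h1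
    simp only [hq, Polynomial.map_sub, Polynomial.map_sum, Polynomial.map_pow, Polynomial.map_X,
      Polynomial.map_one]
    rw [h3, sub_self]
  have hdvd : C (p : ℤ) ∣ q := by
    rw [Polynomial.C_dvd_iff_dvd_coeff]
    intro n
    have := congrArg (fun f => f.coeff n) hmap
    simp only [coeff_map, coeff_zero, eq_intCast] at this
    exact (ZMod.intCast_zmod_eq_zero_iff_dvd _ _).mp this
  obtain ⟨W, hW⟩ := hdvd
  exact ⟨W, by rw [← hW, hq]; ring⟩

variable {M : Type*} [AddCommGroup M]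

/-- identities in `End M` obtained from the polynomial identities -/
lemma end_identities {p : ℕ} (hp : p.Prime) (s : M →ₗ[ℤ] M) :
    ∃ V W : M →ₗ[ℤ] M, Commute V (∑ i ∈ Finset.range p, s ^ i) ∧
      Commute W (∑ i ∈ Finset.range p, s ^ i) ∧
      (∑ i ∈ Finset.range p, s ^ i) = (p : M →ₗ[ℤ] M) + (s - 1) * V ∧
      (∑ i ∈ Finset.range p, s ^ i) = (s - 1) ^ (p - 1) + (p : M →ₗ[ℤ] M) * W := by
  obtain ⟨V, hV⟩ := geom_sum_eq_C_add p
  obtain ⟨W, hW⟩ := geom_sum_eq_pow_add hp
  have hν : aeval s (∑ i ∈ Finset.range p, (X : ℤ[X]) ^ i) = ∑ i ∈ Finset.range p, s ^ i := by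
    simp [map_sum]
  refine ⟨aeval s V, aeval s W, ?_, ?_, ?_, ?_⟩
  · rw [← hν]; exact (Commute.all V _).map (aeval s)
  · rw [← hν]; exact (Commute.all W _).map (aeval s)
  · rw [← hν, hV]; simp
  · rw [← hν, hW]; simp

end PolyId

section Ranks

variable {M : Type*} [AddCommGroup M] [Module.Finite ℤ M]

/-- rank-nullity for `ℤ`-linear maps -/
lemma finrank_range_add_finrank_ker' {N : Type*} [AddCommGroup N]
    (f : M →ₗ[ℤ] N) :
    finrank ℤ (LinearMap.range f) + finrank ℤ (LinearMap.ker f) = finrank ℤ M := by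
  rw [← (LinearMap.ker f).finrank_quotient_add_finrank, f.quotKerEquivRange.finrank_eq]

/-- multiplying by a nonzero integer does not change the rank -/
lemma finrank_map_nsmul (B : Submodule ℤ M) {p : ℕ} (hp : p ≠ 0) :
    finrank ℤ (B.map (LinearMap.lsmul ℤ M (p : ℤ))) = finrank ℤ B := by
  let g : B →ₗ[ℤ] M := (LinearMap.lsmul ℤ M (p : ℤ)).comp B.subtype
  have hr : LinearMap.range g = B.map (LinearMap.lsmul ℤ M (p : ℤ)) := by
    rw [LinearMap.range_comp, Submodule.range_subtype]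
  have hk : finrank ℤ (LinearMap.ker g) = 0 := by
    rw [Module.finrank_eq_zero_iff_isTorsion]
    intro x
    refine ⟨⟨(p : ℤ), mem_nonZeroDivisors_of_ne_zero (by exact_mod_cast hp)⟩, ?_⟩
    have h2 : g x.1 = 0 := x.2
    have h3 : (p : ℤ) • (x.1 : M) = 0 := h2
    ext
    exact h3
  have := finrank_range_add_finrank_ker' g
  rw [hr, hk] at this
  simpa using this

end Ranks

section Main

variable {M : Type*} [AddCommGroup M]

/-- if `s b = b` then `ν b = p • b` -/
lemma geom_sum_apply_of_fixed (s : M →ₗ[ℤ] M) (p : ℕ) {b : M} (hb : s b = b) :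
    (∑ i ∈ Finset.range p, s ^ i) b = p • b := by
  have : ∀ i : ℕ, (s ^ i) b = b := by
    intro i
    induction i with
    | zero => simp
    | succ i ih => rw [pow_succ, Module.End.mul_apply, hb, ih]
  simp [LinearMap.sum_apply, this]

lemma coe_restrict_pow (f : M →ₗ[ℤ] M) (N : Submodule ℤ M) (h : ∀ x ∈ N, f x ∈ N) (n : ℕ)
    (x : N) : (((f.restrict h) ^ n) x : M) = (f ^ n) x.1 := by
  induction n generalizing x with
  | zero => simp
  | succ n ih =>
    rw [pow_succ, Module.End.mul_apply, ih, pow_succ, Module.End.mul_apply]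
    rfl

variable [Module.Finite ℤ M]

/-- rank of `ker ν` -/
lemma finrank_ker_geom_sum {p : ℕ} (hp : p.Prime) (r : ℕ) (s : M →ₗ[ℤ] M) (hs : s ^ p = 1)
    (hrank : Module.finrank ℤ M + 1 = p * (r + 1))
    (hfix : Module.finrank ℤ (LinearMap.ker (s - 1)) = r) :
    finrank ℤ (LinearMap.ker (∑ i ∈ Finset.range p, s ^ i)) = (p - 1) * (r + 1) := by
  set ν := ∑ i ∈ Finset.range p, s ^ i with hν
  set B := LinearMap.ker (s - 1) with hB
  have hφν : (s - 1) * ν = 0 := by rw [hν, mul_geom_sum, hs, sub_self]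
  have h1 : LinearMap.range ν ≤ B := by
    rintro _ ⟨x, rfl⟩
    rw [hB, LinearMap.mem_ker, ← Module.End.mul_apply, hφν, LinearMap.zero_apply]
  have h2 : B.map (LinearMap.lsmul ℤ M (p : ℤ)) ≤ LinearMap.range ν := by
    rintro _ ⟨b, hb, rfl⟩
    refine ⟨b, ?_⟩
    have hb' : s b = b := by
      have : (s - 1) b = 0 := hb
      rwa [LinearMap.sub_apply, Module.End.one_apply, sub_eq_zero] at this
    rw [hν, geom_sum_apply_of_fixed s p hb']
    simp
  have h3 : finrank ℤ (LinearMap.range ν) = r := by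
    apply le_antisymm
    · rw [← hfix]; exact Submodule.finrank_mono h1
    · rw [← hfix, ← finrank_map_nsmul B hp.ne_zero]; exact Submodule.finrank_mono h2
  have h4 := finrank_range_add_finrank_ker' ν
  rw [h3] at h4
  have hp1 : 1 ≤ p := hp.one_le
  obtain ⟨q, rfl⟩ : ∃ q, p = q + 1 := ⟨p - 1, by omega⟩
  simp only [Nat.add_sub_cancel]
  have : (q + 1) * (r + 1) = q * (r + 1) + r + 1 := by ring
  omega

/-- upper bound -/
lemma index_le_of_surj {p : ℕ} (hp : p.Prime) (r : ℕ) (s : M →ₗ[ℤ] M) (hs : s ^ p = 1)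
    (hfix : Module.finrank ℤ (LinearMap.ker (s - 1)) = r)
    (htors : Nat.card {x : M // s x = x ∧ p • x = 0} ≤ p) :
    ((LinearMap.ker (∑ i ∈ Finset.range p, s ^ i)).toAddSubgroup ⊔
      (LinearMap.ker (s - 1)).toAddSubgroup).index ≤ p ^ (r + 1) := by
  set ν := ∑ i ∈ Finset.range p, s ^ i with hν
  set B := LinearMap.ker (s - 1) with hB
  have hφν : (s - 1) * ν = 0 := by rw [hν, mul_geom_sum, hs, sub_self]
  have h1 : ∀ x, ν x ∈ B := by
    intro x
    rw [hB, LinearMap.mem_ker, ← Module.End.mul_apply, hφν, LinearMap.zero_apply]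
  have hfixed : ∀ b ∈ B, s b = b := by
    intro b hb
    have : (s - 1) b = 0 := hb
    rwa [LinearMap.sub_apply, Module.End.one_apply, sub_eq_zero] at this
  let νB : M →ₗ[ℤ] B := ν.codRestrict B h1
  set H : AddSubgroup B := (nsmulAddMonoidHom p : B →+ B).range with hH
  have hcomap : (LinearMap.ker ν).toAddSubgroup ⊔ B.toAddSubgroup = H.comap νB.toAddMonoidHom := by
    ext x
    simp only [AddSubgroup.mem_comap, hH, AddMonoidHom.mem_range, nsmulAddMonoidHom_apply,
      LinearMap.toAddMonoidHom_coe]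
    constructor
    · intro hx
      obtain ⟨y, hy, b, hb, rfl⟩ := AddSubgroup.mem_sup.mp hx
      refine ⟨⟨b, hb⟩, ?_⟩
      apply Subtype.ext
      have hy' : ν y = 0 := hy
      change p • b = ν (y + b)
      rw [map_add, hy', zero_add, hν, geom_sum_apply_of_fixed s p (hfixed b hb)]
    · rintro ⟨b, hb⟩
      have hb' : p • (b : M) = ν x := by
        have := congrArg Subtype.val hb
        simpa [νB] using this
      have hx : ν (x - b) = 0 := by
        rw [map_sub, hν, geom_sum_apply_of_fixed s p (hfixed b b.2), ← hν, hb', sub_self]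
      exact AddSubgroup.mem_sup.mpr ⟨x - b, hx, b, b.2, by abel⟩
  rw [hcomap, AddSubgroup.index_comap]
  have hdvd : H.relIndex νB.toAddMonoidHom.range ∣ H.index := AddSubgroup.relIndex_dvd_index_of_normal _ _
  have hidx : H.index = p ^ r * Nat.card {x : B // p • x = 0} := by
    rw [hH, index_range_nsmul hp, hfix]
  have hne : H.index ≠ 0 := index_range_nsmul_ne_zero hp
  have hcard : Nat.card {x : B // p • x = 0} ≤ p := by
    have hto : ∀ x : {x : B // p • x = 0}, s x.1.1 = x.1.1 ∧ p • x.1.1 = 0 := by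
      intro x
      refine ⟨hfixed _ x.1.2, ?_⟩
      have h2 : ((p • x.1 : B) : M) = 0 := congrArg Subtype.val x.2
      exact h2
    have hmem : ∀ x : {x : M // s x = x ∧ p • x = 0}, x.1 ∈ B := by
      intro x
      rw [hB, LinearMap.mem_ker, LinearMap.sub_apply, Module.End.one_apply, x.2.1, sub_self]
    have hinv : ∀ x : {x : M // s x = x ∧ p • x = 0}, p • (⟨x.1, hmem x⟩ : B) = 0 := by
      intro x
      apply Subtype.ext
      exact x.2.2
    refine le_of_eq_of_le (Nat.card_congr ⟨fun x => ⟨x.1.1, hto x⟩,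
      fun x => ⟨⟨x.1, hmem x⟩, hinv x⟩, ?_, ?_⟩) htors
    · intro x; rfl
    · intro x; rfl
  calc _ ≤ H.index := Nat.le_of_dvd (Nat.pos_of_ne_zero hne) hdvd
    _ = p ^ r * Nat.card {x : B // p • x = 0} := hidx
    _ ≤ p ^ r * p := Nat.mul_le_mul_left _ hcard
    _ = p ^ (r + 1) := (pow_succ p r).symm

/-- lower bound, and comparison of indices inside `M₁ = ker ν`. -/
lemma pow_le_index_pow {p : ℕ} (hp : p.Prime) (s : M →ₗ[ℤ] M) (_hs : s ^ p = 1)
    (z : M) (hz0 : z ≠ 0) (hzp : p • z = 0) (hzν : (∑ i ∈ Finset.range p, s ^ i) z = 0)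
    (hmaps : ∀ x ∈ LinearMap.ker (∑ i ∈ Finset.range p, s ^ i),
      (s - 1) x ∈ LinearMap.ker (∑ i ∈ Finset.range p, s ^ i)) :
    p ^ (finrank ℤ (LinearMap.ker (∑ i ∈ Finset.range p, s ^ i)) + 1) ≤
      ((s - 1).restrict hmaps).toAddMonoidHom.range.index ^ (p - 1) := by
  set ν := ∑ i ∈ Finset.range p, s ^ i with hν
  obtain ⟨V, W, hVc, hWc, hV, hW⟩ := end_identities hp s
  rw [← hν] at hVc hWc hV hW
  set M₁ := LinearMap.ker ν with hM₁
  set T₁ : M₁ →ₗ[ℤ] M₁ := (s - 1).restrict hmaps with hT₁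
  have hVmem : ∀ x ∈ M₁, V x ∈ M₁ := by
    intro x hx
    rw [hM₁, LinearMap.mem_ker, ← Module.End.mul_apply, ← hVc.eq, Module.End.mul_apply,
      (show ν x = 0 from hx), map_zero]
  have hWmem : ∀ x ∈ M₁, W x ∈ M₁ := by
    intro x hx
    rw [hM₁, LinearMap.mem_ker, ← Module.End.mul_apply, ← hWc.eq, Module.End.mul_apply,
      (show ν x = 0 from hx), map_zero]
  set P : AddSubgroup M₁ := (nsmulAddMonoidHom p : M₁ →+ M₁).range with hP
  -- (i)
  have hi : (T₁ ^ (p - 1)).toAddMonoidHom.range ≤ P := by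
    rintro _ ⟨x, rfl⟩
    refine ⟨⟨-(W x.1), M₁.neg_mem (hWmem _ x.2)⟩, ?_⟩
    apply Subtype.ext
    have h1 : (((T₁ ^ (p - 1)) x : M₁) : M) = ((s - 1) ^ (p - 1)) x.1 :=
      coe_restrict_pow (s - 1) M₁ hmaps (p - 1) x
    have h2 : ν x.1 = 0 := x.2
    have h3 : ν x.1 = ((s - 1) ^ (p - 1)) x.1 + p • (W x.1) := by
      conv_lhs => rw [hW]
      simp [Module.End.mul_apply]
    change p • (-(W x.1)) = (((T₁ ^ (p - 1)) x : M₁) : M)
    rw [h1]
    rw [h2] at h3
    rw [smul_neg]
    exact neg_eq_of_add_eq_zero_left h3.symm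
  -- (ii)
  have hii : P ≤ T₁.toAddMonoidHom.range := by
    rintro _ ⟨x, rfl⟩
    refine ⟨⟨-(V x.1), M₁.neg_mem (hVmem _ x.2)⟩, ?_⟩
    apply Subtype.ext
    have h2 : ν x.1 = 0 := x.2
    have h3 : ν x.1 = p • x.1 + (s - 1) (V x.1) := by
      conv_lhs => rw [hV]
      simp [Module.End.mul_apply]
    change (s - 1) (-(V x.1)) = p • x.1
    rw [h2] at h3
    rw [map_neg]
    exact neg_eq_of_add_eq_zero_left h3.symm
  have hPne : P.index ≠ 0 := index_range_nsmul_ne_zero hp
  have hPidx : P.index = p ^ finrank ℤ M₁ * Nat.card {x : M₁ // p • x = 0} := index_range_nsmul hp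
  have hi₁ : T₁.toAddMonoidHom.range.index ≠ 0 := by
    intro h0
    have := AddSubgroup.index_dvd_of_le hii
    rw [h0, zero_dvd_iff] at this
    exact hPne this
  have hdvd : P.index ∣ T₁.toAddMonoidHom.range.index ^ (p - 1) :=
    (AddSubgroup.index_dvd_of_le hi).trans (index_range_pow_dvd T₁ (p - 1))
  have hle : P.index ≤ T₁.toAddMonoidHom.range.index ^ (p - 1) :=
    Nat.le_of_dvd (Nat.pos_of_ne_zero (pow_ne_zero _ hi₁)) hdvd
  -- torsion element
  have hcard : p ≤ Nat.card {x : M₁ // p • x = 0} := by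
    have hne : Nat.card {x : M₁ // p • x = 0} ≠ 0 := by
      intro h0
      rw [hPidx, h0, mul_zero] at hPne
      exact hPne rfl
    have hfin : Finite {x : M₁ // p • x = 0} := Nat.finite_of_card_ne_zero hne
    -- the kernel as a subgroup
    let K : AddSubgroup M₁ := (nsmulAddMonoidHom p : M₁ →+ M₁).ker
    have hK : Nat.card K = Nat.card {x : M₁ // p • x = 0} := rfl
    have : Finite K := hfin
    let z₁ : K := ⟨⟨z, hzν⟩, by
      rw [AddMonoidHom.mem_ker, nsmulAddMonoidHom_apply]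
      exact Subtype.ext hzp⟩
    have hz₁ : addOrderOf z₁ = p := by
      have : Fact p.Prime := ⟨hp⟩
      apply addOrderOf_eq_prime
      · apply Subtype.ext
        apply Subtype.ext
        exact hzp
      · intro h
        apply hz0
        exact congrArg (fun k : K => (k.1.1 : M)) h
    rw [← hK, ← hz₁]
    exact addOrderOf_le_card
  calc p ^ (finrank ℤ M₁ + 1) = p ^ finrank ℤ M₁ * p := pow_succ _ _
    _ ≤ p ^ finrank ℤ M₁ * Nat.card {x : M₁ // p • x = 0} := Nat.mul_le_mul_left _ hcard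
    _ = P.index := hPidx.symm
    _ ≤ _ := hle

/-- **Abstract Hilbert 92.** -/
theorem exists_not_coboundary {p : ℕ} (hp : p.Prime) (r : ℕ) (s : M →ₗ[ℤ] M) (hs : s ^ p = 1)
    (hrank : Module.finrank ℤ M + 1 = p * (r + 1))
    (hfix : Module.finrank ℤ (LinearMap.ker (s - 1)) = r)
    (htors : Nat.card {x : M // s x = x ∧ p • x = 0} ≤ p)
    (z : M) (hz0 : z ≠ 0) (hzp : p • z = 0) (hzν : (∑ i ∈ Finset.range p, s ^ i) z = 0) :
    ∃ η : M, (∑ i ∈ Finset.range p, s ^ i) η = 0 ∧ ∀ ε : M, η ≠ s ε - ε := by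
  by_contra hcon
  push Not at hcon
  have hνφ : (∑ i ∈ Finset.range p, s ^ i) * (s - 1) = 0 := by rw [geom_sum_mul, hs, sub_self]
  have hmaps : ∀ x ∈ LinearMap.ker (∑ i ∈ Finset.range p, s ^ i),
      (s - 1) x ∈ LinearMap.ker (∑ i ∈ Finset.range p, s ^ i) := by
    intro x _
    rw [LinearMap.mem_ker, ← Module.End.mul_apply, hνφ, LinearMap.zero_apply]
  have hlow := pow_le_index_pow hp s hs z hz0 hzp hzν hmaps
  have hrk := finrank_ker_geom_sum hp r s hs hrank hfix
  have hup := index_le_of_surj hp r s hs hfix htors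
  have hcod : ∀ x, (s - 1) x ∈ LinearMap.ker (∑ i ∈ Finset.range p, s ^ i) := by
    intro x
    rw [LinearMap.mem_ker, ← Module.End.mul_apply, hνφ, LinearMap.zero_apply]
  let κ : M →ₗ[ℤ] LinearMap.ker (∑ i ∈ Finset.range p, s ^ i) :=
    (s - 1).codRestrict (LinearMap.ker (∑ i ∈ Finset.range p, s ^ i)) hcod
  have hκsurj : Function.Surjective κ := by
    rintro ⟨η, hη⟩
    obtain ⟨ε, hε⟩ := hcon η hη
    refine ⟨ε, Subtype.ext ?_⟩
    change (s - 1) ε = η
    rw [hε, LinearMap.sub_apply, Module.End.one_apply]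
  have hrange : ((s - 1).restrict hmaps).toAddMonoidHom.range
      = (LinearMap.ker (∑ i ∈ Finset.range p, s ^ i)).toAddSubgroup.map κ.toAddMonoidHom := by
    ext y
    constructor
    · rintro ⟨x, rfl⟩
      exact ⟨x.1, x.2, rfl⟩
    · rintro ⟨x, hx, rfl⟩
      exact ⟨⟨x, hx⟩, rfl⟩
  have hker : κ.toAddMonoidHom.ker = (LinearMap.ker (s - 1)).toAddSubgroup := by
    ext x
    rw [AddMonoidHom.mem_ker, Submodule.mem_toAddSubgroup, LinearMap.mem_ker]
    constructor
    · intro h; exact congrArg Subtype.val h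
    · intro h; exact Subtype.ext h
  have hκrange : κ.toAddMonoidHom.range = ⊤ :=
    AddMonoidHom.range_eq_top.mpr hκsurj
  have key : ((s - 1).restrict hmaps).toAddMonoidHom.range.index ≤ p ^ (r + 1) := by
    rw [hrange, AddSubgroup.index_map, hker, hκrange, AddSubgroup.index_top, mul_one]
    exact hup
  have h1 : p ^ ((p - 1) * (r + 1) + 1) ≤ (p ^ (r + 1)) ^ (p - 1) := by
    rw [← hrk]
    exact hlow.trans (Nat.pow_le_pow_left key _)
  rw [← pow_mul, mul_comm (r + 1)] at h1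
  exact absurd h1 (not_le.mpr (Nat.pow_lt_pow_right hp.one_lt (Nat.lt_succ_self _)))

end Main

end Fermat.Agent.Kummer.Counting
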