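import Fermat.Agent.Kummer.Defs

/-!
# Kummer route, piece T3: case I of Fermat's Last Theorem for a prime `p ≥ 5` such that the
ring of integers of the `p`-th cyclotomic field is a principal ideal domain.
-/

set_option autoImplicit false

namespace Fermat.Agent.Kummer.CaseI

open NumberField Polynomial

universe u

variable (p : ℕ) [hp : Fact p.Prime] (K : Type u) [Field K] [NumberField K]
  [IsCyclotomicExtension {p} ℚ K]

/-- The chosen primitive `p`-th root of unity in `𝓞 K`. -/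
noncomputable def zeta : 𝓞 K := (IsCyclotomicExtension.zeta_spec p ℚ K).toInteger

lemma zeta_isPrimitiveRoot : IsPrimitiveRoot (zeta p K) p :=
  (IsCyclotomicExtension.zeta_spec p ℚ K).toInteger_isPrimitiveRoot

lemma zeta_pow_prime : zeta p K ^ p = 1 := (zeta_isPrimitiveRoot p K).pow_eq_one

lemma zeta_sub_one_prime : Prime (zeta p K - 1) :=
  (IsCyclotomicExtension.zeta_spec p ℚ K).zeta_sub_one_prime'

lemma zeta_sub_one_dvd_p : zeta p K - 1 ∣ (p : 𝓞 K) :=
  (IsCyclotomicExtension.zeta_spec p ℚ K).toInteger_sub_one_dvd_prime'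

lemma adjoin_zeta_eq_top : Algebra.adjoin ℤ {zeta p K} = ⊤ := by
  have h := (IsCyclotomicExtension.zeta_spec p ℚ K).integralPowerBasis.adjoin_gen_eq_top
  rwa [IsPrimitiveRoot.integralPowerBasis_gen] at h

/-- Two ring homomorphisms out of `𝓞 K` agreeing on `ζ` are equal. -/
lemma ringHom_ext {S : Type*} [Ring S] (f g : 𝓞 K →+* S)
    (h : f (zeta p K) = g (zeta p K)) : f = g := by
  have := AlgHom.ext_of_adjoin_eq_top (adjoin_zeta_eq_top p K) (φ₁ := f.toIntAlgHom)
    (φ₂ := g.toIntAlgHom) (by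
      intro x hx
      rw [Set.mem_singleton_iff] at hx
      subst hx
      exact h)
  ext x
  exact DFunLike.congr_fun this x

variable {p K}

/-- If `ζ - 1` divides a rational integer `n` in `𝓞 K` then `p ∣ n`. -/
lemma int_dvd_of_zeta_sub_one_dvd {n : ℤ} (h : zeta p K - 1 ∣ (n : 𝓞 K)) : (p : ℤ) ∣ n := by
  by_contra hn
  have hcop : IsCoprime (p : ℤ) n :=
    (Nat.prime_iff_prime_int.mp hp.out).coprime_iff_not_dvd.mpr hn
  obtain ⟨u, v, huv⟩ := hcop
  have h1 : ((u * p + v * n : ℤ) : 𝓞 K) = 1 := by rw [huv]; simp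
  have h2 : zeta p K - 1 ∣ ((u * p + v * n : ℤ) : 𝓞 K) := by
    push_cast
    exact dvd_add (dvd_mul_of_dvd_right (zeta_sub_one_dvd_p p K) _) (dvd_mul_of_dvd_right h _)
  rw [h1] at h2
  exact (zeta_sub_one_prime p K).not_dvd_one h2

lemma zeta_sub_one_dvd_zeta_pow_sub_one (r : ℕ) : zeta p K - 1 ∣ zeta p K ^ r - 1 := by
  simpa using sub_dvd_pow_sub_pow (zeta p K) 1 r

section Sigma

variable (σ : 𝓞 K →+* 𝓞 K) (hσ : σ (zeta p K) = zeta p K ^ (p - 1))
include hσ

/-- `σ` is the identity modulo `ζ - 1`. -/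
lemma sigma_sub_self_dvd (x : 𝓞 K) : zeta p K - 1 ∣ σ x - x := by
  set I : Ideal (𝓞 K) := Ideal.span {zeta p K - 1} with hI
  have hz : Ideal.Quotient.mk I (zeta p K) = 1 := by
    rw [← map_one (Ideal.Quotient.mk I), Ideal.Quotient.eq, hI, Ideal.mem_span_singleton]
  have key : (Ideal.Quotient.mk I).comp σ = Ideal.Quotient.mk I := by
    apply ringHom_ext p K
    rw [RingHom.comp_apply, hσ, map_pow, hz, one_pow]
  have := DFunLike.congr_fun key x
  rw [RingHom.comp_apply, Ideal.Quotient.eq, hI, Ideal.mem_span_singleton] at this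
  exact this

omit hσ in
lemma p_not_unit : (p : 𝓞 K) ∈ nonunits (𝓞 K) := by
  intro h
  exact (zeta_sub_one_prime p K).not_isUnit (isUnit_of_dvd_unit (zeta_sub_one_dvd_p p K) h)

/-- `σ x ^ p ≡ x ^ p` modulo `p`. -/
lemma p_dvd_sigma_pow_sub_pow (x : 𝓞 K) : (p : 𝓞 K) ∣ σ x ^ p - x ^ p := by
  set I : Ideal (𝓞 K) := Ideal.span {(p : 𝓞 K)} with hI
  have : CharP (𝓞 K ⧸ I) p := CharP.quotient (𝓞 K) p p_not_unit
  have key : ((frobenius (𝓞 K ⧸ I) p).comp (Ideal.Quotient.mk I)).comp σ =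
      (frobenius (𝓞 K ⧸ I) p).comp (Ideal.Quotient.mk I) := by
    apply ringHom_ext p K
    simp only [RingHom.comp_apply, frobenius_def, hσ]
    rw [← map_pow, ← map_pow, ← pow_mul, mul_comm, pow_mul, zeta_pow_prime, one_pow]
  have h1 := DFunLike.congr_fun key x
  simp only [RingHom.comp_apply, frobenius_def] at h1
  have h2 : Ideal.Quotient.mk I (σ x ^ p) = Ideal.Quotient.mk I (x ^ p) := by
    rw [map_pow, map_pow]; exact h1
  rwa [Ideal.Quotient.eq, hI, Ideal.mem_span_singleton] at h2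

end Sigma

section CM

variable [IsCMField K]

open IsCMField

variable (K) in
/-- Complex conjugation on `𝓞 K`, as a ring homomorphism. -/
noncomputable def conj : 𝓞 K →+* 𝓞 K :=
  RingOfIntegers.mapRingHom ((complexConj K : K ≃ₐ[maximalRealSubfield K] K) : K →+* K)

lemma coe_conj (x : 𝓞 K) : ((conj K x : 𝓞 K) : K) = complexConj K (x : K) := rfl

lemma conj_zeta : conj K (zeta p K) = zeta p K ^ (p - 1) := by
  have hpos : 0 < p := hp.out.pos
  have hz : zeta p K ^ p = 1 := zeta_pow_prime p K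
  have hu : IsUnit (zeta p K) := IsUnit.of_pow_eq_one hz hpos.ne'
  have htors : hu.unit ∈ Units.torsion K := by
    rw [Units.torsion, CommGroup.mem_torsion, isOfFinOrder_iff_pow_eq_one]
    exact ⟨p, hpos, by ext; simp [hz]⟩
  have h1 := complexConj_torsion K ⟨hu.unit, htors⟩
  simp only [IsUnit.unit_spec] at h1
  apply RingOfIntegers.ext
  rw [coe_conj]
  rw [show ((zeta p K : 𝓞 K) : K) = algebraMap (𝓞 K) K (zeta p K) from rfl, h1]
  have h2 : (algebraMap (𝓞 K) K (zeta p K)) ^ p = 1 := by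
    rw [← map_pow, hz, map_one]
  have h3 : (algebraMap (𝓞 K) K (zeta p K)) ≠ 0 := by
    intro h0
    rw [h0, zero_pow hpos.ne'] at h2
    exact zero_ne_one h2
  rw [show ((zeta p K ^ (p - 1) : 𝓞 K) : K) = (algebraMap (𝓞 K) K (zeta p K)) ^ (p - 1) from by
    simp]
  rw [inv_eq_iff_eq_inv, ← one_mul ((algebraMap (𝓞 K) K (zeta p K)) ^ (p - 1))⁻¹,
    eq_mul_inv_iff_mul_eq₀ (pow_ne_zero _ h3), ← pow_succ', Nat.sub_add_cancel hpos, h2]

/-- Every unit of `𝓞 K` is `ζ ^ k` times its complex conjugate. -/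
lemma unit_eq_zeta_pow_mul_conj (hodd : p ≠ 2) (u : (𝓞 K)ˣ) :
    ∃ k : ℕ, k < p ∧ (u : 𝓞 K) = zeta p K ^ k * conj K u := by
  set t := unitsMulComplexConjInv K u with ht
  have ht' : (t : (𝓞 K)ˣ) = u * (unitsComplexConj K u)⁻¹ := unitsMulComplexConjInv_apply K u
  have hmul : (t : (𝓞 K)ˣ) * unitsComplexConj K u = u := by
    rw [ht', inv_mul_cancel_right]
  have hc : ((unitsComplexConj K u : (𝓞 K)ˣ) : 𝓞 K) = conj K u := rfl
  have hmul' : ((t : (𝓞 K)ˣ) : 𝓞 K) * conj K u = u := by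
    have := congrArg (fun v : (𝓞 K)ˣ => (v : 𝓞 K)) hmul
    simp only [Units.val_mul] at this
    rw [hc] at this
    exact this
  have hfin : IsOfFinOrder ((((t : (𝓞 K)ˣ) : 𝓞 K) : K)) := by
    have h0 : IsOfFinOrder (t : (𝓞 K)ˣ) := (CommGroup.mem_torsion _).mp t.2
    exact ((algebraMap (𝓞 K) K).toMonoidHom.comp (Units.coeHom (𝓞 K))).isOfFinOrder h0
  have hoddp : Odd p := hp.out.odd_of_ne_two hodd
  obtain ⟨r, hr, hx⟩ :=
    (IsCyclotomicExtension.zeta_spec p ℚ K).exists_pow_or_neg_mul_pow_of_isOfFinOrder hoddp hfin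
  rcases hx with hx | hx
  · refine ⟨r, hr, ?_⟩
    have : ((t : (𝓞 K)ˣ) : 𝓞 K) = zeta p K ^ r := by
      apply RingOfIntegers.ext
      rw [hx]
      simp only [map_pow]
      rfl
    rw [← this, hmul']
  · exfalso
    have h1 : ((t : (𝓞 K)ˣ) : 𝓞 K) = -zeta p K ^ r := by
      apply RingOfIntegers.ext
      rw [hx]
      simp only [map_neg, map_pow]
      rfl
    rw [h1] at hmul'
    -- `2 u = (u - σ u) + (1 - ζ ^ r) σ u`
    have h2 : ((2 : ℤ) : 𝓞 K) * u = ((u : 𝓞 K) - conj K u) + (1 - zeta p K ^ r) * conj K u := by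
      push_cast; linear_combination hmul'.symm
    have h3 : zeta p K - 1 ∣ ((2 : ℤ) : 𝓞 K) * u := by
      rw [h2]
      refine dvd_add ?_ (dvd_mul_of_dvd_left ?_ _)
      · rw [← dvd_neg, neg_sub]
        exact sigma_sub_self_dvd (conj K) conj_zeta _
      · rw [← dvd_neg, neg_sub]
        exact zeta_sub_one_dvd_zeta_pow_sub_one r
    have h4 : zeta p K - 1 ∣ ((2 : ℤ) : 𝓞 K) :=
      (IsUnit.dvd_mul_right u.isUnit).mp h3
    have h5 : (p : ℤ) ∣ 2 := int_dvd_of_zeta_sub_one_dvd h4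
    have h6 : p ∣ 2 := by exact_mod_cast h5
    have h7 := Nat.le_of_dvd (by norm_num) h6
    have h8 := hp.out.two_le
    omega

end CM

/-- Coefficients (w.r.t. `1, ζ, …, ζ ^ (p - 2)`) of a multiple of `p` are multiples of `p`. -/
lemma dvd_coeff_of_dvd_sum_range_pred (d : ℕ → ℤ)
    (h : (p : 𝓞 K) ∣ ∑ i ∈ Finset.range (p - 1), d i • zeta p K ^ i) :
    ∀ i < p - 1, (p : ℤ) ∣ d i := by
  intro j hj
  set pb := (IsCyclotomicExtension.zeta_spec p ℚ K).integralPowerBasis with hpb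
  have hdim : pb.dim = p - 1 := by
    rw [hpb, IsPrimitiveRoot.integralPowerBasis_dim, Nat.totient_prime hp.out]
  have hgen : pb.gen = zeta p K := IsPrimitiveRoot.integralPowerBasis_gen _
  obtain ⟨y, hy⟩ := h
  have hsum : ∑ i ∈ Finset.range (p - 1), d i • zeta p K ^ i =
      ∑ i : Fin pb.dim, d i • pb.basis i := by
    rw [← hdim, ← Fin.sum_univ_eq_sum_range (fun i => d i • zeta p K ^ i)]
    refine Finset.sum_congr rfl fun i _ => ?_
    rw [pb.basis_eq_pow, hgen]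
  have hj' : j < pb.dim := by rw [hdim]; exact hj
  have h1 : pb.basis.repr (∑ i : Fin pb.dim, d i • pb.basis i) ⟨j, hj'⟩ = d j := by
    rw [Module.Basis.repr_sum_self]
  have h2 : pb.basis.repr ((p : 𝓞 K) * y) ⟨j, hj'⟩ = (p : ℤ) * pb.basis.repr y ⟨j, hj'⟩ := by
    rw [show (p : 𝓞 K) * y = (p : ℤ) • y by simp, map_smul, Finsupp.smul_apply, smul_eq_mul]
  rw [← hsum, hy, h2] at h1
  exact ⟨_, h1.symm⟩

/-- If `p` divides `∑_{i < p} c i ζ ^ i` then all the `c i` are congruent modulo `p`. -/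
lemma dvd_coeff_sub_of_dvd_sum_range (c : ℕ → ℤ)
    (h : (p : 𝓞 K) ∣ ∑ i ∈ Finset.range p, c i • zeta p K ^ i) :
    ∀ i < p, (p : ℤ) ∣ c i - c (p - 1) := by
  have hp1 : p - 1 + 1 = p := Nat.sub_add_cancel hp.out.pos
  have hgeom : ∑ i ∈ Finset.range p, zeta p K ^ i = 0 :=
    (zeta_isPrimitiveRoot p K).geom_sum_eq_zero hp.out.one_lt
  have hsplit : ∀ f : ℕ → 𝓞 K,
      ∑ i ∈ Finset.range p, f i = ∑ i ∈ Finset.range (p - 1), f i + f (p - 1) := by
    intro f
    conv_lhs => rw [← hp1]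
    exact Finset.sum_range_succ f (p - 1)
  have hlast : zeta p K ^ (p - 1) = - ∑ i ∈ Finset.range (p - 1), zeta p K ^ i := by
    rw [hsplit] at hgeom
    exact eq_neg_of_add_eq_zero_right hgeom
  have hrew : ∑ i ∈ Finset.range p, c i • zeta p K ^ i =
      ∑ i ∈ Finset.range (p - 1), (c i - c (p - 1)) • zeta p K ^ i := by
    rw [hsplit, hlast]
    simp only [sub_smul, Finset.sum_sub_distrib, smul_neg, Finset.smul_sum]
    ring
  rw [hrew] at h
  intro i hi
  rcases Nat.lt_or_ge i (p - 1) with h1 | h1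
  · exact dvd_coeff_of_dvd_sum_range_pred (fun i => c i - c (p - 1)) h i h1
  · have : i = p - 1 := by omega
    rw [this, sub_self]
    exact dvd_zero _

lemma zeta_pow_mod (n : ℕ) : zeta p K ^ (n % p) = zeta p K ^ n := by
  conv_rhs => rw [← Nat.div_add_mod n p, pow_add, pow_mul, zeta_pow_prime, one_pow, one_mul]

/-- The key linear-independence step of case I. -/
lemma four_term (hp5 : 5 ≤ p) (a b : ℤ) (k : ℕ) (hk : k < p)
    (h : (p : 𝓞 K) ∣ ((a : 𝓞 K) + b * zeta p K) -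
      zeta p K ^ k * ((a : 𝓞 K) + b * zeta p K ^ (p - 1))) :
    (p : ℤ) ∣ a ∨ (p : ℤ) ∣ b ∨ (p : ℤ) ∣ a - b := by
  set k' := (k + (p - 1)) % p with hk'
  have hk'lt : k' < p := Nat.mod_lt _ hp.out.pos
  set c : ℕ → ℤ := fun i => (if i = 0 then a else 0) + (if i = 1 then b else 0)
    - (if i = k then a else 0) - (if i = k' then b else 0) with hc
  have h0 : 0 ∈ Finset.range p := Finset.mem_range.mpr (by omega)
  have h1 : 1 ∈ Finset.range p := Finset.mem_range.mpr (by omega)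
  have hkm : k ∈ Finset.range p := Finset.mem_range.mpr hk
  have hk'm : k' ∈ Finset.range p := Finset.mem_range.mpr hk'lt
  have hsum : ∑ i ∈ Finset.range p, c i • zeta p K ^ i =
      ((a : 𝓞 K) + b * zeta p K) - zeta p K ^ k * ((a : 𝓞 K) + b * zeta p K ^ (p - 1)) := by
    have e : zeta p K ^ k * zeta p K ^ (p - 1) = zeta p K ^ k' := by
      rw [← pow_add, hk', zeta_pow_mod]
    simp only [hc, sub_smul, add_smul, ite_smul, zero_smul, Finset.sum_sub_distrib,
      Finset.sum_add_distrib, Finset.sum_ite_eq', h0, h1, hkm, hk'm, if_true]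
    simp only [zsmul_eq_mul, pow_zero, pow_one, mul_one]
    rw [mul_add, mul_left_comm, e]
    ring
  rw [← hsum] at h
  have hall := dvd_coeff_sub_of_dvd_sum_range c h
  -- an index outside `{0, 1, k, k'}`
  obtain ⟨i0, hi0, hi0'⟩ : ∃ i0 ∈ Finset.range p, i0 ∉ ({0, 1, k, k'} : Finset ℕ) := by
    apply Finset.exists_mem_notMem_of_card_lt_card
    rw [Finset.card_range]
    calc ({0, 1, k, k'} : Finset ℕ).card ≤ 4 := Finset.card_le_four
      _ < p := by omega
  simp only [Finset.mem_insert, Finset.mem_singleton, not_or] at hi0'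
  have hci0 : c i0 = 0 := by
    simp only [hc, if_neg hi0'.1, if_neg hi0'.2.1, if_neg hi0'.2.2.1, if_neg hi0'.2.2.2]
    ring
  have hlast : (p : ℤ) ∣ c (p - 1) := by
    have := hall i0 (Finset.mem_range.mp hi0)
    rwa [hci0, zero_sub, dvd_neg] at this
  have hci : ∀ i < p, (p : ℤ) ∣ c i := fun i hi => by
    have := dvd_add (hall i hi) hlast
    rwa [sub_add_cancel] at this
  rcases Nat.eq_zero_or_pos k with hk0 | hkpos
  · -- `k = 0`
    right; left
    have hk'1 : k' = p - 1 := by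
      rw [hk', hk0, zero_add]; exact Nat.mod_eq_of_lt (by omega)
    have : c 1 = b := by
      have e1 : ¬ (1 = k) := by omega
      have e2 : ¬ (1 = k') := by omega
      simp [hc, e1, e2]
    rw [← this]
    exact hci 1 (by omega)
  · rcases Nat.eq_or_lt_of_le hkpos with hk1 | hk2
    · -- `k = 1`
      right; right
      have hk'0 : k' = 0 := by
        rw [hk', ← hk1, Nat.add_sub_cancel' hp.out.pos, Nat.mod_self]
      have : c 0 = a - b := by
        have e1 : ¬ (0 = k) := by omega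
        simp [hc, e1, hk'0]
      rw [← this]
      exact hci 0 (by omega)
    · -- `2 ≤ k`
      left
      have hk'k : k' = k - 1 := by
        rw [hk', show k + (p - 1) = (k - 1) + p by omega, Nat.add_mod_right]
        exact Nat.mod_eq_of_lt (by omega)
      have : c 0 = a := by
        have e1 : ¬ (0 = k) := by omega
        have e2 : ¬ (0 = k') := by omega
        simp [hc, e1, e2]
      rw [← this]
      exact hci 0 (by omega)

/-- From `a ^ p + b ^ p = c ^ p` we get `a + b ≡ c` modulo `p`. -/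
lemma zmod_add_eq {a b c : ℤ} (H : a ^ p + b ^ p = c ^ p) :
    (a : ZMod p) + (b : ZMod p) = (c : ZMod p) := by
  have := congrArg (Int.cast : ℤ → ZMod p) H
  push_cast at this
  rwa [ZMod.pow_card, ZMod.pow_card, ZMod.pow_card] at this

theorem caseI_core (hp5 : 5 ≤ p) (hpid : IsPrincipalIdealRing (𝓞 K))
    {a b c : ℤ} (hab : IsCoprime a b) (hpabc : ¬ (p : ℤ) ∣ a * b * c)
    (hpab : ¬ (p : ℤ) ∣ a - b) : a ^ p + b ^ p ≠ c ^ p := by
  classical
  intro H
  have : IsCMField K :=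
    IsCyclotomicExtension.Rat.isCMField K (S := {p}) ⟨p, rfl, by omega⟩
  have hodd : p ≠ 2 := by omega
  have hoddp : Odd p := hp.out.odd_of_ne_two hodd
  have hpos : 0 < p := hp.out.pos
  set ζ := zeta p K with hζdef
  have hζ : IsPrimitiveRoot ζ p := zeta_isPrimitiveRoot p K
  have hprod : (c : 𝓞 K) ^ p = ∏ η ∈ nthRootsFinset p (1 : 𝓞 K), ((a : 𝓞 K) + η * b) := by
    rw [← hζ.pow_add_pow_eq_prod_add_mul _ _ hoddp]
    exact_mod_cast congrArg (Int.cast : ℤ → 𝓞 K) H.symm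
  have hmem : ζ ∈ nthRootsFinset p (1 : 𝓞 K) := hζ.mem_nthRootsFinset hpos
  rw [← Finset.mul_prod_erase _ _ hmem] at hprod
  -- `ζ - 1` does not divide `a + ζ b`
  have hnd : ¬ (ζ - 1) ∣ ((a : 𝓞 K) + ζ * b) := by
    intro hd
    have h1 : (ζ - 1) ∣ ((a + b : ℤ) : 𝓞 K) := by
      have e : ((a + b : ℤ) : 𝓞 K) = ((a : 𝓞 K) + ζ * b) - (ζ - 1) * b := by push_cast; ring
      rw [e]
      exact dvd_sub hd (dvd_mul_right _ _)
    have h2 : (p : ℤ) ∣ a + b := int_dvd_of_zeta_sub_one_dvd h1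
    have h3 : ((a + b : ℤ) : ZMod p) = 0 := (ZMod.intCast_zmod_eq_zero_iff_dvd _ p).mpr h2
    have h4 : (c : ZMod p) = 0 := by
      rw [← zmod_add_eq H]
      exact_mod_cast h3
    have h5 : (p : ℤ) ∣ c := (ZMod.intCast_zmod_eq_zero_iff_dvd _ p).mp h4
    exact hpabc (dvd_mul_of_dvd_right h5 _)
  have hcop : ∀ η ∈ (nthRootsFinset p (1 : 𝓞 K)).erase ζ,
      IsCoprime ((a : 𝓞 K) + ζ * b) ((a : 𝓞 K) + η * b) := by
    intro η hη
    obtain ⟨hne, hηmem⟩ := Finset.mem_erase.mp hη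
    have hassoc : Associated (ζ - 1) (ζ - η) :=
      hζ.nthRootsFinset_pairwise_associated_sub_one_sub_of_prime hp.out hmem hηmem hne.symm
    have h1 : IsCoprime (ζ - 1) ((a : 𝓞 K) + ζ * b) :=
      (zeta_sub_one_prime p K).coprime_iff_not_dvd.mpr hnd
    have h2 : IsCoprime (ζ - η) ((a : 𝓞 K) + ζ * b) := by
      obtain ⟨w, hw⟩ := hassoc
      rw [← hw]
      exact (isCoprime_mul_unit_right_left w.isUnit _ _).mpr h1
    obtain ⟨u, v, huv⟩ := hab
    obtain ⟨m, n, hmn⟩ := h2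
    have huv' : (u : 𝓞 K) * a + v * b = 1 := by
      exact_mod_cast congrArg (Int.cast : ℤ → 𝓞 K) huv
    refine ⟨m * (v - u * η) + n, m * (u * ζ - v), ?_⟩
    linear_combination hmn + m * (ζ - η) * huv'
  have hcop' := IsCoprime.prod_right hcop
  obtain ⟨α, hα⟩ := exists_associated_pow_of_mul_eq_pow' hcop' hprod.symm
  obtain ⟨u, hu⟩ := hα
  obtain ⟨k, hk, huk⟩ := unit_eq_zeta_pow_mul_conj hodd u
  have hcx : conj K ((a : 𝓞 K) + ζ * b) = (a : 𝓞 K) + ζ ^ (p - 1) * b := by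
    rw [map_add, map_mul, map_intCast, map_intCast, conj_zeta]
  have hdiv : (p : 𝓞 K) ∣ ((a : 𝓞 K) + ζ * b) - ζ ^ k * ((a : 𝓞 K) + ζ ^ (p - 1) * b) := by
    have e : ((a : 𝓞 K) + ζ * b) - ζ ^ k * ((a : 𝓞 K) + ζ ^ (p - 1) * b) =
        -(u : 𝓞 K) * ((conj K α) ^ p - α ^ p) := by
      rw [← hcx, ← hu, map_mul, map_pow]
      linear_combination (conj K α) ^ p * huk
    rw [e]
    exact dvd_mul_of_dvd_right (p_dvd_sigma_pow_sub_pow (conj K) conj_zeta α) _
  have hdiv' : (p : 𝓞 K) ∣ ((a : 𝓞 K) + b * ζ) - ζ ^ k * ((a : 𝓞 K) + b * ζ ^ (p - 1)) := by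
    have e : ((a : 𝓞 K) + b * ζ) - ζ ^ k * ((a : 𝓞 K) + b * ζ ^ (p - 1)) =
        ((a : 𝓞 K) + ζ * b) - ζ ^ k * ((a : 𝓞 K) + ζ ^ (p - 1) * b) := by ring
    rw [e]; exact hdiv
  rcases four_term hp5 a b k hk hdiv' with h | h | h
  · exact hpabc (dvd_mul_of_dvd_left (dvd_mul_of_dvd_left h _) _)
  · exact hpabc (dvd_mul_of_dvd_left (dvd_mul_of_dvd_right h _) _)
  · exact hpab h

theorem caseI_aux (hp5 : 5 ≤ p) (hpid : IsPrincipalIdealRing (𝓞 K))
    {a b c : ℤ} (hab : IsCoprime a b) (hpabc : ¬ (p : ℤ) ∣ a * b * c) :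
    a ^ p + b ^ p ≠ c ^ p := by
  intro H
  by_cases hpab : (p : ℤ) ∣ a - b
  · have hodd : p ≠ 2 := by omega
    have hoddp : Odd p := hp.out.odd_of_ne_two hodd
    have hpos : 0 < p := hp.out.pos
    have H' : a ^ p + (-c) ^ p = (-b) ^ p := by
      rw [hoddp.neg_pow, hoddp.neg_pow]; linarith
    have hac : IsCoprime a (-c) := by
      have h1 : IsCoprime a (b ^ p) := hab.pow_right
      have h2 : IsCoprime a (b ^ p + a * a ^ (p - 1)) := h1.add_mul_left_right _
      have h3 : b ^ p + a * a ^ (p - 1) = c ^ p := by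
        rw [← H, ← pow_succ', Nat.sub_add_cancel hpos, add_comm]
      rw [h3] at h2
      exact ((IsCoprime.pow_right_iff hpos).mp h2).neg_right
    have hp' : ¬ (p : ℤ) ∣ a * (-c) * (-b) := by
      rwa [show a * (-c) * (-b) = a * b * c by ring]
    have hpac : ¬ (p : ℤ) ∣ a - (-c) := by
      intro h
      have e1 : (a : ZMod p) - (b : ZMod p) = 0 := by
        have := (ZMod.intCast_zmod_eq_zero_iff_dvd (a - b) p).mpr hpab
        exact_mod_cast this
      have e2 : (a : ZMod p) + (c : ZMod p) = 0 := by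
        have := (ZMod.intCast_zmod_eq_zero_iff_dvd (a - (-c)) p).mpr h
        push_cast at this
        rwa [sub_neg_eq_add] at this
      have e3 := zmod_add_eq H
      have e4 : ((3 * a : ℤ) : ZMod p) = 0 := by
        push_cast
        linear_combination e2 + e3 + e1
      have h3a : (p : ℤ) ∣ 3 * a := (ZMod.intCast_zmod_eq_zero_iff_dvd _ p).mp e4
      rcases (Nat.prime_iff_prime_int.mp hp.out).dvd_or_dvd h3a with h3 | ha
      · have : (p : ℤ) ≤ 3 := Int.le_of_dvd (by norm_num) h3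
        omega
      · exact hpabc (dvd_mul_of_dvd_left (dvd_mul_of_dvd_left ha _) _)
    exact caseI_core hp5 hpid hac hp' hpac H'
  · exact caseI_core hp5 hpid hab hpabc hpab H

end Fermat.Agent.Kummer.CaseI

namespace Fermat.Agent.Kummer

open NumberField

universe u

/-- T3: case I of Fermat's Last Theorem for `p ≥ 5` when `𝓞 K` is a PID. -/
theorem caseI {p : ℕ} [Fact p.Prime] (hp5 : 5 ≤ p) (K : Type u) [Field K] [NumberField K]
    [IsCyclotomicExtension {p} ℚ K] (hpid : IsPrincipalIdealRing (𝓞 K))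
    {a b c : ℤ} (hab : IsCoprime a b) (hp : ¬ (p : ℤ) ∣ a * b * c) :
    a ^ p + b ^ p ≠ c ^ p :=
  CaseI.caseI_aux hp5 hpid hab hp

end Fermat.Agent.Kummer
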