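import Fermat.Agent.Kummer.Defs

/-!
# Kummer route, case II

Case II of Fermat's Last Theorem for a prime `p` such that the ring of integers of the
`p`-th cyclotomic field is a PID and satisfies Kummer's lemma.

The descent is first carried out in an abstract PID `R` with a primitive `p`-th root of unity
`ζ` satisfying the hypotheses bundled in `Setup`; it is then specialised to `𝓞 K`.
-/

set_option autoImplicit false
set_option linter.unusedSectionVars false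
set_option linter.unusedVariables false

namespace Fermat.Agent.Kummer.CaseII

open Finset Polynomial

/-- The hypotheses on a ring `R` with a `p`-th root of unity `ζ` needed for the descent. -/
structure Setup (R : Type*) [CommRing R] (p : ℕ) (ζ : R) : Prop where
  prime_p : p.Prime
  odd : p ≠ 2
  prim : IsPrimitiveRoot ζ p
  prime_lam : Prime (ζ - 1)
  assoc : Associated ((ζ - 1) ^ (p - 1)) (p : R)
  int_mod_lam : ∀ x : R, ∃ n : ℤ, (ζ - 1) ∣ x - n
  lam_dvd_int : ∀ n : ℤ, (ζ - 1) ∣ (n : R) → (p : ℤ) ∣ n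
  pow_int_mod_p : ∀ x : R, ∃ n : ℤ, (p : R) ∣ x ^ p - n
  kummer : ∀ u : Rˣ, (∃ n : ℤ, (p : R) ∣ (u : R) - n) → ∃ v : Rˣ, u = v ^ p

section Abstract

variable {R : Type*} [CommRing R] [IsDomain R] [IsPrincipalIdealRing R]
variable {p : ℕ} {ζ : R}

/-- In a PID, pairwise coprime elements whose product is associated to a `k`-th power are
each associated to a `k`-th power. -/
theorem exists_associated_pow_of_prod {ι : Type*} (s : Finset ι) (f : ι → R) (c : R) (k : ℕ)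
    (hcop : ∀ i ∈ s, ∀ j ∈ s, i ≠ j → IsCoprime (f i) (f j))
    (hprod : Associated (c ^ k) (∏ i ∈ s, f i)) :
    ∀ i ∈ s, ∃ d : R, Associated (d ^ k) (f i) := by
  classical
  intro i hi
  rw [← Finset.insert_erase hi, Finset.prod_insert (Finset.notMem_erase i s)] at hprod
  refine exists_associated_pow_of_associated_pow_mul
    (IsCoprime.prod_right fun j hj => hcop i hi j (Finset.erase_subset i s hj) fun hij => ?_) hprod
  rw [hij] at hj
  exact (Finset.notMem_erase _ s) hj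

theorem Setup.lam_ne_zero (h : Setup R p ζ) : ζ - 1 ≠ 0 := h.prime_lam.ne_zero

theorem Setup.lam_dvd_p (h : Setup R p ζ) : (ζ - 1) ∣ (p : R) := by
  have h1 : (ζ - 1) ∣ (ζ - 1) ^ (p - 1) :=
    dvd_pow_self _ (by have := h.prime_p.two_le; omega)
  exact h1.trans h.assoc.dvd

theorem Setup.lam_dvd_of_p_dvd (h : Setup R p ζ) {x : R} (hx : (p : R) ∣ x) : (ζ - 1) ∣ x :=
  h.lam_dvd_p.trans hx

theorem Setup.one_mem (h : Setup R p ζ) : (1 : R) ∈ nthRootsFinset p (1 : R) := by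
  rw [mem_nthRootsFinset h.prime_p.pos]; simp

theorem Setup.zeta_pow_mem (h : Setup R p ζ) (i : ℕ) : ζ ^ i ∈ nthRootsFinset p (1 : R) := by
  rw [mem_nthRootsFinset h.prime_p.pos, ← pow_mul, mul_comm, pow_mul, h.prim.pow_eq_one, one_pow]

theorem Setup.zeta_mem (h : Setup R p ζ) : ζ ∈ nthRootsFinset p (1 : R) := by
  simpa using h.zeta_pow_mem 1

theorem Setup.lam_dvd_sub (h : Setup R p ζ) {η₁ η₂ : R} (h₁ : η₁ ∈ nthRootsFinset p (1 : R))
    (h₂ : η₂ ∈ nthRootsFinset p (1 : R)) : (ζ - 1) ∣ η₁ - η₂ :=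
  h.prim.sub_one_dvd_sub h.prime_p h₁ h₂

theorem Setup.exists_unit_sub (h : Setup R p ζ) {η₁ η₂ : R} (h₁ : η₁ ∈ nthRootsFinset p (1 : R))
    (h₂ : η₂ ∈ nthRootsFinset p (1 : R)) (hne : η₁ ≠ η₂) :
    ∃ u : Rˣ, (ζ - 1) * u = η₁ - η₂ :=
  h.prim.nthRootsFinset_pairwise_associated_sub_one_sub_of_prime h.prime_p h₁ h₂ hne

theorem Setup.pow_root (h : Setup R p ζ) {η : R} (hη : η ∈ nthRootsFinset p (1 : R)) :
    η ^ p = 1 := (mem_nthRootsFinset h.prime_p.pos 1).1 hη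

theorem Setup.prod_eq (h : Setup R p ζ) (x y : R) :
    x ^ p + y ^ p = ∏ η ∈ nthRootsFinset p (1 : R), (x + η * y) :=
  h.prim.pow_add_pow_eq_prod_add_mul x y (h.prime_p.odd_of_ne_two h.odd)

/-- `ζ - 1` divides `∑ j < i, ζ ^ j - i`. -/
theorem Setup.lam_dvd_geom_sum_sub (h : Setup R p ζ) (i : ℕ) :
    (ζ - 1) ∣ (∑ j ∈ Finset.range i, ζ ^ j) - (i : R) := by
  have : (∑ j ∈ Finset.range i, ζ ^ j) - (i : R) = ∑ j ∈ Finset.range i, (ζ ^ j - 1) := by
    simp [Finset.sum_sub_distrib]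
  rw [this]
  refine Finset.dvd_sum fun j _ => ?_
  simpa using sub_dvd_pow_sub_pow ζ 1 j

/-- If `λ ∣ x + y` and `λ ∤ y`, some `x + η y` is divisible by `λ ^ 2`. -/
theorem Setup.exists_root_sq_dvd (h : Setup R p ζ) {x y : R} (hxy : (ζ - 1) ∣ x + y)
    (hy : ¬ (ζ - 1) ∣ y) :
    ∃ η ∈ nthRootsFinset p (1 : R), (ζ - 1) ^ 2 ∣ x + η * y := by
  have : Fact p.Prime := ⟨h.prime_p⟩
  obtain ⟨w, hw⟩ := hxy
  obtain ⟨a, ha⟩ := h.int_mod_lam w
  obtain ⟨b, hb⟩ := h.int_mod_lam y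
  have hpb : ¬ (p : ℤ) ∣ b := by
    intro hpb
    apply hy
    have h1 : (ζ - 1) ∣ ((b : ℤ) : R) := by
      obtain ⟨k, rfl⟩ := hpb
      push_cast
      exact Dvd.dvd.mul_right h.lam_dvd_p _
    have := dvd_add hb h1
    simpa using this
  have hb0 : (b : ZMod p) ≠ 0 := by
    rwa [Ne, ZMod.intCast_zmod_eq_zero_iff_dvd]
  set i : ℕ := ((-(a : ZMod p)) * (b : ZMod p)⁻¹).val with hi
  have hdiv : (p : ℤ) ∣ a + i * b := by
    rw [← ZMod.intCast_zmod_eq_zero_iff_dvd]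
    push_cast
    rw [hi, ZMod.natCast_val, ZMod.cast_id', id_eq, mul_assoc, inv_mul_cancel₀ hb0]
    ring
  refine ⟨ζ ^ i, h.zeta_pow_mem i, ?_⟩
  have hgeom := h.lam_dvd_geom_sum_sub i
  set g : R := ∑ j ∈ Finset.range i, ζ ^ j with hg
  have hg' : ζ ^ i - 1 = (ζ - 1) * g := by
    rw [hg, mul_comm]; exact (geom_sum_mul ζ i).symm
  have h2 : x + ζ ^ i * y = (ζ - 1) * (w + g * y) := by
    have : x + ζ ^ i * y = (x + y) + (ζ ^ i - 1) * y := by ring
    rw [this, hw, hg']; ring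
  rw [h2, pow_two]
  refine mul_dvd_mul_left _ ?_
  have h3 : w + g * y = (w - a) + (g - i) * y + i * (y - b) + ((a + i * b : ℤ) : R) := by
    push_cast; ring
  rw [h3]
  refine dvd_add (dvd_add (dvd_add ha (Dvd.dvd.mul_right hgeom _)) (Dvd.dvd.mul_left hb _)) ?_
  obtain ⟨k, hk⟩ := hdiv
  rw [hk]
  push_cast
  exact Dvd.dvd.mul_right h.lam_dvd_p _

/-- Cancellation: if `λ ^ k ∣ λ ^ j * w` with `λ ∤ w` then `k ≤ j`. -/
theorem Setup.le_of_pow_dvd (h : Setup R p ζ) {k j : ℕ} {w : R} (hw : ¬ (ζ - 1) ∣ w)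
    (hdvd : (ζ - 1) ^ k ∣ (ζ - 1) ^ j * w) : k ≤ j := by
  by_contra hlt
  rw [not_le] at hlt
  have h1 : (ζ - 1) ^ (j + 1) ∣ (ζ - 1) ^ j * w := (pow_dvd_pow _ hlt).trans hdvd
  rw [pow_succ] at h1
  exact hw ((mul_dvd_mul_iff_left (pow_ne_zero j h.lam_ne_zero)).1 h1)

/-- The descent step, assuming `λ ^ 2 ∣ x + y`. -/
theorem Setup.descent_aux (h : Setup R p ζ) {m : ℕ} (hm : 1 ≤ m) {x y z : R} {ε : Rˣ}
    (hxy : IsCoprime x y) (hy : ¬ (ζ - 1) ∣ y) (hz : ¬ (ζ - 1) ∣ z)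
    (H : x ^ p + y ^ p = ε * ((ζ - 1) ^ m * z) ^ p) (hsq : (ζ - 1) ^ 2 ∣ x + y) :
    ∃ n, 1 ≤ n ∧ n < m ∧ ∃ (x' y' z' : R) (ε' : Rˣ), IsCoprime x' y' ∧ ¬ (ζ - 1) ∣ y' ∧
      ¬ (ζ - 1) ∣ z' ∧ x' ^ p + y' ^ p = ε' * ((ζ - 1) ^ n * z') ^ p := by
  have hp := h.prime_p
  have hp2 : 2 ≤ p := hp.two_le
  have hp3 : 3 ≤ p := by have := h.odd; omega
  have hl0 : (ζ - 1) ≠ 0 := h.lam_ne_zero
  have hz0 : z ≠ 0 := fun h0 => hz (h0 ▸ dvd_zero _)
  -- all factors are divisible by `λ`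
  have hdvd : ∀ η : R, ∃ c : R, η ∈ nthRootsFinset p (1 : R) → x + η * y = (ζ - 1) * c := by
    intro η
    by_cases hη : η ∈ nthRootsFinset p (1 : R)
    · have h1 : (ζ - 1) ∣ x + y := (dvd_pow_self (ζ - 1) two_ne_zero).trans hsq
      have h2 : (ζ - 1) ∣ η - 1 := h.lam_dvd_sub hη h.one_mem
      have h3 : (ζ - 1) ∣ x + η * y := by
        have : x + η * y = (x + y) + (η - 1) * y := by ring
        rw [this]; exact dvd_add h1 (Dvd.dvd.mul_right h2 _)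
      obtain ⟨c, hc⟩ := h3
      exact ⟨c, fun _ => hc⟩
    · exact ⟨0, fun h' => absurd h' hη⟩
  choose c hc using hdvd
  -- the quotients for `η ≠ 1` are prime to `λ`
  have hnd : ∀ η ∈ nthRootsFinset p (1 : R), η ≠ 1 → ¬ (ζ - 1) ∣ c η := by
    intro η hη hne hdiv
    obtain ⟨u, hu⟩ := h.exists_unit_sub hη h.one_mem hne
    have h1 : (ζ - 1) ^ 2 ∣ x + η * y := by
      rw [hc η hη, pow_two]; exact mul_dvd_mul_left _ hdiv
    have h2 : (ζ - 1) ^ 2 ∣ (η - 1) * y := by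
      have : (η - 1) * y = (x + η * y) - (x + y) := by ring
      rw [this]; exact dvd_sub h1 hsq
    rw [← hu, pow_two, mul_assoc] at h2
    have h3 : (ζ - 1) ∣ ↑u * y := (mul_dvd_mul_iff_left hl0).1 h2
    exact hy ((Units.dvd_mul_left).1 h3)
  -- the quotients are pairwise coprime
  have hcop : ∀ η₁ ∈ nthRootsFinset p (1 : R), ∀ η₂ ∈ nthRootsFinset p (1 : R), η₁ ≠ η₂ →
      IsCoprime (c η₁) (c η₂) := by
    intro η₁ h₁ η₂ h₂ hne
    obtain ⟨u, hu⟩ := h.exists_unit_sub h₁ h₂ hne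
    obtain ⟨a, b, hab⟩ := hxy
    have e1 : c η₁ - c η₂ = u * y := by
      apply mul_left_cancel₀ hl0
      rw [mul_sub, ← hc η₁ h₁, ← hc η₂ h₂, ← mul_assoc, hu]; ring
    have e2 : η₂ * c η₁ - η₁ * c η₂ = -(u * x) := by
      apply mul_left_cancel₀ hl0
      have e3 : (ζ - 1) * (η₂ * c η₁ - η₁ * c η₂) = η₂ * ((ζ - 1) * c η₁) - η₁ * ((ζ - 1) * c η₂) := by
        ring
      rw [e3, ← hc η₁ h₁, ← hc η₂ h₂]
      have e4 : (ζ - 1) * -(↑u * x) = -(((ζ - 1) * u) * x) := by ring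
      rw [e4, hu]; ring
    refine ⟨↑u⁻¹ * (b - a * η₂), ↑u⁻¹ * (a * η₁ - b), ?_⟩
    have e5 : ↑u⁻¹ * (b - a * η₂) * c η₁ + ↑u⁻¹ * (a * η₁ - b) * c η₂ =
        ↑u⁻¹ * (b * (c η₁ - c η₂) - a * (η₂ * c η₁ - η₁ * c η₂)) := by ring
    rw [e5, e1, e2]
    have e6 : (↑u⁻¹ : R) * (b * (↑u * y) - a * -(↑u * x)) = (↑u⁻¹ * ↑u) * (a * x + b * y) := by
      ring
    rw [e6, hab]; simp
  -- the product of the quotients
  have hcard : (nthRootsFinset p (1 : R)).card = p := h.prim.card_nthRootsFinset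
  have hprod : ∏ η ∈ nthRootsFinset p (1 : R), c η = ε * ((ζ - 1) ^ (m - 1) * z) ^ p := by
    apply mul_left_cancel₀ (pow_ne_zero p hl0)
    have e1 : (ζ - 1) ^ p * ∏ η ∈ nthRootsFinset p (1 : R), c η =
        ∏ η ∈ nthRootsFinset p (1 : R), (x + η * y) := by
      have e0 : (ζ - 1) ^ p = ∏ _η ∈ nthRootsFinset p (1 : R), (ζ - 1) := by
        rw [Finset.prod_const, hcard]
      rw [e0, ← Finset.prod_mul_distrib]
      exact Finset.prod_congr rfl fun η hη => (hc η hη).symm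
    rw [e1, ← h.prod_eq, H]
    obtain ⟨m', rfl⟩ : ∃ m', m = m' + 1 := ⟨m - 1, by omega⟩
    simp only [Nat.add_sub_cancel]
    have aux : ∀ (l z e : R) (m' p : ℕ),
        e * (l ^ (m' + 1) * z) ^ p = l ^ p * (e * (l ^ m' * z) ^ p) := by
      intros; ring
    exact aux _ _ _ _ _
  have hprod0 : ∏ η ∈ nthRootsFinset p (1 : R), c η ≠ 0 := by
    rw [hprod]
    exact mul_ne_zero ε.ne_zero (pow_ne_zero _ (mul_ne_zero (pow_ne_zero _ hl0) hz0))
  have hc0 : ∀ η ∈ nthRootsFinset p (1 : R), c η ≠ 0 := fun η hη =>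
    (Finset.prod_ne_zero_iff.1 hprod0) η hη
  -- each quotient is a `p`-th power up to a unit
  have hpow := exists_associated_pow_of_prod (nthRootsFinset p (1 : R)) c ((ζ - 1) ^ (m - 1) * z) p hcop
    ⟨ε, by rw [hprod, mul_comm]⟩
  have h1S := h.one_mem
  have hζS := h.zeta_mem
  have hζ'S := h.zeta_pow_mem (p - 1)
  obtain ⟨d0, u0, hd0⟩ := hpow 1 h1S
  obtain ⟨d1, u1, hd1⟩ := hpow ζ hζS
  obtain ⟨d2, u2, hd2⟩ := hpow (ζ ^ (p - 1)) hζ'S
  have hζ1 : ζ ≠ 1 := h.prim.ne_one hp.one_lt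
  have hζ'1 : ζ ^ (p - 1) ≠ 1 := h.prim.pow_ne_one_of_pos_of_lt (by omega) (by omega)
  have hζζ' : ζ ≠ ζ ^ (p - 1) := by
    intro heq
    have := h.prim.pow_inj (i := 1) (j := p - 1) (by omega) (by omega) (by simpa using heq)
    omega
  -- `λ ∣ c 1`
  have hlc1 : (ζ - 1) ∣ c 1 := by
    have e1 := hc 1 h1S
    rw [one_mul] at e1
    rw [e1, pow_two] at hsq
    exact (mul_dvd_mul_iff_left hl0).1 hsq
  have hd0ne : d0 ≠ 0 := by
    intro h0
    have := hc0 1 h1S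
    rw [← hd0, h0, zero_pow hp.ne_zero, zero_mul] at this
    exact this rfl
  obtain ⟨n, ρ, hρ, hd0n⟩ := WfDvdMonoid.max_power_factor' hd0ne h.prime_lam.not_isUnit
  have hn1 : 1 ≤ n := by
    by_contra hn
    have hn0 : n = 0 := by omega
    rw [hn0, pow_zero, one_mul] at hd0n
    rw [← hd0] at hlc1
    have := h.prime_lam.dvd_of_dvd_pow ((Units.dvd_mul_right).1 hlc1)
    exact hρ (hd0n ▸ this)
  have hnm : n < m := by
    have e1 : (ζ - 1) ^ (n * p) ∣ c 1 := by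
      rw [← hd0, hd0n, mul_pow, ← pow_mul, mul_assoc]
      exact dvd_mul_right _ _
    have e2 : c 1 ∣ ∏ η ∈ nthRootsFinset p (1 : R), c η := Finset.dvd_prod_of_mem c h1S
    have e3 : ∏ η ∈ nthRootsFinset p (1 : R), c η = (ζ - 1) ^ ((m - 1) * p) * (ε * z ^ p) := by
      rw [hprod, mul_pow, ← pow_mul]; ring
    have e4 : ¬ (ζ - 1) ∣ ε * z ^ p := by
      intro hd
      exact hz (h.prime_lam.dvd_of_dvd_pow ((Units.dvd_mul_left).1 hd))
    have e5 := h.le_of_pow_dvd e4 (e3 ▸ e1.trans e2)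
    have := Nat.le_of_mul_le_mul_right e5 hp.pos
    omega
  -- the linear relation
  have hζp : ζ * ζ ^ (p - 1) = 1 := by
    rw [← pow_succ', Nat.sub_add_cancel hp.one_le, h.prim.pow_eq_one]
  have hlin : c ζ + ζ * c (ζ ^ (p - 1)) = (1 + ζ) * c 1 := by
    apply mul_left_cancel₀ hl0
    have e1 := hc ζ hζS
    have e2 := hc _ hζ'S
    have e0 := hc 1 h1S
    calc (ζ - 1) * (c ζ + ζ * c (ζ ^ (p - 1)))
        = (ζ - 1) * c ζ + ζ * ((ζ - 1) * c (ζ ^ (p - 1))) := by ring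
      _ = (x + ζ * y) + ζ * (x + ζ ^ (p - 1) * y) := by rw [← e1, ← e2]
      _ = (1 + ζ) * (x + 1 * y) + (ζ * ζ ^ (p - 1) - 1) * y := by ring
      _ = (1 + ζ) * ((ζ - 1) * c 1) := by rw [hζp, e0]; ring
      _ = (ζ - 1) * ((1 + ζ) * c 1) := by ring
  -- units
  obtain ⟨uζ, huζ⟩ : ∃ u : Rˣ, (u : R) = ζ := (h.prim.isUnit hp.ne_zero)
  obtain ⟨uζ1, huζ1⟩ : ∃ u : Rˣ, (u : R) = 1 + ζ := by
    have := h.prim.geom_sum_isUnit hp2 (j := 2)
      ((Nat.coprime_primes Nat.prime_two hp).2 (Ne.symm h.odd))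
    have h2 : IsUnit (1 + ζ) := by simpa [Finset.sum_range_succ] using this
    exact h2
  -- the new equation
  have hnew : d1 ^ p + ↑(u1⁻¹ * uζ * u2) * d2 ^ p =
      ↑(u1⁻¹ * uζ1 * u0) * ((ζ - 1) ^ n * ρ) ^ p := by
    have e1 : d1 ^ p * ↑u1 + ζ * (d2 ^ p * ↑u2) = (1 + ζ) * (d0 ^ p * ↑u0) := by
      rw [hd0, hd1, hd2]; exact hlin
    have e2 : d1 ^ p + ↑(u1⁻¹ * uζ * u2) * d2 ^ p =
        ↑u1⁻¹ * (d1 ^ p * ↑u1 + ζ * (d2 ^ p * ↑u2)) := by
      push_cast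
      rw [huζ]
      have : (↑u1⁻¹ : R) * (d1 ^ p * ↑u1 + ζ * (d2 ^ p * ↑u2)) =
          (↑u1⁻¹ * ↑u1) * d1 ^ p + ↑u1⁻¹ * ζ * ↑u2 * d2 ^ p := by ring
      rw [this]; simp
    rw [e2, e1, ← hd0n]
    push_cast
    rw [huζ1]; ring
  -- `λ ∤ d2`
  have hnd2 : ¬ (ζ - 1) ∣ d2 := by
    intro hd
    apply hnd _ hζ'S hζ'1
    rw [← hd2]
    exact Dvd.dvd.mul_right (dvd_pow hd hp.ne_zero) _
  -- apply Kummer's lemma to `η := u1⁻¹ * uζ * u2`
  have hpdvd : (p : R) ∣ ((ζ - 1) ^ n * ρ) ^ p := by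
    rw [mul_pow, ← pow_mul]
    have : (p - 1) ≤ n * p :=
      calc p - 1 ≤ p := Nat.sub_le _ _
        _ = 1 * p := (one_mul p).symm
        _ ≤ n * p := Nat.mul_le_mul_right p hn1
    exact Dvd.dvd.mul_right (h.assoc.symm.dvd.trans (pow_dvd_pow _ this)) _
  obtain ⟨a, ha⟩ := h.pow_int_mod_p d1
  obtain ⟨b, hb⟩ := h.pow_int_mod_p d2
  have hpb : IsCoprime b (p : ℤ) := by
    rw [isCoprime_comm, (Nat.prime_iff_prime_int.1 hp).coprime_iff_not_dvd]
    intro hpb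
    apply hnd2
    apply h.prime_lam.dvd_of_dvd_pow (n := p)
    have e1 : (ζ - 1) ∣ ((b : ℤ) : R) := by
      obtain ⟨k, rfl⟩ := hpb
      push_cast
      exact Dvd.dvd.mul_right h.lam_dvd_p _
    have := dvd_add (h.lam_dvd_of_p_dvd hb) e1
    simpa using this
  obtain ⟨b', k, hbk⟩ := hpb
  have hkum : ∃ n' : ℤ, (p : R) ∣ ((u1⁻¹ * uζ * u2 : Rˣ) : R) - n' := by
    refine ⟨-(a * b'), ?_⟩
    set η : R := ((u1⁻¹ * uζ * u2 : Rˣ) : R) with hη
    have e1 : (p : R) ∣ (a : R) + η * b := by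
      have e2 : (a : R) + η * b = (d1 ^ p + η * d2 ^ p) - (d1 ^ p - a) - η * (d2 ^ p - b) := by
        ring
      rw [e2, hnew]
      exact dvd_sub (dvd_sub (Dvd.dvd.mul_left hpdvd _) ha) (Dvd.dvd.mul_left hb _)
    have e3 : η - ((-(a * b') : ℤ) : R) = η * ((k * p : ℤ) : R) + b' * ((a : R) + η * b) := by
      have : ((k * p : ℤ) : R) = 1 - ((b' * b : ℤ) : R) := by
        have h1 := congrArg (Int.cast : ℤ → R) hbk
        push_cast at h1 ⊢
        linear_combination h1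
      rw [this]; push_cast; ring
    rw [e3]
    refine dvd_add (Dvd.dvd.mul_left ?_ _) (Dvd.dvd.mul_left e1 _)
    push_cast
    exact dvd_mul_left _ _
  obtain ⟨v, hv⟩ := h.kummer _ hkum
  refine ⟨n, hn1, hnm, d1, v * d2, ρ, u1⁻¹ * uζ1 * u0, ?_, ?_, hρ, ?_⟩
  · have e1 : IsCoprime (c ζ) (c (ζ ^ (p - 1))) := hcop _ hζS _ hζ'S hζζ'
    rw [← hd1, ← hd2] at e1
    have e2 : IsCoprime (d1 ^ p) (d2 ^ p) :=
      ((isCoprime_mul_unit_right_left u1.isUnit _ _).1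
        ((isCoprime_mul_unit_right_right u2.isUnit _ _).1 e1))
    have e3 : IsCoprime d1 d2 := (IsCoprime.pow_iff hp.pos hp.pos).1 e2
    exact (isCoprime_mul_unit_left_right v.isUnit _ _).2 e3
  · intro hd
    exact hnd2 ((Units.dvd_mul_left).1 hd)
  · rw [mul_pow, ← hnew, hv]
    push_cast
    ring

/-- The descent step. -/
theorem Setup.descent (h : Setup R p ζ) {m : ℕ} (hm : 1 ≤ m) {x y z : R} {ε : Rˣ}
    (hxy : IsCoprime x y) (hy : ¬ (ζ - 1) ∣ y) (hz : ¬ (ζ - 1) ∣ z)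
    (H : x ^ p + y ^ p = ε * ((ζ - 1) ^ m * z) ^ p) :
    ∃ n, 1 ≤ n ∧ n < m ∧ ∃ (x' y' z' : R) (ε' : Rˣ), IsCoprime x' y' ∧ ¬ (ζ - 1) ∣ y' ∧
      ¬ (ζ - 1) ∣ z' ∧ x' ^ p + y' ^ p = ε' * ((ζ - 1) ^ n * z') ^ p := by
  have hl : (ζ - 1) ∣ x ^ p + y ^ p := by
    rw [H, mul_pow, ← pow_mul]
    refine Dvd.dvd.mul_left (Dvd.dvd.mul_right (dvd_pow_self _ ?_) _) _
    exact (Nat.mul_pos hm h.prime_p.pos).ne'
  rw [h.prod_eq] at hl
  obtain ⟨η0, hη0, hdiv0⟩ := (h.prime_lam.dvd_finsetProd_iff _).1 hl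
  have hxy' : (ζ - 1) ∣ x + y := by
    have : x + y = (x + η0 * y) + (1 - η0) * y := by ring
    rw [this]
    exact dvd_add hdiv0 (Dvd.dvd.mul_right (h.lam_dvd_sub h.one_mem hη0) _)
  obtain ⟨η, hη, hsq⟩ := h.exists_root_sq_dvd hxy' hy
  have hηu : IsUnit η := IsUnit.of_pow_eq_one (h.pow_root hη) h.prime_p.ne_zero
  refine h.descent_aux hm (y := η * y) (ε := ε) ?_ ?_ hz ?_ hsq
  · exact (isCoprime_mul_unit_left_right hηu _ _).2 hxy
  · intro hd; exact hy ((hηu.dvd_mul_left).1 hd)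
  · rw [mul_pow, h.pow_root hη, one_mul, H]

/-- The generalised Fermat equation has no solution. -/
theorem Setup.no_solution (h : Setup R p ζ) : ∀ m : ℕ, 1 ≤ m → ∀ (x y z : R) (ε : Rˣ),
    IsCoprime x y → ¬ (ζ - 1) ∣ y → ¬ (ζ - 1) ∣ z → x ^ p + y ^ p ≠ ε * ((ζ - 1) ^ m * z) ^ p := by
  intro m
  induction m using Nat.strong_induction_on with
  | _ m ih =>
    intro hm x y z ε hxy hy hz H
    obtain ⟨n, hn1, hnm, x', y', z', ε', hxy', hy', hz', H'⟩ := h.descent hm hxy hy hz H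
    exact ih n hnm hn1 x' y' z' ε' hxy' hy' hz' H'

/-- No solution of the Fermat equation with `λ ∣ z`, `z ≠ 0`. -/
theorem Setup.no_solution' (h : Setup R p ζ) (x y z : R) (hxy : IsCoprime x y)
    (hy : ¬ (ζ - 1) ∣ y) (hz0 : z ≠ 0) (hz : (ζ - 1) ∣ z) : x ^ p + y ^ p ≠ z ^ p := by
  obtain ⟨m, z', hz', rfl⟩ := WfDvdMonoid.max_power_factor' hz0 h.prime_lam.not_isUnit
  have hm : 1 ≤ m := by
    by_contra hm
    have hm0 : m = 0 := by omega
    subst hm0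
    simp only [pow_zero, one_mul] at hz
    exact hz' hz
  have := h.no_solution m hm x y z' 1 hxy hy hz'
  simpa using this

end Abstract

section NumberField

open NumberField

universe u

variable {p : ℕ} [hpf : Fact p.Prime] (K : Type u) [Field K] [NumberField K]
  [IsCyclotomicExtension {p} ℚ K]

/-- Every element of `𝓞 K` is congruent to a rational integer modulo `ζ - 1`. -/
theorem int_mod_lam {ζ : K} (hζ : IsPrimitiveRoot ζ p) (x : 𝓞 K) :
    ∃ n : ℤ, (hζ.toInteger - 1) ∣ x - n := by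
  have htop := IsCyclotomicExtension.Rat.adjoin_singleton_eq_top hζ
  have hx : x ∈ Algebra.adjoin ℤ {hζ.toInteger} := by rw [htop]; exact Algebra.mem_top
  induction hx using Algebra.adjoin_induction with
  | mem y hy =>
    rw [Set.mem_singleton_iff] at hy
    subst hy
    exact ⟨1, by simp⟩
  | algebraMap r => exact ⟨r, by simp⟩
  | add y z _ _ hy hz =>
    obtain ⟨a, ha⟩ := hy
    obtain ⟨b, hb⟩ := hz
    refine ⟨a + b, ?_⟩
    have : y + z - ((a + b : ℤ) : 𝓞 K) = (y - a) + (z - b) := by push_cast; ring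
    rw [this]; exact dvd_add ha hb
  | mul y z _ _ hy hz =>
    obtain ⟨a, ha⟩ := hy
    obtain ⟨b, hb⟩ := hz
    refine ⟨a * b, ?_⟩
    have : y * z - ((a * b : ℤ) : 𝓞 K) = (y - a) * z + a * (z - b) := by push_cast; ring
    rw [this]; exact dvd_add (Dvd.dvd.mul_right ha _) (Dvd.dvd.mul_left hb _)

/-- The `p`-th power of every element of `𝓞 K` is congruent to a rational integer modulo `p`. -/
theorem pow_int_mod_p {ζ : K} (hζ : IsPrimitiveRoot ζ p) (x : 𝓞 K) :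
    ∃ n : ℤ, (p : 𝓞 K) ∣ x ^ p - n := by
  have htop := IsCyclotomicExtension.Rat.adjoin_singleton_eq_top hζ
  have hx : x ∈ Algebra.adjoin ℤ {hζ.toInteger} := by rw [htop]; exact Algebra.mem_top
  induction hx using Algebra.adjoin_induction with
  | mem y hy =>
    rw [Set.mem_singleton_iff] at hy
    subst hy
    refine ⟨1, ?_⟩
    rw [hζ.toInteger_isPrimitiveRoot.pow_eq_one]
    simp
  | algebraMap r => exact ⟨r ^ p, by simp⟩
  | add y z _ _ hy hz =>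
    obtain ⟨a, ha⟩ := hy
    obtain ⟨b, hb⟩ := hz
    obtain ⟨r, hr⟩ := exists_add_pow_prime_eq hpf.out y z
    refine ⟨a + b, ?_⟩
    have : (y + z) ^ p - ((a + b : ℤ) : 𝓞 K) = (y ^ p - a) + (z ^ p - b) + p * (y * z * r) := by
      rw [hr]; push_cast; ring
    rw [this]; exact dvd_add (dvd_add ha hb) (dvd_mul_right _ _)
  | mul y z _ _ hy hz =>
    obtain ⟨a, ha⟩ := hy
    obtain ⟨b, hb⟩ := hz
    refine ⟨a * b, ?_⟩
    have : (y * z) ^ p - ((a * b : ℤ) : 𝓞 K) = (y ^ p - a) * z ^ p + a * (z ^ p - b) := by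
      push_cast; ring
    rw [this]; exact dvd_add (Dvd.dvd.mul_right ha _) (Dvd.dvd.mul_left hb _)

/-- The ring of integers of the `p`-th cyclotomic field satisfies `Setup`, given Kummer's
lemma. -/
theorem setup_of_kummerProp (hodd : p ≠ 2) (hkum : KummerProp p K) {ζ : K}
    (hζ : IsPrimitiveRoot ζ p) : Setup (𝓞 K) p hζ.toInteger where
  prime_p := hpf.out
  odd := hodd
  prim := hζ.toInteger_isPrimitiveRoot
  prime_lam := hζ.zeta_sub_one_prime'
  assoc := IsCyclotomicExtension.Rat.associated_zeta_sub_one_pow_prime p hζ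
  int_mod_lam := int_mod_lam K hζ
  lam_dvd_int := fun _ hn => (IsCyclotomicExtension.Rat.zeta_sub_one_dvd_intCast_iff' p hζ).1 hn
  pow_int_mod_p := pow_int_mod_p K hζ
  kummer := hkum

/-- Case II when `p` divides the right-hand side. -/
theorem caseII_core (hodd : p ≠ 2) (hpid : IsPrincipalIdealRing (𝓞 K)) (hkum : KummerProp p K)
    {x y z : ℤ} (hxy : IsCoprime x y) (hz0 : z ≠ 0) (hpz : (p : ℤ) ∣ z) :
    x ^ p + y ^ p ≠ z ^ p := by
  intro H
  have hpp : p.Prime := hpf.out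
  have hpint : Prime (p : ℤ) := Nat.prime_iff_prime_int.1 hpp
  have hζ := IsCyclotomicExtension.zeta_spec p ℚ K
  have hS := setup_of_kummerProp K hodd hkum hζ
  have hpy : ¬ (p : ℤ) ∣ y := by
    intro hpy
    have hpx : (p : ℤ) ∣ x := by
      have h1 : (p : ℤ) ∣ x ^ p := by
        have : x ^ p = z ^ p - y ^ p := by linarith
        rw [this]
        exact dvd_sub (dvd_pow hpz hpp.ne_zero) (dvd_pow hpy hpp.ne_zero)
      exact hpint.dvd_of_dvd_pow h1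
    exact hpint.not_isUnit (hxy.isUnit_of_dvd' hpx hpy)
  have := hpid
  refine hS.no_solution' (x : 𝓞 K) y z hxy.intCast ?_ ?_ ?_ ?_
  · intro hd
    exact hpy (hS.lam_dvd_int y hd)
  · exact_mod_cast hz0
  · obtain ⟨k, rfl⟩ := hpz
    push_cast
    exact Dvd.dvd.mul_right hS.lam_dvd_p _
  · exact_mod_cast H

/-- Coprimality of `c` and `b` from that of `a` and `b` and the Fermat equation. -/
theorem isCoprime_of_fermat {a b c : ℤ} {n : ℕ} (hn : 0 < n) (hab : IsCoprime a b)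
    (H : a ^ n + b ^ n = c ^ n) : IsCoprime c b := by
  have h1 : IsCoprime (a ^ n) b := hab.pow_left
  have h2 : IsCoprime (a ^ n + b * b ^ (n - 1)) b := h1.add_mul_left_left _
  have h3 : b * b ^ (n - 1) = b ^ n := by
    rw [← pow_succ', Nat.sub_add_cancel hn]
  rw [h3, H] at h2
  exact (IsCoprime.pow_left_iff hn).1 h2

end NumberField

end Fermat.Agent.Kummer.CaseII

namespace Fermat.Agent.Kummer

open NumberField

universe u

/-- **Case II** of Fermat's Last Theorem for a prime `p ≥ 5` such that the ring of integers of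
the `p`-th cyclotomic field is a PID satisfying Kummer's lemma. -/
theorem caseII {p : ℕ} [Fact p.Prime] (hp5 : 5 ≤ p) (K : Type u) [Field K] [NumberField K]
    [IsCyclotomicExtension {p} ℚ K] (hpid : IsPrincipalIdealRing (𝓞 K))
    (hkum : KummerProp p K)
    {a b c : ℤ} (ha : a ≠ 0) (hb : b ≠ 0) (hc : c ≠ 0) (hab : IsCoprime a b)
    (hp : (p : ℤ) ∣ a * b * c) :
    a ^ p + b ^ p ≠ c ^ p := by
  have hpp : p.Prime := Fact.out
  have hodd : p ≠ 2 := by omega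
  have hoddp : Odd p := hpp.odd_of_ne_two hodd
  have hpint : Prime (p : ℤ) := Nat.prime_iff_prime_int.1 hpp
  intro H
  rcases hpint.dvd_mul.1 hp with h1 | hpc
  · rcases hpint.dvd_mul.1 h1 with hpa | hpb
    · -- `p ∣ a`: use `c ^ p + (-b) ^ p = a ^ p`
      refine CaseII.caseII_core K hodd hpid hkum (x := c) (y := -b) (z := a) ?_ ha hpa ?_
      · exact (CaseII.isCoprime_of_fermat hpp.pos hab H).neg_right
      · rw [hoddp.neg_pow]; linarith
    · -- `p ∣ b`: use `c ^ p + (-a) ^ p = b ^ p`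
      refine CaseII.caseII_core K hodd hpid hkum (x := c) (y := -a) (z := b) ?_ hb hpb ?_
      · have H' : b ^ p + a ^ p = c ^ p := by linarith
        exact (CaseII.isCoprime_of_fermat hpp.pos hab.symm H').neg_right
      · rw [hoddp.neg_pow]; linarith
  · exact CaseII.caseII_core K hodd hpid hkum hab hc hpc H

end Fermat.Agent.Kummer
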