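import Fermat.Agent.Kummer.CaseI

/-!
# Kummer route, piece T4 (A): reduction of case II over `ℤ` to the descent statement in `𝓞 K`.
-/

set_option autoImplicit false

namespace Fermat.Agent.Kummer.CaseIIReduction

open NumberField

universe u

variable (p : ℕ) [hp : Fact p.Prime] (K : Type u) [Field K] [NumberField K]
  [IsCyclotomicExtension {p} ℚ K]

/-- The statement proved by the descent in `𝓞 K`: the equation
`x ^ p + y ^ p = ε * ((ζ - 1) ^ m * z) ^ p` has no solution with `m ≥ 1`, `x, y` coprime and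
`ζ - 1` dividing neither `y` nor `z`. -/
def NoSolution : Prop :=
  ¬ ∃ (x y z : 𝓞 K) (ε : (𝓞 K)ˣ) (m : ℕ), 1 ≤ m ∧ IsCoprime x y ∧
    ¬ (CaseI.zeta p K - 1) ∣ y ∧ ¬ (CaseI.zeta p K - 1) ∣ z ∧ z ≠ 0 ∧
    x ^ p + y ^ p = ε * ((CaseI.zeta p K - 1) ^ m * z) ^ p

variable {p K}

/-- From `a ^ p + b ^ p = c ^ p` with `a, b` coprime we get that `a, c` are coprime. -/
lemma isCoprime_left_of_eq {a b c : ℤ} (hab : IsCoprime a b) (H : a ^ p + b ^ p = c ^ p) :
    IsCoprime a c := by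
  have hpos : 0 < p := hp.out.pos
  have h1 : IsCoprime a (b ^ p) := hab.pow_right
  have h2 : IsCoprime a (b ^ p + a * a ^ (p - 1)) := h1.add_mul_left_right _
  have h3 : b ^ p + a * a ^ (p - 1) = c ^ p := by
    rw [← H, ← pow_succ', Nat.sub_add_cancel hpos, add_comm]
  rw [h3] at h2
  exact (IsCoprime.pow_right_iff hpos).mp h2

/-- The core of the reduction, when `p ∣ c`. -/
theorem false_of_dvd_right (hdesc : NoSolution p K) {a b c : ℤ} (hc : c ≠ 0)
    (hab : IsCoprime a b) (hpc : (p : ℤ) ∣ c) (H : a ^ p + b ^ p = c ^ p) : False := by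
  have hpos : 0 < p := hp.out.pos
  have hpprime : Prime (p : ℤ) := Nat.prime_iff_prime_int.mp hp.out
  set lam : 𝓞 K := CaseI.zeta p K - 1 with hlam
  have hlamprime : Prime lam := CaseI.zeta_sub_one_prime p K
  -- `p ∤ b`
  have hpb : ¬ (p : ℤ) ∣ b := by
    intro hb
    have hbc : IsCoprime b c := isCoprime_left_of_eq hab.symm (by rw [add_comm]; exact H)
    obtain ⟨u, v, huv⟩ := hbc
    have : (p : ℤ) ∣ 1 := by
      rw [← huv]
      exact dvd_add (dvd_mul_of_dvd_right hb _) (dvd_mul_of_dvd_right hpc _)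
    exact hpprime.not_dvd_one this
  -- `c = p ^ k * c₀`
  have hfin : FiniteMultiplicity (p : ℤ) c :=
    Int.finiteMultiplicity_iff.mpr ⟨by simpa using hp.out.ne_one, hc⟩
  obtain ⟨c₀, hc₀, hpc₀⟩ := hfin.exists_eq_pow_mul_and_not_dvd
  set k := multiplicity (p : ℤ) c with hk
  have hk1 : 1 ≤ k := by
    rcases Nat.eq_zero_or_pos k with h0 | h0
    · rw [h0, pow_zero, one_mul] at hc₀
      exact absurd (hc₀ ▸ hpc) hpc₀
    · exact h0
  have hc₀0 : c₀ ≠ 0 := by
    rintro rfl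
    exact hc (by rw [hc₀, mul_zero])
  -- `p = lam ^ (p - 1) * u`
  obtain ⟨u, hu⟩ := IsCyclotomicExtension.Rat.associated_zeta_sub_one_pow_prime p
    (IsCyclotomicExtension.zeta_spec p ℚ K)
  change lam ^ (p - 1) * (u : 𝓞 K) = (p : 𝓞 K) at hu
  set z : 𝓞 K := (u : 𝓞 K) ^ k * (c₀ : 𝓞 K) with hz
  have hcz : (c : 𝓞 K) = lam ^ ((p - 1) * k) * z := by
    rw [hc₀]
    push_cast
    rw [← hu, hz, mul_pow, pow_mul]
    ring
  have hlamb : ¬ lam ∣ (b : 𝓞 K) := fun h => hpb (CaseI.int_dvd_of_zeta_sub_one_dvd h)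
  have hlamz : ¬ lam ∣ z := by
    intro h
    rw [hz] at h
    have h' : lam ∣ (c₀ : 𝓞 K) := (IsUnit.dvd_mul_left (u.isUnit.pow k)).mp h
    exact hpc₀ (CaseI.int_dvd_of_zeta_sub_one_dvd h')
  have hz0 : z ≠ 0 := by
    rw [hz]
    refine mul_ne_zero (pow_ne_zero _ u.ne_zero) ?_
    exact_mod_cast hc₀0
  have hm : 1 ≤ (p - 1) * k := by
    have : 1 ≤ p - 1 := by have := hp.out.two_le; omega
    exact Nat.one_le_iff_ne_zero.mpr (Nat.mul_ne_zero (by omega) (by omega))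
  have hcop : IsCoprime (a : 𝓞 K) (b : 𝓞 K) := by
    have := hab.map (Int.castRingHom (𝓞 K))
    simpa using this
  have heq : (a : 𝓞 K) ^ p + (b : 𝓞 K) ^ p =
      ((1 : (𝓞 K)ˣ) : 𝓞 K) * (lam ^ ((p - 1) * k) * z) ^ p := by
    rw [Units.val_one, one_mul, ← hcz]
    exact_mod_cast congrArg (Int.cast : ℤ → 𝓞 K) H
  exact hdesc ⟨a, b, z, 1, (p - 1) * k, hm, hcop, hlamb, hlamz, hz0, heq⟩

/-- Case II over `ℤ` from the descent statement in `𝓞 K`. -/
theorem caseII_of_noSolution (hodd : p ≠ 2) (hdesc : NoSolution p K)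
    {a b c : ℤ} (ha : a ≠ 0) (hb : b ≠ 0) (hc : c ≠ 0) (hab : IsCoprime a b)
    (hpabc : (p : ℤ) ∣ a * b * c) : a ^ p + b ^ p ≠ c ^ p := by
  intro H
  have hoddp : Odd p := hp.out.odd_of_ne_two hodd
  have hpprime : Prime (p : ℤ) := Nat.prime_iff_prime_int.mp hp.out
  rcases hpprime.dvd_or_dvd hpabc with hpab | hpc
  · rcases hpprime.dvd_or_dvd hpab with hpa | hpb
    · -- `p ∣ a`: use `b ^ p + (-c) ^ p = (-a) ^ p`
      have H' : b ^ p + (-c) ^ p = (-a) ^ p := by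
        rw [hoddp.neg_pow, hoddp.neg_pow]; linarith
      have hbc : IsCoprime b (-c) :=
        (isCoprime_left_of_eq hab.symm (by rw [add_comm]; exact H)).neg_right
      exact false_of_dvd_right hdesc (neg_ne_zero.mpr ha) hbc ((dvd_neg).mpr hpa) H'
    · -- `p ∣ b`: use `a ^ p + (-c) ^ p = (-b) ^ p`
      have H' : a ^ p + (-c) ^ p = (-b) ^ p := by
        rw [hoddp.neg_pow, hoddp.neg_pow]; linarith
      have hac : IsCoprime a (-c) := (isCoprime_left_of_eq hab H).neg_right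
      exact false_of_dvd_right hdesc (neg_ne_zero.mpr hb) hac ((dvd_neg).mpr hpb) H'
  · exact false_of_dvd_right hdesc hc hab hpc H

end Fermat.Agent.Kummer.CaseIIReduction
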