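import Mathlib

/-!
# Kummer route to S10 / S11: shared definitions

FLT for the exponents 5, 7, 11, 13 via Kummer's method (the ring of integers of the
`p`-th cyclotomic field is a PID for these `p`).
-/

set_option autoImplicit false

namespace Fermat.Agent.Kummer

open NumberField

/-- Kummer's lemma, as a property of `p` and a number field `K`:
a unit congruent to a rational integer modulo `p` is a `p`-th power. -/
def KummerProp (p : ℕ) (K : Type*) [Field K] [NumberField K] : Prop :=
  ∀ u : (𝓞 K)ˣ, (∃ n : ℤ, (p : 𝓞 K) ∣ (u : 𝓞 K) - n) → ∃ v : (𝓞 K)ˣ, u = v ^ p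

end Fermat.Agent.Kummer
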