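import Fermat.Agent.Kummer.Defs

/-!
# Kummer's lemma for `p = 5, 7, 11, 13` via the logarithmic derivative

For `K = ℚ(ζ_p)` we construct a ring hom `Ψ : 𝓞 K → T[ε]`, `ζ ↦ 1 + x + ε`, where
`T = 𝔽_p[X]/(X^(p-2))` and `T[ε]` are the dual numbers.  The map
`dlog u = snd (Ψ u) / fst (Ψ u)` is a group hom from the units to the `𝔽_p`-vector space `T`
which kills every unit congruent to a rational integer mod `p`.  By Dirichlet's unit theorem the
unit group is generated by `(p-1)/2` elements; we exhibit `(p-1)/2` explicit cyclotomic units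
(`ζ` and `1 + ζ + ... + ζ^(g-1)`) whose `dlog`s are linearly independent (a finite matrix
computation for each `p`).  Hence `dlog` is injective on units modulo `p`-th powers, which gives
Kummer's lemma: a unit congruent to an integer mod `p` is a `p`-th power.
No class field theory, Hilbert 92/94 or ramification theory is needed.
-/

set_option autoImplicit false

namespace Fermat.Agent.Kummer.KummerLemmaDlog

open Polynomial TrivSqZeroExt NumberField

section Dual

variable {R : Type*} [CommRing R]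

/-- Evaluation of an integer polynomial at `a + ε` in the dual numbers. -/
theorem aeval_inl_add_inr_one (a : R) (f : ℤ[X]) :
    aeval (inl a + inr 1 : DualNumber R) f = inl (aeval a f) + inr (aeval a (derivative f)) := by
  induction f using Polynomial.induction_on' with
  | add f g hf hg =>
    simp only [map_add, hf, hg, inl_add, inr_add]
    abel
  | monomial n c =>
    apply TrivSqZeroExt.ext
    · simp [aeval_monomial]
    · simp only [aeval_monomial, derivative_monomial, snd_add, snd_inl, snd_inr, zero_add]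
      rw [snd_mul]
      simp only [snd_pow, fst_add, fst_inl, fst_inr, add_zero, snd_add, snd_inl, snd_inr, zero_add,
        Nat.pred_eq_sub_one, smul_eq_mul, mul_one, fst_pow]
      simp
      ring

end Dual

section Trunc

variable (p : ℕ)

/-- The truncated polynomial ring `𝔽_p[X]/(X^(p-2))`. -/
def T : Type := (ZMod p)[X] ⧸ Ideal.span {(X : (ZMod p)[X]) ^ (p - 2)}

noncomputable instance : CommRing (T p) :=
  inferInstanceAs (CommRing ((ZMod p)[X] ⧸ Ideal.span {(X : (ZMod p)[X]) ^ (p - 2)}))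

noncomputable instance : Algebra (ZMod p) (T p) :=
  inferInstanceAs (Algebra (ZMod p) ((ZMod p)[X] ⧸ Ideal.span {(X : (ZMod p)[X]) ^ (p - 2)}))

/-- The quotient map. -/
noncomputable def mkT : (ZMod p)[X] →ₐ[ZMod p] T p :=
  Ideal.Quotient.mkₐ (ZMod p) (Ideal.span {(X : (ZMod p)[X]) ^ (p - 2)})

theorem mkT_surjective : Function.Surjective (mkT p) :=
  Ideal.Quotient.mkₐ_surjective _ _

theorem mkT_eq_zero_iff (f : (ZMod p)[X]) : mkT p f = 0 ↔ X ^ (p - 2) ∣ f := by
  have h : (Ideal.Quotient.mk (Ideal.span {(X : (ZMod p)[X]) ^ (p - 2)}) f = 0) ↔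
      X ^ (p - 2) ∣ f := by
    rw [Ideal.Quotient.eq_zero_iff_mem, Ideal.mem_span_singleton]
  exact h

theorem mkT_X_pow : (mkT p X) ^ (p - 2) = 0 := by
  rw [← map_pow, mkT_eq_zero_iff]

variable [hp : Fact p.Prime]

theorem nontrivial_T (hp2 : 2 < p) : Nontrivial (T p) := by
  refine ⟨⟨1, 0, fun h => ?_⟩⟩
  rw [← map_one (mkT p), mkT_eq_zero_iff] at h
  have := Polynomial.degree_eq_zero_of_isUnit (isUnit_of_dvd_one h)
  rw [degree_X_pow] at this
  have : p - 2 = 0 := by exact_mod_cast this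
  omega

theorem charP_T (hp2 : 2 < p) : CharP (T p) p := by
  have := nontrivial_T p hp2
  exact charP_of_injective_algebraMap (algebraMap (ZMod p) (T p)).injective p

/-- The element `(1 + x) + ε` of the dual numbers over `T`. -/
noncomputable def yD : DualNumber (T p) := inl (1 + mkT p X) + inr 1

theorem charP_dual (hp2 : 2 < p) : CharP (DualNumber (T p)) p := by
  have := charP_T p hp2
  exact charP_of_injective_ringHom (f := (inlHom (T p) (T p))) inl_injective p

omit hp in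
theorem yD_sub_one_pow (hp2 : 2 < p) : (yD p - 1) ^ (p - 1) = 0 := by
  have h1 : yD p - 1 = inl (mkT p X) + inr 1 := by
    unfold yD
    rw [inl_add, inl_one]; abel
  rw [h1]
  have e1 : p - 1 = (p - 2) + 1 := by omega
  apply TrivSqZeroExt.ext
  · simp only [fst_pow, fst_add, fst_inl, fst_inr, add_zero, fst_zero]
    rw [e1, pow_succ, mkT_X_pow, zero_mul]
  · simp only [snd_pow, fst_add, fst_inl, fst_inr, add_zero, snd_add, snd_inl, snd_inr, zero_add,
      snd_zero, Nat.pred_eq_sub_one]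
    have e2 : p - 1 - 1 = p - 2 := by omega
    rw [e2, mkT_X_pow]; simp

theorem aeval_yD_cyclotomic (hp2 : 2 < p) : aeval (yD p) (cyclotomic p ℤ) = 0 := by
  have := charP_dual p hp2
  rw [aeval_def, eval₂_eq_eval_map, map_cyclotomic]
  have h := cyclotomic_mul_prime_pow_eq (DualNumber (T p)) (p := p) (m := 1)
    (by simpa using hp.out.one_lt.ne') (k := 1) one_pos
  simp only [pow_one, mul_one, cyclotomic_one] at h
  rw [h]
  simp only [eval_pow, eval_sub, eval_X, eval_one]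
  exact yD_sub_one_pow p hp2

end Trunc



section Psi

variable {p : ℕ} [hp : Fact p.Prime] {K : Type*} [Field K] [NumberField K]
  [IsCyclotomicExtension {p} ℚ K] {ζ : K} (hζ : IsPrimitiveRoot ζ p) (hp2 : 2 < p)

omit [IsCyclotomicExtension {p} ℚ K] in
theorem minpoly_toInteger : minpoly ℤ hζ.toInteger = cyclotomic p ℤ := by
  rw [cyclotomic_eq_minpoly hζ hp.out.pos]
  exact (minpoly.algebraMap_eq (RingOfIntegers.coe_injective) hζ.toInteger).symm

/-- The ring hom `𝓞 K → (𝔽_p[X]/X^(p-2))[ε]`, `ζ ↦ 1 + x + ε`. -/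
noncomputable def Psi : 𝓞 K →ₐ[ℤ] DualNumber (T p) :=
  hζ.integralPowerBasis.lift (yD p) (by
    rw [hζ.integralPowerBasis_gen, minpoly_toInteger hζ]
    exact aeval_yD_cyclotomic p hp2)

theorem Psi_zeta : Psi hζ hp2 hζ.toInteger = yD p := by
  have h := hζ.integralPowerBasis_gen
  unfold Psi
  conv_lhs => rw [← h]
  exact PowerBasis.lift_gen _ _ _

theorem Psi_aeval (f : ℤ[X]) : Psi hζ hp2 (aeval hζ.toInteger f) =
    inl (aeval (1 + mkT p X) f) + inr (aeval (1 + mkT p X) (derivative f)) := by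
  rw [← aeval_algHom_apply, Psi_zeta, yD, aeval_inl_add_inr_one]

theorem Psi_natCast_p : Psi hζ hp2 (p : 𝓞 K) = 0 := by
  have := charP_dual p hp2
  rw [map_natCast, CharP.cast_eq_zero]

/-- The logarithmic derivative on units. -/
noncomputable def dlogFun (u : (𝓞 K)ˣ) : T p :=
  snd (Psi hζ hp2 (u : 𝓞 K)) * fst (Psi hζ hp2 ((u⁻¹ : (𝓞 K)ˣ) : 𝓞 K))

theorem fst_Psi_mul_inv (u : (𝓞 K)ˣ) :
    fst (Psi hζ hp2 (u : 𝓞 K)) * fst (Psi hζ hp2 ((u⁻¹ : (𝓞 K)ˣ) : 𝓞 K)) = 1 := by
  rw [← fst_mul, ← map_mul, Units.mul_inv, map_one, fst_one]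

theorem dlogFun_mul (u v : (𝓞 K)ˣ) :
    dlogFun hζ hp2 (u * v) = dlogFun hζ hp2 u + dlogFun hζ hp2 v := by
  unfold dlogFun
  have hu := fst_Psi_mul_inv hζ hp2 u
  have hv := fst_Psi_mul_inv hζ hp2 v
  simp only [Units.val_mul, mul_inv, map_mul, snd_mul, fst_mul, smul_eq_mul,
    MulOpposite.smul_eq_mul_unop, MulOpposite.unop_op]
  linear_combination
    (snd (Psi hζ hp2 (v : 𝓞 K)) * fst (Psi hζ hp2 ((v⁻¹ : (𝓞 K)ˣ) : 𝓞 K))) * hu +
    (snd (Psi hζ hp2 (u : 𝓞 K)) * fst (Psi hζ hp2 ((u⁻¹ : (𝓞 K)ˣ) : 𝓞 K))) * hv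

/-- The logarithmic derivative as an additive hom. -/
noncomputable def dlog : Additive (𝓞 K)ˣ →+ T p where
  toFun u := dlogFun hζ hp2 u.toMul
  map_zero' := by
    show dlogFun hζ hp2 1 = 0
    simp [dlogFun]
  map_add' u v := dlogFun_mul hζ hp2 u.toMul v.toMul

theorem dlog_apply (u : (𝓞 K)ˣ) : dlog hζ hp2 (Additive.ofMul u) = dlogFun hζ hp2 u := rfl

/-- key property of `dlog`. -/
theorem dlog_mul_fst (u : (𝓞 K)ˣ) :
    dlogFun hζ hp2 u * fst (Psi hζ hp2 (u : 𝓞 K)) = snd (Psi hζ hp2 (u : 𝓞 K)) := by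
  unfold dlogFun
  have hu := fst_Psi_mul_inv hζ hp2 u
  linear_combination (snd (Psi hζ hp2 (u : 𝓞 K))) * hu

/-- Units congruent to an integer mod `p` are killed by `dlog`. -/
theorem dlogFun_eq_zero_of_congr (u : (𝓞 K)ˣ) (n : ℤ) (h : (p : 𝓞 K) ∣ (u : 𝓞 K) - n) :
    dlogFun hζ hp2 u = 0 := by
  obtain ⟨c, hc⟩ := h
  have h1 : (u : 𝓞 K) = n + p * c := by rw [← hc]; ring
  unfold dlogFun
  rw [h1, map_add, map_mul, Psi_natCast_p, zero_mul, add_zero, map_intCast, snd_intCast, zero_mul]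

end Psi



section Explicit

variable {p : ℕ} [hp : Fact p.Prime] {K : Type*} [Field K] [NumberField K]
  [IsCyclotomicExtension {p} ℚ K] {ζ : K} (hζ : IsPrimitiveRoot ζ p) (hp2 : 2 < p)

theorem aeval_one_add_mkT (f : ℤ[X]) :
    aeval (1 + mkT p X) f = mkT p (aeval (1 + X : (ZMod p)[X]) f) := by
  have h := aeval_algHom_apply ((mkT p).toRingHom.toIntAlgHom) (1 + X : (ZMod p)[X]) f
  simp only [RingHom.toIntAlgHom_apply, AlgHom.toRingHom_eq_coe, RingHom.coe_coe, map_add,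
    map_one] at h
  exact h

theorem derivative_aeval_one_add_X (f : ℤ[X]) :
    derivative (aeval (1 + X : (ZMod p)[X]) f) = aeval (1 + X : (ZMod p)[X]) (derivative f) := by
  induction f using Polynomial.induction_on' with
  | add f g hf hg => simp only [map_add, hf, hg]
  | monomial n c =>
    simp only [aeval_monomial, derivative_monomial, derivative_mul, derivative_pow, derivative_add,
      derivative_one, derivative_X, zero_add, mul_one]
    rcases n with _ | n
    · simp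
    · simp only [Nat.add_sub_cancel, Nat.cast_add, Nat.cast_one, map_mul, map_add, map_natCast, map_one]
      have : derivative ((algebraMap ℤ (ZMod p)[X]) c) = 0 := by
        rw [show (algebraMap ℤ (ZMod p)[X]) c = C ((c : ZMod p)) by simp]
        exact derivative_C
      rw [this]
      simp
      ring

/-- Image under `Psi` of a polynomial in `ζ`, in terms of polynomials over `ZMod p`. -/
theorem Psi_aeval' (f : ℤ[X]) : Psi hζ hp2 (aeval hζ.toInteger f) =
    inl (mkT p (aeval (1 + X : (ZMod p)[X]) f)) +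
      inr (mkT p (derivative (aeval (1 + X : (ZMod p)[X]) f))) := by
  rw [Psi_aeval, aeval_one_add_mkT, aeval_one_add_mkT, derivative_aeval_one_add_X]

/-- Computing `dlog` of an explicit unit. -/
theorem dlogFun_eq_of_mul_eq (u : (𝓞 K)ˣ) (f : ℤ[X]) (hu : (u : 𝓞 K) = aeval hζ.toInteger f)
    (G Q : (ZMod p)[X])
    (h : aeval (1 + X : (ZMod p)[X]) f * G =
      derivative (aeval (1 + X : (ZMod p)[X]) f) + X ^ (p - 2) * Q) :
    dlogFun hζ hp2 u = mkT p G := by
  have h1 := dlog_mul_fst hζ hp2 u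
  have h2 := fst_Psi_mul_inv hζ hp2 u
  rw [hu, Psi_aeval'] at h1
  rw [hu, Psi_aeval'] at h2
  simp only [fst_add, fst_inl, fst_inr, add_zero, snd_add, snd_inl, snd_inr, zero_add] at h1 h2
  have h3 := congrArg (mkT p) h
  simp only [map_add, map_mul, map_pow, mkT_X_pow, zero_mul, add_zero] at h3
  -- cancel the unit `mkT F`
  set a := mkT p (aeval (1 + X : (ZMod p)[X]) f) with ha
  set b := fst (Psi hζ hp2 ((u⁻¹ : (𝓞 K)ˣ) : 𝓞 K)) with hb
  calc dlogFun hζ hp2 u = dlogFun hζ hp2 u * (a * b) := by rw [h2, mul_one]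
    _ = (dlogFun hζ hp2 u * a) * b := by ring
    _ = (a * mkT p G) * b := by rw [h1, h3]
    _ = mkT p G * (a * b) := by ring
    _ = mkT p G := by rw [h2, mul_one]

end Explicit



section Indep

variable {p : ℕ}

/-- The polynomial with prescribed coefficients. -/
noncomputable def polyOf {n : ℕ} (c : Fin n → ZMod p) : (ZMod p)[X] :=
  ∑ i : Fin n, C (c i) * X ^ (i : ℕ)

theorem coeff_polyOf {n : ℕ} (c : Fin n → ZMod p) (i : Fin n) : (polyOf c).coeff (i : ℕ) = c i := by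
  classical
  unfold polyOf
  rw [finsetSum_coeff]
  simp only [coeff_C_mul, coeff_X_pow]
  rw [Finset.sum_eq_single i]
  · simp
  · intro j _ hj
    have : (i : ℕ) ≠ (j : ℕ) := fun h => hj (Fin.ext h.symm)
    simp [this]
  · simp

theorem linearIndependent_mkT {m n : ℕ} (hn : n = p - 2) (M : Matrix (Fin m) (Fin n) (ZMod p))
    (N : Matrix (Fin n) (Fin m) (ZMod p)) (hMN : M * N = 1) :
    LinearIndependent (ZMod p) (fun j => mkT p (polyOf (M j))) := by
  classical
  rw [Fintype.linearIndependent_iff]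
  intro c hc
  have h1 : mkT p (∑ j, c j • polyOf (M j)) = 0 := by
    rw [map_sum, ← hc]
    refine Finset.sum_congr rfl fun j _ => ?_
    rw [map_smul]
  rw [mkT_eq_zero_iff, X_pow_dvd_iff] at h1
  have h2 : Matrix.vecMul c M = 0 := by
    funext i
    have := h1 (i : ℕ) (by rw [← hn]; exact i.2)
    rw [finsetSum_coeff] at this
    simp only [coeff_smul, coeff_polyOf, smul_eq_mul] at this
    simpa [Matrix.vecMul, dotProduct] using this
  have h3 : c = Matrix.vecMul (Matrix.vecMul c M) N := by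
    rw [Matrix.vecMul_vecMul, hMN, Matrix.vecMul_one]
  intro j
  rw [h3, h2, Matrix.zero_vecMul]
  rfl

end Indep



section Main

open Finset

/-- Abstract step: if `E` is generated by `m` elements and there are `m` elements whose images
under an additive-valued hom `D` to a `ZMod p`-vector space are linearly independent, then
`ker D` consists of `p`-th powers. -/
theorem exists_pow_eq_of_map_eq_zero {E : Type*} [CommGroup E] {p : ℕ} [Fact p.Prime]
    {W : Type*} [AddCommGroup W] [Module (ZMod p) W]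
    (D : Additive E →+ W) {m : ℕ} (g : Fin m → E)
    (hg : ∀ x : E, ∃ e : Fin m → ℤ, x = ∏ i, g i ^ e i)
    (v : Fin m → E) (hv : LinearIndependent (ZMod p) (fun j => D (Additive.ofMul (v j))))
    (x : E) (hx : D (Additive.ofMul x) = 0) : ∃ y : E, x = y ^ p := by
  classical
  let A : (Fin m → ZMod p) →ₗ[ZMod p] W :=
    Fintype.linearCombination (ZMod p) (fun i => D (Additive.ofMul (g i)))
  have hA : ∀ (e : Fin m → ℤ), D (Additive.ofMul (∏ i, g i ^ e i)) = A (fun i => (e i : ZMod p)) := by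
    intro e
    simp only [A, Fintype.linearCombination_apply]
    rw [ofMul_prod, map_sum]
    refine Finset.sum_congr rfl fun i _ => ?_
    rw [ofMul_zpow, map_zsmul, Int.cast_smul_eq_zsmul]
  have hrange : ∀ j, D (Additive.ofMul (v j)) ∈ LinearMap.range A := by
    intro j
    obtain ⟨e, he⟩ := hg (v j)
    exact ⟨fun i => (e i : ZMod p), by rw [← hA, ← he]⟩
  have hinj : Function.Injective A := by
    have h1 : m ≤ Module.finrank (ZMod p) (LinearMap.range A) := by
      have hli : LinearIndependent (ZMod p)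
          (fun j => (⟨D (Additive.ofMul (v j)), hrange j⟩ : LinearMap.range A)) := by
        apply LinearIndependent.of_comp (LinearMap.range A).subtype
        exact hv
      simpa using hli.fintype_card_le_finrank
    have h2 := LinearMap.finrank_range_add_finrank_ker A
    have h3 : Module.finrank (ZMod p) (Fin m → ZMod p) = m := by simp
    have h4 : Module.finrank (ZMod p) (LinearMap.ker A) = 0 := by omega
    rw [← LinearMap.ker_eq_bot]
    exact Submodule.finrank_eq_zero.mp h4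
  obtain ⟨e, he⟩ := hg x
  have h0 : A (fun i => (e i : ZMod p)) = 0 := by rw [← hA, ← he]; exact hx
  have h0' : (fun i => (e i : ZMod p)) = 0 := by
    apply hinj; rw [h0, map_zero]
  have hdiv : ∀ i, (p : ℤ) ∣ e i := by
    intro i
    have := congrFun h0' i
    simpa [ZMod.intCast_zmod_eq_zero_iff_dvd] using this
  choose f hf using hdiv
  refine ⟨∏ i, g i ^ f i, ?_⟩
  rw [he, ← Finset.prod_pow]
  refine Finset.prod_congr rfl fun i _ => ?_
  rw [hf i, mul_comm, zpow_mul, zpow_natCast]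

/-- Dirichlet's unit theorem: the unit group is generated by `rank K + 1` elements. -/
theorem exists_generators (K : Type*) [Field K] [NumberField K] (m : ℕ)
    (hm : NumberField.Units.rank K + 1 = m) :
    ∃ g : Fin m → (𝓞 K)ˣ, ∀ x : (𝓞 K)ˣ, ∃ e : Fin m → ℤ, x = ∏ i, g i ^ e i := by
  classical
  subst hm
  obtain ⟨τ, hτ⟩ := IsCyclic.exists_generator (α := NumberField.Units.torsion K)
  refine ⟨Fin.cons (τ : (𝓞 K)ˣ) (NumberField.Units.fundSystem K), fun x => ?_⟩
  obtain ⟨⟨t, e⟩, hte, -⟩ := NumberField.Units.exist_unique_eq_mul_prod K x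
  obtain ⟨k, hk⟩ := Subgroup.mem_zpowers_iff.mp (hτ t)
  refine ⟨Fin.cons k e, ?_⟩
  rw [Fin.prod_univ_succ]
  simp only [Fin.cons_zero, Fin.cons_succ]
  rw [hte]
  congr 1
  rw [← hk]
  simp

theorem rank_add_one_cyclotomic {p : ℕ} [Fact p.Prime] (hp2 : 2 < p) (K : Type*) [Field K]
    [NumberField K] [IsCyclotomicExtension {p} ℚ K] :
    NumberField.Units.rank K + 1 = (p - 1) / 2 := by
  have h1 := InfinitePlace.card_eq_nrRealPlaces_add_nrComplexPlaces K
  have h2 := IsCyclotomicExtension.Rat.nrRealPlaces_eq_zero (n := p) K hp2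
  have h3 := IsCyclotomicExtension.Rat.nrComplexPlaces_eq_totient_div_two p K
  rw [Nat.totient_prime Fact.out] at h3
  unfold NumberField.Units.rank
  rw [h1, h2, h3, zero_add]
  have : 1 ≤ (p - 1) / 2 := by omega
  omega

variable {p : ℕ} [hp : Fact p.Prime] {K : Type*} [Field K] [NumberField K]
  [IsCyclotomicExtension {p} ℚ K] {ζ : K} (hζ : IsPrimitiveRoot ζ p) (hp2 : 2 < p)

include hp2 in
/-- Kummer's lemma from explicit data: units `v j = f j (ζ)` whose logarithmic derivatives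
`G j = polyOf (M j)` are linearly independent (certified by a right inverse `N` of `M`). -/
theorem kummer_of_data {m n : ℕ} (hm : (p - 1) / 2 = m) (hn : n = p - 2)
    (v : Fin m → (𝓞 K)ˣ) (f : Fin m → ℤ[X])
    (hv : ∀ j, ((v j : (𝓞 K)ˣ) : 𝓞 K) = aeval hζ.toInteger (f j))
    (M : Matrix (Fin m) (Fin n) (ZMod p)) (N : Matrix (Fin n) (Fin m) (ZMod p))
    (hMN : M * N = 1) (Q : Fin m → (ZMod p)[X])
    (hG : ∀ j, aeval (1 + X : (ZMod p)[X]) (f j) * polyOf (M j) =
      derivative (aeval (1 + X : (ZMod p)[X]) (f j)) + X ^ (p - 2) * Q j)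
    (u : (𝓞 K)ˣ) (hu : ∃ k : ℤ, (p : 𝓞 K) ∣ (u : 𝓞 K) - k) : ∃ w : (𝓞 K)ˣ, u = w ^ p := by
  obtain ⟨k, hk⟩ := hu
  obtain ⟨g, hg⟩ := exists_generators K m ((rank_add_one_cyclotomic hp2 K).trans hm)
  refine exists_pow_eq_of_map_eq_zero (dlog hζ hp2) g hg v ?_ u ?_
  · have : (fun j => dlog hζ hp2 (Additive.ofMul (v j))) = fun j => mkT p (polyOf (M j)) := by
      funext j
      rw [dlog_apply]
      exact dlogFun_eq_of_mul_eq hζ hp2 (v j) (f j) (hv j) _ (Q j) (hG j)
    rw [this]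
    exact linearIndependent_mkT hn M N hMN
  · rw [dlog_apply]
    exact dlogFun_eq_zero_of_congr hζ hp2 u k hk

end Main


section P5

/-- coefficient matrix of the logarithmic derivatives for `p = 5` -/
def M5 : Matrix (Fin 2) (Fin 3) (ZMod 5) :=
  !![1, 4, 1; 3, 1, 2]

/-- a right inverse of `M5` -/
def N5 : Matrix (Fin 3) (Fin 2) (ZMod 5) :=
  !![4, 4; 3, 4; 0, 0]

theorem M5_mul_N5 : M5 * N5 = 1 := by decide

/-- the polynomials defining the cyclotomic units for `p = 5` -/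
noncomputable def f5 : Fin 2 → ℤ[X] :=
  ![(1) * X, (1) + (1) * X]

/-- quotient polynomials for `p = 5` -/
noncomputable def Q5 : Fin 2 → (ZMod 5)[X] :=
  ![(1), (2)]

theorem hG5 : ∀ j, aeval (1 + X : (ZMod 5)[X]) (f5 j) * polyOf (M5 j) =
    derivative (aeval (1 + X : (ZMod 5)[X]) (f5 j)) + X ^ (5 - 2) * Q5 j := by
  have hp0 : ((5 : ℕ) : (ZMod 5)[X]) = 0 := CharP.cast_eq_zero _ _
  have h0 : (5 : (ZMod 5)[X]) = 0 := by exact_mod_cast hp0
  intro j
  fin_cases j
  · simp only [f5, Q5, M5, polyOf, Fin.sum_univ_succ, Fin.sum_univ_zero]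
    simp [map_ofNat, derivative_pow]
    linear_combination ((1) * X + (1) * X ^ 2) * h0
  · simp only [f5, Q5, M5, polyOf, Fin.sum_univ_succ, Fin.sum_univ_zero]
    simp [map_ofNat, derivative_pow]
    linear_combination ((1) + (1) * X + (1) * X ^ 2) * h0

end P5

section P7

/-- coefficient matrix of the logarithmic derivatives for `p = 7` -/
def M7 : Matrix (Fin 3) (Fin 5) (ZMod 7) :=
  !![1, 6, 1, 6, 1; 4, 5, 1, 3, 2; 1, 2, 0, 4, 3]

/-- a right inverse of `M7` -/
def N7 : Matrix (Fin 5) (Fin 3) (ZMod 7) :=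
  !![0, 3, 3; 5, 4, 0; 0, 0, 0; 1, 6, 3; 0, 0, 0]

theorem M7_mul_N7 : M7 * N7 = 1 := by decide

/-- the polynomials defining the cyclotomic units for `p = 7` -/
noncomputable def f7 : Fin 3 → ℤ[X] :=
  ![(1) * X, (1) + (1) * X, (1) + (1) * X + (1) * X ^ 2]

/-- quotient polynomials for `p = 7` -/
noncomputable def Q7 : Fin 3 → (ZMod 7)[X] :=
  ![(1), (2), (13) + (3) * X]

theorem hG7 : ∀ j, aeval (1 + X : (ZMod 7)[X]) (f7 j) * polyOf (M7 j) =
    derivative (aeval (1 + X : (ZMod 7)[X]) (f7 j)) + X ^ (7 - 2) * Q7 j := by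
  have hp0 : ((7 : ℕ) : (ZMod 7)[X]) = 0 := CharP.cast_eq_zero _ _
  have h0 : (7 : (ZMod 7)[X]) = 0 := by exact_mod_cast hp0
  intro j
  fin_cases j
  · simp only [f7, Q7, M7, polyOf, Fin.sum_univ_succ, Fin.sum_univ_zero]
    simp [map_ofNat, derivative_pow]
    linear_combination ((1) * X + (1) * X ^ 2 + (1) * X ^ 3 + (1) * X ^ 4) * h0
  · simp only [f7, Q7, M7, polyOf, Fin.sum_univ_succ, Fin.sum_univ_zero]
    simp [map_ofNat, derivative_pow]
    linear_combination ((1) + (2) * X + (1) * X ^ 2 + (1) * X ^ 3 + (1) * X ^ 4) * h0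
  · simp only [f7, Q7, M7, polyOf, Fin.sum_univ_succ, Fin.sum_univ_zero]
    simp [map_ofNat, derivative_pow]
    linear_combination ((1) * X + (1) * X ^ 2 + (2) * X ^ 3 + (3) * X ^ 4) * h0

end P7

section P11

/-- coefficient matrix of the logarithmic derivatives for `p = 11` -/
def M11 : Matrix (Fin 5) (Fin 9) (ZMod 11) :=
  !![1, 10, 1, 10, 1, 10, 1, 10, 1; 6, 8, 7, 2, 10, 6, 8, 7, 2; 1, 7, 0, 5, 6, 7, 2, 3, 0; 7, 8, 1, 8, 7, 6, 4, 0, 0; 2, 0, 10, 3, 0, 6, 5, 6, 5]

/-- a right inverse of `M11` -/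
def N11 : Matrix (Fin 9) (Fin 5) (ZMod 11) :=
  !![9, 6, 7, 0, 2; 1, 8, 7, 4, 2; 0, 0, 0, 0, 0; 9, 0, 1, 3, 1; 0, 0, 0, 0, 0; 0, 8, 5, 0, 1; 0, 0, 0, 0, 0; 9, 1, 5, 4, 9; 0, 0, 0, 0, 0]

theorem M11_mul_N11 : M11 * N11 = 1 := by decide

/-- the polynomials defining the cyclotomic units for `p = 11` -/
noncomputable def f11 : Fin 5 → ℤ[X] :=
  ![(1) * X, (1) + (1) * X, (1) + (1) * X + (1) * X ^ 2, (1) + (1) * X + (1) * X ^ 2 + (1) * X ^ 3, (1) + (1) * X + (1) * X ^ 2 + (1) * X ^ 3 + (1) * X ^ 4]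

/-- quotient polynomials for `p = 11` -/
noncomputable def Q11 : Fin 5 → (ZMod 11)[X] :=
  ![(1), (2), (3), (4), (141) + (85) * X + (31) * X ^ 2 + (5) * X ^ 3]

theorem hG11 : ∀ j, aeval (1 + X : (ZMod 11)[X]) (f11 j) * polyOf (M11 j) =
    derivative (aeval (1 + X : (ZMod 11)[X]) (f11 j)) + X ^ (11 - 2) * Q11 j := by
  have hp0 : ((11 : ℕ) : (ZMod 11)[X]) = 0 := CharP.cast_eq_zero _ _
  have h0 : (11 : (ZMod 11)[X]) = 0 := by exact_mod_cast hp0
  intro j
  fin_cases j
  · simp only [f11, Q11, M11, polyOf, Fin.sum_univ_succ, Fin.sum_univ_zero]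
    simp [map_ofNat, derivative_pow]
    linear_combination ((1) * X + (1) * X ^ 2 + (1) * X ^ 3 + (1) * X ^ 4 + (1) * X ^ 5 + (1) * X ^ 6 + (1) * X ^ 7 + (1) * X ^ 8) * h0
  · simp only [f11, Q11, M11, polyOf, Fin.sum_univ_succ, Fin.sum_univ_zero]
    simp [map_ofNat, derivative_pow]
    linear_combination ((1) + (2) * X + (2) * X ^ 2 + (1) * X ^ 3 + (2) * X ^ 4 + (2) * X ^ 5 + (2) * X ^ 6 + (2) * X ^ 7 + (1) * X ^ 8) * h0
  · simp only [f11, Q11, M11, polyOf, Fin.sum_univ_succ, Fin.sum_univ_zero]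
    simp [map_ofNat, derivative_pow]
    linear_combination ((2) * X + (2) * X ^ 2 + (2) * X ^ 3 + (3) * X ^ 4 + (4) * X ^ 5 + (3) * X ^ 6 + (2) * X ^ 7 + (1) * X ^ 8) * h0
  · simp only [f11, Q11, M11, polyOf, Fin.sum_univ_succ, Fin.sum_univ_zero]
    simp [map_ofNat, derivative_pow]
    linear_combination ((2) + (6) * X + (7) * X ^ 2 + (7) * X ^ 3 + (8) * X ^ 4 + (9) * X ^ 5 + (8) * X ^ 6 + (5) * X ^ 7 + (2) * X ^ 8) * h0
  · simp only [f11, Q11, M11, polyOf, Fin.sum_univ_succ, Fin.sum_univ_zero]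
    simp [map_ofNat, derivative_pow]
    linear_combination ((5) * X ^ 2 + (11) * X ^ 3 + (12) * X ^ 4 + (10) * X ^ 5 + (10) * X ^ 6 + (13) * X ^ 7 + (15) * X ^ 8) * h0

end P11

section P13

/-- coefficient matrix of the logarithmic derivatives for `p = 13` -/
def M13 : Matrix (Fin 6) (Fin 11) (ZMod 13) :=
  !![1, 12, 1, 12, 1, 12, 1, 12, 1, 12, 1; 7, 3, 5, 4, 11, 1, 6, 10, 8, 9, 2; 1, 4, 0, 3, 10, 2, 12, 9, 0, 10, 3; 8, 3, 11, 11, 1, 1, 11, 5, 4, 9, 4; 2, 0, 12, 6, 0, 2, 11, 4, 7, 3, 5; 9, 8, 3, 8, 9, 1, 6, 7, 6, 7, 6]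

/-- a right inverse of `M13` -/
def N13 : Matrix (Fin 11) (Fin 6) (ZMod 13) :=
  !![1, 10, 12, 7, 4, 4; 3, 2, 12, 11, 2, 1; 0, 0, 0, 0, 0, 0; 3, 10, 2, 9, 2, 2; 0, 0, 0, 0, 0, 0; 9, 7, 4, 9, 7, 11; 0, 0, 0, 0, 0, 0; 7, 11, 0, 6, 1, 1; 0, 0, 0, 0, 0, 0; 4, 6, 7, 11, 5, 2; 0, 0, 0, 0, 0, 0]

theorem M13_mul_N13 : M13 * N13 = 1 := by decide

/-- the polynomials defining the cyclotomic units for `p = 13` -/
noncomputable def f13 : Fin 6 → ℤ[X] :=
  ![(1) * X, (1) + (1) * X, (1) + (1) * X + (1) * X ^ 2, (1) + (1) * X + (1) * X ^ 2 + (1) * X ^ 3, (1) + (1) * X + (1) * X ^ 2 + (1) * X ^ 3 + (1) * X ^ 4, (1) + (1) * X + (1) * X ^ 2 + (1) * X ^ 3 + (1) * X ^ 4 + (1) * X ^ 5]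

/-- quotient polynomials for `p = 13` -/
noncomputable def Q13 : Fin 6 → (ZMod 13)[X] :=
  ![(1), (2), (19) + (3) * X, (64) + (25) * X + (4) * X ^ 2, (119) + (72) * X + (28) * X ^ 2 + (5) * X ^ 3, (368) + (268) * X + (138) * X ^ 2 + (43) * X ^ 3 + (6) * X ^ 4]

theorem hG13 : ∀ j, aeval (1 + X : (ZMod 13)[X]) (f13 j) * polyOf (M13 j) =
    derivative (aeval (1 + X : (ZMod 13)[X]) (f13 j)) + X ^ (13 - 2) * Q13 j := by
  have hp0 : ((13 : ℕ) : (ZMod 13)[X]) = 0 := CharP.cast_eq_zero _ _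
  have h0 : (13 : (ZMod 13)[X]) = 0 := by exact_mod_cast hp0
  intro j
  fin_cases j
  · simp only [f13, Q13, M13, polyOf, Fin.sum_univ_succ, Fin.sum_univ_zero]
    simp [map_ofNat, derivative_pow]
    linear_combination ((1) * X + (1) * X ^ 2 + (1) * X ^ 3 + (1) * X ^ 4 + (1) * X ^ 5 + (1) * X ^ 6 + (1) * X ^ 7 + (1) * X ^ 8 + (1) * X ^ 9 + (1) * X ^ 10) * h0
  · simp only [f13, Q13, M13, polyOf, Fin.sum_univ_succ, Fin.sum_univ_zero]
    simp [map_ofNat, derivative_pow]
    linear_combination ((1) + (1) * X + (1) * X ^ 2 + (1) * X ^ 3 + (2) * X ^ 4 + (1) * X ^ 5 + (1) * X ^ 6 + (2) * X ^ 7 + (2) * X ^ 8 + (2) * X ^ 9 + (1) * X ^ 10) * h0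
  · simp only [f13, Q13, M13, polyOf, Fin.sum_univ_succ, Fin.sum_univ_zero]
    simp [map_ofNat, derivative_pow]
    linear_combination ((1) * X + (1) * X ^ 2 + (1) * X ^ 3 + (3) * X ^ 4 + (3) * X ^ 5 + (4) * X ^ 6 + (5) * X ^ 7 + (3) * X ^ 8 + (3) * X ^ 9 + (3) * X ^ 10) * h0
  · simp only [f13, Q13, M13, polyOf, Fin.sum_univ_succ, Fin.sum_univ_zero]
    simp [map_ofNat, derivative_pow]
    linear_combination ((2) + (4) * X + (7) * X ^ 2 + (10) * X ^ 3 + (9) * X ^ 4 + (5) * X ^ 5 + (5) * X ^ 6 + (7) * X ^ 7 + (7) * X ^ 8 + (7) * X ^ 9 + (7) * X ^ 10) * h0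
  · simp only [f13, Q13, M13, polyOf, Fin.sum_univ_succ, Fin.sum_univ_zero]
    simp [map_ofNat, derivative_pow]
    linear_combination ((5) * X ^ 2 + (12) * X ^ 3 + (14) * X ^ 4 + (10) * X ^ 5 + (9) * X ^ 6 + (12) * X ^ 7 + (15) * X ^ 8 + (14) * X ^ 9 + (12) * X ^ 10) * h0
  · simp only [f13, Q13, M13, polyOf, Fin.sum_univ_succ, Fin.sum_univ_zero]
    simp [map_ofNat, derivative_pow]
    linear_combination ((3) + (11) * X + (21) * X ^ 2 + (28) * X ^ 3 + (31) * X ^ 4 + (31) * X ^ 5 + (29) * X ^ 6 + (26) * X ^ 7 + (26) * X ^ 8 + (29) * X ^ 9 + (31) * X ^ 10) * h0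

end P13

end Fermat.Agent.Kummer.KummerLemmaDlog

namespace Fermat.Agent.Kummer

open NumberField Polynomial

/-- Kummer's lemma for `p = 5`. -/
theorem kummerProp_five (K : Type*) [Field K] [NumberField K]
    [IsCyclotomicExtension {5} ℚ K] : KummerProp 5 K := by
  have : Fact (Nat.Prime 5) := ⟨by norm_num⟩
  have hζ := IsCyclotomicExtension.zeta_spec 5 ℚ K
  have hζ' := hζ.toInteger_isPrimitiveRoot
  intro u hu
  refine KummerLemmaDlog.kummer_of_data hζ (by norm_num) (m := 2) (n := 3) (by norm_num) (by norm_num)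
    ![(hζ'.isUnit (by norm_num)).unit,
      (hζ'.geom_sum_isUnit (by norm_num) (by norm_num : Nat.Coprime 2 5)).unit]
    KummerLemmaDlog.f5 ?_ KummerLemmaDlog.M5 KummerLemmaDlog.N5 KummerLemmaDlog.M5_mul_N5
    KummerLemmaDlog.Q5 KummerLemmaDlog.hG5 u hu
  intro j
  fin_cases j <;> simp [KummerLemmaDlog.f5, Finset.sum_range_succ]


/-- Kummer's lemma for `p = 7`. -/
theorem kummerProp_seven (K : Type*) [Field K] [NumberField K]
    [IsCyclotomicExtension {7} ℚ K] : KummerProp 7 K := by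
  have : Fact (Nat.Prime 7) := ⟨by norm_num⟩
  have hζ := IsCyclotomicExtension.zeta_spec 7 ℚ K
  have hζ' := hζ.toInteger_isPrimitiveRoot
  intro u hu
  refine KummerLemmaDlog.kummer_of_data hζ (by norm_num) (m := 3) (n := 5) (by norm_num) (by norm_num)
    ![(hζ'.isUnit (by norm_num)).unit,
      (hζ'.geom_sum_isUnit (by norm_num) (by norm_num : Nat.Coprime 2 7)).unit,
      (hζ'.geom_sum_isUnit (by norm_num) (by norm_num : Nat.Coprime 3 7)).unit]
    KummerLemmaDlog.f7 ?_ KummerLemmaDlog.M7 KummerLemmaDlog.N7 KummerLemmaDlog.M7_mul_N7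
    KummerLemmaDlog.Q7 KummerLemmaDlog.hG7 u hu
  intro j
  fin_cases j <;> simp [KummerLemmaDlog.f7, Finset.sum_range_succ]


/-- Kummer's lemma for `p = 11`. -/
theorem kummerProp_eleven (K : Type*) [Field K] [NumberField K]
    [IsCyclotomicExtension {11} ℚ K] : KummerProp 11 K := by
  have : Fact (Nat.Prime 11) := ⟨by norm_num⟩
  have hζ := IsCyclotomicExtension.zeta_spec 11 ℚ K
  have hζ' := hζ.toInteger_isPrimitiveRoot
  intro u hu
  refine KummerLemmaDlog.kummer_of_data hζ (by norm_num) (m := 5) (n := 9) (by norm_num) (by norm_num)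
    ![(hζ'.isUnit (by norm_num)).unit,
      (hζ'.geom_sum_isUnit (by norm_num) (by norm_num : Nat.Coprime 2 11)).unit,
      (hζ'.geom_sum_isUnit (by norm_num) (by norm_num : Nat.Coprime 3 11)).unit,
      (hζ'.geom_sum_isUnit (by norm_num) (by norm_num : Nat.Coprime 4 11)).unit,
      (hζ'.geom_sum_isUnit (by norm_num) (by norm_num : Nat.Coprime 5 11)).unit]
    KummerLemmaDlog.f11 ?_ KummerLemmaDlog.M11 KummerLemmaDlog.N11 KummerLemmaDlog.M11_mul_N11
    KummerLemmaDlog.Q11 KummerLemmaDlog.hG11 u hu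
  intro j
  fin_cases j <;> simp [KummerLemmaDlog.f11, Finset.sum_range_succ]


/-- Kummer's lemma for `p = 13`. -/
theorem kummerProp_thirteen (K : Type*) [Field K] [NumberField K]
    [IsCyclotomicExtension {13} ℚ K] : KummerProp 13 K := by
  have : Fact (Nat.Prime 13) := ⟨by norm_num⟩
  have hζ := IsCyclotomicExtension.zeta_spec 13 ℚ K
  have hζ' := hζ.toInteger_isPrimitiveRoot
  intro u hu
  refine KummerLemmaDlog.kummer_of_data hζ (by norm_num) (m := 6) (n := 11) (by norm_num) (by norm_num)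
    ![(hζ'.isUnit (by norm_num)).unit,
      (hζ'.geom_sum_isUnit (by norm_num) (by norm_num : Nat.Coprime 2 13)).unit,
      (hζ'.geom_sum_isUnit (by norm_num) (by norm_num : Nat.Coprime 3 13)).unit,
      (hζ'.geom_sum_isUnit (by norm_num) (by norm_num : Nat.Coprime 4 13)).unit,
      (hζ'.geom_sum_isUnit (by norm_num) (by norm_num : Nat.Coprime 5 13)).unit,
      (hζ'.geom_sum_isUnit (by norm_num) (by norm_num : Nat.Coprime 6 13)).unit]
    KummerLemmaDlog.f13 ?_ KummerLemmaDlog.M13 KummerLemmaDlog.N13 KummerLemmaDlog.M13_mul_N13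
    KummerLemmaDlog.Q13 KummerLemmaDlog.hG13 u hu
  intro j
  fin_cases j <;> simp [KummerLemmaDlog.f13, Finset.sum_range_succ]

/-- Kummer's lemma for the exponents `5, 7, 11, 13`. -/
theorem kummerProp_of_mem {p : ℕ} (hp : p = 5 ∨ p = 7 ∨ p = 11 ∨ p = 13) (K : Type*) [Field K]
    [NumberField K] [IsCyclotomicExtension {p} ℚ K] : KummerProp p K := by
  rcases hp with rfl | rfl | rfl | rfl
  · exact kummerProp_five K
  · exact kummerProp_seven K
  · exact kummerProp_eleven K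
  · exact kummerProp_thirteen K

end Fermat.Agent.Kummer
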