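import Fermat.Agent.Kummer.Wiring
import Fermat.Agent.Kummer.KummerLemmaDlog

/-!
# No Frey package with `p ∈ {5, 7, 11, 13}`

Assembly of the Kummer route: the ring of integers of `ℚ(ζ_p)` is a PID (`Pid*`), case I
(`CaseI`), case II (`CaseII`), Kummer's lemma (`KummerLemmaDlog`).
-/

set_option autoImplicit false

namespace Fermat.Agent.Kummer

open NumberField

/-- There is no Frey package with `p ∈ {5, 7, 11, 13}`: Fermat's Last Theorem for these
exponents, by Kummer's method. -/
theorem no_freyPackage (P : FreyPackage) (hp : P.p = 5 ∨ P.p = 7 ∨ P.p = 11 ∨ P.p = 13) :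
    False := by
  have : Fact P.p.Prime := ⟨P.pp⟩
  have : NeZero P.p := ⟨P.pp.ne_zero⟩
  have := isCyclotomicExtension_cyclotomicField P.p
  exact no_freyPackage_of_pid P (CyclotomicField P.p ℚ) (pid_of_mem hp)
    (kummerProp_of_mem hp (CyclotomicField P.p ℚ))

end Fermat.Agent.Kummer
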