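import Fermat.Agent.Kummer.Defs

/-!
# Kummer's lemma from the non-existence of unramified cyclic extensions (Kummer project, T5)

Let `K = ℚ(ζ_p)`, `λ = ζ - 1`.  If `u` is a unit of `𝓞 K` congruent to a rational integer modulo `p`
and `u` is not a `p`-th power, then `v = u ^ (p - 1)` is `≡ 1 mod λ^p`, `L = K(v^(1/p))` is a Galois
extension of degree `p`, and `β = (v^(1/p) - 1)/λ` is an algebraic integer generating `L` whose
minimal polynomial over `𝓞 K` has unit derivative at `β`; hence the different ideal of `𝓞 L / 𝓞 K` is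
trivial and `L/K` is unramified at every prime.  This is the backup route to `KummerProp`.
-/

set_option autoImplicit false

open NumberField Polynomial

universe u

namespace Fermat.Agent.Kummer.KummerLemmaUnram

section PolyPart

variable {R : Type*} [CommRing R] [IsDomain R] {p : ℕ}

/-- the polynomial `(lam * X + 1)^p - v`. -/
noncomputable def hPoly (lam v : R) (p : ℕ) : R[X] := (C lam * X + 1) ^ p - C v

theorem hPoly_natDegree {lam v : R} (hlam : lam ≠ 0) :
    (hPoly lam v p).natDegree = p := by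
  have h1 : (C lam * X + 1 : R[X]).natDegree = 1 := by
    have := natDegree_linear (a := lam) (b := 1) hlam
    simpa using this
  rw [hPoly, natDegree_sub_C, natDegree_pow, h1, mul_one]

theorem hPoly_leadingCoeff {lam v : R} (hlam : lam ≠ 0) (hp0 : p ≠ 0) :
    (hPoly lam v p).leadingCoeff = lam ^ p := by
  have h1 : (C lam * X + 1 : R[X]).natDegree = 1 := by
    have := natDegree_linear (a := lam) (b := 1) hlam
    simpa using this
  have h2 : (C lam * X + 1 : R[X]).leadingCoeff = lam := by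
    have := leadingCoeff_linear (a := lam) (b := 1) hlam
    simpa using this
  have h3 : ((C lam * X + 1 : R[X]) ^ p).natDegree = p := by
    rw [natDegree_pow, h1, mul_one]
  rw [hPoly, leadingCoeff_sub_of_degree_lt, leadingCoeff_pow, h2]
  apply lt_of_le_of_lt degree_C_le
  rw [degree_eq_natDegree (pow_ne_zero _ (by
    intro h0; rw [h0] at h1; simp at h1)), h3]
  exact_mod_cast Nat.pos_of_ne_zero hp0

omit [IsDomain R] in
/-- if `lam^p ∣ p * lam` and `lam^p ∣ v - 1` then all coefficients of `(lam X+1)^p - v` are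
divisible by `lam^p`. -/
theorem C_dvd_hPoly (hp : p.Prime) {lam v : R} (h1 : lam ^ p ∣ (p : R) * lam) (h2 : lam ^ p ∣ v - 1) :
    C (lam ^ p) ∣ hPoly lam v p := by
  obtain ⟨r, hr⟩ := exists_add_pow_prime_eq hp (C lam * X : R[X]) 1
  obtain ⟨a, ha⟩ := h1
  obtain ⟨b, hb⟩ := h2
  have hv : v = 1 + lam ^ p * b := by rw [← hb]; ring
  rw [hPoly, hr, hv]
  refine ⟨X ^ p + C a * X * r - C b, ?_⟩
  have e1 : ((p : ℕ) : R[X]) * (C lam * X) = C (lam ^ p) * C a * X := by
    rw [← C_mul, ← ha, C_mul]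
    simp [mul_assoc]
  rw [one_pow, mul_one, e1]
  simp only [C_add, C_mul, C_pow, C_1, mul_pow]
  ring

theorem monic_of_C_mul_eq_hPoly {lam v : R} (hlam : lam ≠ 0) (hp0 : p ≠ 0) {g : R[X]}
    (hg : hPoly lam v p = C (lam ^ p) * g) : g.Monic ∧ g.natDegree = p := by
  have hlamp : lam ^ p ≠ 0 := pow_ne_zero _ hlam
  constructor
  · have h1 := hPoly_leadingCoeff (v := v) hlam hp0
    rw [hg, leadingCoeff_mul, leadingCoeff_C] at h1
    exact mul_left_cancel₀ hlamp (by rw [h1, mul_one])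
  · have h1 := hPoly_natDegree (p := p) (v := v) hlam
    rw [hg, natDegree_C_mul hlamp] at h1
    exact h1

omit [IsDomain R] in
theorem derivative_hPoly (lam v : R) :
    derivative (hPoly lam v p) = C (p : R) * (C lam * X + 1) ^ (p - 1) * C lam := by
  rw [hPoly, derivative_sub, derivative_C, sub_zero, derivative_pow]
  have : derivative (C lam * X + 1 : R[X]) = C lam := by
    rw [derivative_add, derivative_one, add_zero, derivative_C_mul, derivative_X, mul_one]
  rw [this]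

end PolyPart

variable {p : ℕ} [hp : Fact p.Prime] {K : Type u} [Field K] [NumberField K]
  [hK : IsCyclotomicExtension {p} ℚ K] {ζ : K} (hζ : IsPrimitiveRoot ζ p)

/-- every element of `𝓞 K` is congruent to an integer modulo `ζ - 1`. -/
theorem exists_int_sub_dvd (x : 𝓞 K) : ∃ m : ℤ, hζ.toInteger - 1 ∣ x - (m : 𝓞 K) := by
  obtain ⟨f, hf⟩ := hζ.integralPowerBasis.exists_eq_aeval' x
  rw [hζ.integralPowerBasis_gen] at hf
  refine ⟨f.eval 1, ?_⟩
  have h := sub_dvd_eval_sub hζ.toInteger 1 (f.map (algebraMap ℤ (𝓞 K)))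
  rw [eval_map, eval_map, ← aeval_def, ← hf] at h
  convert h using 2
  rw [eval₂_at_one]
  simp

attribute [local instance] FractionRing.liftAlgebra in
include hK in
omit hp in
theorem isGalois_fractionRing [NeZero p] : IsGalois (FractionRing ℤ) (FractionRing (𝓞 K)) := by
  have : IsGalois ℚ K := IsCyclotomicExtension.isGalois {p} ℚ K
  refine IsGalois.of_equiv_equiv (f := (FractionRing.algEquiv ℤ ℚ).toRingEquiv.symm)
      (g := (FractionRing.algEquiv (𝓞 K) K).toRingEquiv.symm) <|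
        RingHom.ext fun x ↦ IsFractionRing.algEquiv_commutes (FractionRing.algEquiv ℤ ℚ).symm
          (FractionRing.algEquiv (𝓞 K) K).symm _

attribute [local instance] FractionRing.liftAlgebra in
include hK in
theorem algebraMap_norm_eq_prod (x : 𝓞 K) :
    algebraMap ℤ (𝓞 K) (Algebra.norm ℤ x) = ∏ σ : 𝓞 K ≃ₐ[ℤ] 𝓞 K, σ x := by
  have := isGalois_fractionRing (p := p) (K := K)
  rw [← Algebra.intNorm_eq_norm, Algebra.algebraMap_intNorm_of_isGalois]

include hK in
theorem card_algEquiv : Fintype.card (𝓞 K ≃ₐ[ℤ] 𝓞 K) = p - 1 := by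
  have : IsGalois ℚ K := IsCyclotomicExtension.isGalois {p} ℚ K
  rw [← Fintype.card_congr (galRestrict ℤ ℚ K (𝓞 K)).toEquiv,
    ← Nat.card_eq_fintype_card, IsGalois.card_aut_eq_finrank,
    IsCyclotomicExtension.finrank (n := p) K (cyclotomic.irreducible_rat hp.out.pos),
    Nat.totient_prime hp.out]

omit hp hK [NumberField K] in
theorem lam_dvd_map_lam [NeZero p] (σ : 𝓞 K ≃ₐ[ℤ] 𝓞 K) :
    hζ.toInteger - 1 ∣ σ (hζ.toInteger - 1) :=
  (hζ.toInteger_isPrimitiveRoot.associated_sub_one_map_sub_one σ).dvd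

omit hp hK [NumberField K] in
theorem pow_dvd_map_sub_int [NeZero p] (σ : 𝓞 K ≃ₐ[ℤ] 𝓞 K) (k : ℕ) (x : 𝓞 K) (n : ℤ)
    (h : (hζ.toInteger - 1) ^ k ∣ x - (n : 𝓞 K)) :
    (hζ.toInteger - 1) ^ k ∣ σ x - (n : 𝓞 K) := by
  obtain ⟨z, hz⟩ := h
  have : σ x - (n : 𝓞 K) = σ (x - (n : 𝓞 K)) := by simp
  rw [this, hz, map_mul, map_pow]
  exact Dvd.dvd.mul_right (pow_dvd_pow_of_dvd (lam_dvd_map_lam hζ σ) k) _

/-- the norm of an element congruent to the integer `n` modulo `λ^k` is congruent to `n^(p-1)`. -/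
theorem pow_dvd_norm_sub (k : ℕ) (x : 𝓞 K) (n : ℤ)
    (h : (hζ.toInteger - 1) ^ k ∣ x - (n : 𝓞 K)) :
    (hζ.toInteger - 1) ^ k ∣ ((Algebra.norm ℤ x : ℤ) : 𝓞 K) - ((n ^ (p - 1) : ℤ) : 𝓞 K) := by
  have h1 : ((Algebra.norm ℤ x : ℤ) : 𝓞 K) = ∏ σ : 𝓞 K ≃ₐ[ℤ] 𝓞 K, σ x := by
    rw [← algebraMap_norm_eq_prod (p := p)]; simp
  rw [h1, ← Ideal.mem_span_singleton, ← Ideal.Quotient.eq, map_prod]
  have h2 : ∀ σ : 𝓞 K ≃ₐ[ℤ] 𝓞 K, Ideal.Quotient.mk (Ideal.span {(hζ.toInteger - 1) ^ k}) (σ x)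
      = Ideal.Quotient.mk (Ideal.span {(hζ.toInteger - 1) ^ k}) (n : 𝓞 K) := by
    intro σ
    rw [Ideal.Quotient.eq, Ideal.mem_span_singleton]
    exact pow_dvd_map_sub_int hζ σ k x n h
  rw [Finset.prod_congr rfl (fun σ _ => h2 σ), Finset.prod_const, Finset.card_univ, card_algEquiv (p := p)]
  simp

omit [NumberField K] hK in
/-- `p = ε * λ^(p-1)` with `ε` a unit. -/
theorem exists_unit_mul_pow_eq : ∃ ε : (𝓞 K)ˣ, (p : 𝓞 K) = ε * (hζ.toInteger - 1) ^ (p - 1) := by
  obtain ⟨ε, hε⟩ := IsCyclotomicExtension.Rat.associated_zeta_sub_one_pow_prime p hζ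
  exact ⟨ε, by rw [← hε]; ring⟩

omit [NumberField K] hK in
theorem lam_pow_dvd_p_mul_lam : (hζ.toInteger - 1) ^ p ∣ (p : 𝓞 K) * (hζ.toInteger - 1) := by
  obtain ⟨ε, hε⟩ := exists_unit_mul_pow_eq hζ
  refine ⟨ε, ?_⟩
  have key : (hζ.toInteger - 1) ^ p = (hζ.toInteger - 1) ^ (p - 1) * (hζ.toInteger - 1) := by
    rw [← pow_succ, Nat.sub_add_cancel hp.out.one_le]
  rw [hε, key]
  ring

omit [NumberField K] hK in
theorem lam_pow_dvd_p_sq : (hζ.toInteger - 1) ^ p ∣ (p : 𝓞 K) ^ 2 := by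
  have h1 : (hζ.toInteger - 1) ∣ (p : 𝓞 K) := by
    obtain ⟨ε, hε⟩ := exists_unit_mul_pow_eq hζ
    rw [hε]
    have : p - 1 = (p - 2) + 1 := by have := hp.out.two_le; omega
    rw [this, pow_succ]
    exact ⟨ε * (hζ.toInteger - 1) ^ (p - 2), by ring⟩
  rw [pow_two]
  exact (lam_pow_dvd_p_mul_lam hζ).trans (mul_dvd_mul_left _ h1)

theorem sq_dvd_of_lam_pow_dvd (m : ℤ) (h : (hζ.toInteger - 1) ^ p ∣ (m : 𝓞 K)) :
    (p : ℤ) ^ 2 ∣ m := by
  have h1 : (hζ.toInteger - 1) ∣ (m : 𝓞 K) :=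
    (dvd_pow_self _ hp.out.ne_zero).trans h
  rw [IsCyclotomicExtension.Rat.zeta_sub_one_dvd_intCast_iff' p hζ] at h1
  obtain ⟨m', rfl⟩ := h1
  rw [pow_two]
  refine mul_dvd_mul_left _ ?_
  rw [← IsCyclotomicExtension.Rat.zeta_sub_one_dvd_intCast_iff' p hζ]
  obtain ⟨ε, hε⟩ := exists_unit_mul_pow_eq hζ
  have hlam0 : (hζ.toInteger - 1) ^ (p - 1) ≠ 0 := pow_ne_zero _ hζ.zeta_sub_one_prime'.ne_zero
  have h2 : (hζ.toInteger - 1) ^ (p - 1) * (hζ.toInteger - 1) ∣
      (hζ.toInteger - 1) ^ (p - 1) * ((ε : 𝓞 K) * (m' : 𝓞 K)) := by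
    have : (((p : ℤ) * m' : ℤ) : 𝓞 K) =
        (hζ.toInteger - 1) ^ (p - 1) * ((ε : 𝓞 K) * (m' : 𝓞 K)) := by
      push_cast
      rw [hε]; ring
    rw [← this, ← pow_succ, Nat.sub_add_cancel hp.out.one_le]
    exact h
  have h3 := (mul_dvd_mul_iff_left hlam0).mp h2
  exact (Units.dvd_mul_left).mp (by rwa [mul_comm] at h3)

/-- A unit congruent to an integer modulo `p` has its `(p-1)`-st power congruent to `1`
modulo `λ^p`. -/
theorem lam_pow_dvd_unit_pow_sub_one (hodd : p ≠ 2) (u : (𝓞 K)ˣ) (n : ℤ)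
    (h : (p : 𝓞 K) ∣ (u : 𝓞 K) - (n : 𝓞 K)) :
    (hζ.toInteger - 1) ^ p ∣ ((u : 𝓞 K)) ^ (p - 1) - 1 := by
  obtain ⟨y, hy⟩ := h
  obtain ⟨y0, z, hz⟩ := exists_int_sub_dvd hζ y
  set lam := hζ.toInteger - 1 with hlam
  -- new integer
  set n' : ℤ := n + p * y0 with hn'
  have h1 : lam ^ p ∣ (u : 𝓞 K) - (n' : 𝓞 K) := by
    have : (u : 𝓞 K) - (n' : 𝓞 K) = ((p : 𝓞 K) * lam) * z := by
      have hy' : (u : 𝓞 K) = (n : 𝓞 K) + (p : 𝓞 K) * y := by rw [← hy]; ring
      have hz' : y = (y0 : 𝓞 K) + lam * z := by rw [← hz]; ring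
      rw [hy', hz', hn']
      push_cast
      ring
    rw [this]
    exact Dvd.dvd.mul_right (lam_pow_dvd_p_mul_lam hζ) _
  -- the norm
  have hN : IsUnit (Algebra.norm ℤ (u : 𝓞 K)) := u.isUnit.map (Algebra.norm ℤ)
  have h2 := pow_dvd_norm_sub hζ p (u : 𝓞 K) n' h1
  rw [← Int.cast_sub] at h2
  have h3 := sq_dvd_of_lam_pow_dvd hζ _ h2
  -- p does not divide n'
  have hpn : ¬ (p : ℤ) ∣ n' := by
    intro hdvd
    rw [← IsCyclotomicExtension.Rat.zeta_sub_one_dvd_intCast_iff' p hζ] at hdvd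
    have h4 : lam ∣ (u : 𝓞 K) - (n' : 𝓞 K) := (dvd_pow_self _ hp.out.ne_zero).trans h1
    have h5 : lam ∣ (u : 𝓞 K) := by
      have := dvd_add h4 hdvd
      simpa using this
    exact hζ.zeta_sub_one_prime'.not_isUnit (isUnit_of_dvd_unit h5 u.isUnit)
  have hcop : IsCoprime n' (p : ℤ) :=
    ((Nat.prime_iff_prime_int.mp hp.out).coprime_iff_not_dvd.mpr hpn).symm
  have h6 : n' ^ (p - 1) ≡ 1 [ZMOD p] := Int.ModEq.pow_card_sub_one_eq_one hp.out hcop
  have h7 : (p : ℤ) ∣ n' ^ (p - 1) - 1 := (Int.modEq_iff_dvd.mp h6.symm)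
  have h8 : (p : ℤ) ^ 2 ∣ n' ^ (p - 1) - 1 := by
    rcases Int.isUnit_iff.mp hN with hN1 | hN1
    · rw [hN1] at h3
      have : n' ^ (p - 1) - 1 = -(1 - n' ^ (p - 1)) := by ring
      rw [this]
      exact (dvd_neg).mpr h3
    · exfalso
      rw [hN1] at h3
      have h9 : (p : ℤ) ∣ -1 - n' ^ (p - 1) := (dvd_pow_self _ two_ne_zero).trans h3
      have h10 : (p : ℤ) ∣ 2 := by
        have := dvd_add h9 h7
        have e : -1 - n' ^ (p - 1) + (n' ^ (p - 1) - 1) = -2 := by ring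
        rw [e] at this
        exact (dvd_neg).mp this
      have h11 : p ∣ 2 := by exact_mod_cast h10
      have := (Nat.prime_dvd_prime_iff_eq hp.out Nat.prime_two).mp h11
      exact hodd this
  -- conclusion
  have h12 : lam ^ p ∣ (u : 𝓞 K) ^ (p - 1) - (n' : 𝓞 K) ^ (p - 1) :=
    h1.trans (sub_dvd_pow_sub_pow _ _ _)
  have h13 : lam ^ p ∣ (n' : 𝓞 K) ^ (p - 1) - 1 := by
    obtain ⟨c, hc⟩ := h8
    have : (n' : 𝓞 K) ^ (p - 1) - 1 = (p : 𝓞 K) ^ 2 * (c : 𝓞 K) := by
      have := congrArg (fun t : ℤ => (t : 𝓞 K)) hc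
      push_cast at this
      exact this
    rw [this]
    exact Dvd.dvd.mul_right (lam_pow_dvd_p_sq hζ) _
  have := dvd_add h12 h13
  simpa using this

omit hp hK [NumberField K] in
/-- if the image in `K` of a unit `v` of `𝓞 K` is a `p`-th power in `K`, it is the `p`-th power of
a unit. -/
theorem exists_unit_pow_eq_of_pow_eq (hp0 : p ≠ 0) (v : (𝓞 K)ˣ) (b : K)
    (hb : b ^ p = ((v : 𝓞 K) : K)) : ∃ w : (𝓞 K)ˣ, v = w ^ p := by
  have hbint : IsIntegral ℤ b := by
    apply IsIntegral.of_pow (Nat.pos_of_ne_zero hp0)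
    rw [hb]
    exact (v : 𝓞 K).isIntegral_coe
  set w : 𝓞 K := ⟨b, hbint⟩ with hw
  have hwp : w ^ p = (v : 𝓞 K) := by
    apply RingOfIntegers.coe_injective
    rw [map_pow]
    exact hb
  have hwu : IsUnit w := by
    rw [← isUnit_pow_iff hp0, hwp]
    exact v.isUnit
  refine ⟨hwu.unit, ?_⟩
  apply Units.ext
  rw [Units.val_pow_eq_pow_val, IsUnit.unit_spec, hwp]

section Extension

variable {L : Type u} [Field L] [NumberField L] [Algebra K L]

/-- The key computation: `β = (α - 1)/λ` is an algebraic integer generating `L` whose minimal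
polynomial over `𝓞 K` has derivative a unit at `β`. -/
theorem exists_generator_unit_derivative (v : (𝓞 K)ˣ)
    (hv : (hζ.toInteger - 1) ^ p ∣ (v : 𝓞 K) - 1)
    (α : L) (hα : α ^ p = algebraMap K L ((v : 𝓞 K) : K))
    (hdeg : Module.finrank K L = p) (hgen : Algebra.adjoin K {α} = ⊤) :
    ∃ x : 𝓞 L, Algebra.adjoin K {(algebraMap (𝓞 L) L) x} = ⊤ ∧
      IsUnit (aeval x (derivative (minpoly (𝓞 K) x))) := by
  set lam : 𝓞 K := hζ.toInteger - 1 with hlam
  have hlam0 : lam ≠ 0 := hζ.zeta_sub_one_prime'.ne_zero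
  have hp0 : p ≠ 0 := hp.out.ne_zero
  obtain ⟨g, hg⟩ := C_dvd_hPoly hp.out (lam_pow_dvd_p_mul_lam hζ) hv
  obtain ⟨hgm, hgd⟩ := monic_of_C_mul_eq_hPoly hlam0 hp0 hg
  -- the element β
  set lamL : L := algebraMap (𝓞 K) L lam with hlamL
  have hlamL0 : lamL ≠ 0 := by
    rw [hlamL, Ne, map_eq_zero_iff _ (FaithfulSMul.algebraMap_injective (𝓞 K) L)]
    exact hlam0
  set β : L := (α - 1) / lamL with hβ
  have hβα : lamL * β + 1 = α := by
    rw [hβ]; field_simp; ring
  have hvL : algebraMap (𝓞 K) L (v : 𝓞 K) = algebraMap K L ((v : 𝓞 K) : K) := by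
    rw [IsScalarTower.algebraMap_apply (𝓞 K) K L]
  have h5 : aeval β (hPoly lam (v : 𝓞 K) p) = 0 := by
    simp only [hPoly, map_sub, map_pow, map_add, map_mul, aeval_C, aeval_X, map_one]
    rw [← hlamL, hβα, hα, hvL, sub_self]
  have h6 : aeval β g = 0 := by
    rw [hg, map_mul, aeval_C] at h5
    rcases mul_eq_zero.mp h5 with h | h
    · exfalso
      rw [map_pow] at h
      exact hlamL0 (pow_eq_zero_iff hp0 |>.mp h)
    · exact h
  have h7 : IsIntegral (𝓞 K) β := ⟨g, hgm, h6⟩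
  have h7' : IsIntegral ℤ β := isIntegral_trans _ h7
  set x : 𝓞 L := ⟨β, h7'⟩ with hx
  have hxβ : algebraMap (𝓞 L) L x = β := rfl
  have hinj : Function.Injective (algebraMap (𝓞 L) L) := FaithfulSMul.algebraMap_injective (𝓞 L) L
  have h8 : aeval x g = 0 := by
    apply hinj
    rw [← aeval_algebraMap_apply, hxβ, h6, map_zero]
  refine ⟨x, ?_, ?_⟩
  · -- generation
    rw [hxβ]
    apply top_unique
    rw [← hgen]
    apply Algebra.adjoin_le
    rintro _ rfl
    rw [SetLike.mem_coe, ← hβα]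
    refine Subalgebra.add_mem _ (Subalgebra.mul_mem _ ?_ (Algebra.self_mem_adjoin_singleton K β))
      (Subalgebra.one_mem _)
    rw [hlamL, IsScalarTower.algebraMap_apply (𝓞 K) K L]
    exact Subalgebra.algebraMap_mem _ _
  · -- minimal polynomial is g
    have hxint : IsIntegral (𝓞 K) x := ⟨g, hgm, h8⟩
    have hdvd : minpoly (𝓞 K) x ∣ g := minpoly.isIntegrallyClosed_dvd hxint h8
    have hgenβ : Algebra.adjoin K {β} = ⊤ := by
      apply top_unique
      rw [← hgen]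
      apply Algebra.adjoin_le
      rintro _ rfl
      rw [SetLike.mem_coe, ← hβα]
      refine Subalgebra.add_mem _ (Subalgebra.mul_mem _ ?_ (Algebra.self_mem_adjoin_singleton K β))
        (Subalgebra.one_mem _)
      rw [hlamL, IsScalarTower.algebraMap_apply (𝓞 K) K L]
      exact Subalgebra.algebraMap_mem _ _
    have hdegmin : (minpoly (𝓞 K) x).natDegree = p := by
      have e1 : minpoly (𝓞 K) x = minpoly (𝓞 K) β := by
        rw [← hxβ]; exact (minpoly.algebraMap_eq hinj x).symm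
      have e2 : minpoly K β = (minpoly (𝓞 K) β).map (algebraMap (𝓞 K) K) :=
        minpoly.isIntegrallyClosed_eq_field_fractions' K h7
      have e3 : (minpoly K β).natDegree = Module.finrank K L := by
        rw [← Field.primitive_element_iff_minpoly_natDegree_eq]
        exact (IntermediateField.adjoin_simple_eq_top_iff_of_isAlgebraic
          (Algebra.IsAlgebraic.isAlgebraic β)).mpr hgenβ
      rw [e1, ← hdeg, ← e3, e2, (minpoly.monic h7).natDegree_map]
    have hmin : g = minpoly (𝓞 K) x :=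
      eq_of_monic_of_dvd_of_natDegree_le (minpoly.monic hxint) hgm hdvd (by rw [hgd, hdegmin])
    rw [← hmin]
    -- derivative
    have hder : aeval x (derivative (hPoly lam (v : 𝓞 K) p)) =
        aeval x (derivative (C (lam ^ p) * g)) := by rw [hg]
    rw [derivative_hPoly, derivative_C_mul] at hder
    simp only [map_mul, aeval_C, map_pow, map_add, aeval_X, map_one, map_natCast] at hder
    obtain ⟨ε, hε⟩ := exists_unit_mul_pow_eq hζ
    set lamB : 𝓞 L := algebraMap (𝓞 K) (𝓞 L) lam with hlamB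
    have hlamB0 : lamB ≠ 0 := by
      rw [hlamB, Ne, map_eq_zero_iff _ (FaithfulSMul.algebraMap_injective (𝓞 K) (𝓞 L))]
      exact hlam0
    have hαx : (lamB * x + 1) ^ p = algebraMap (𝓞 K) (𝓞 L) (v : 𝓞 K) := by
      apply hinj
      have e : algebraMap (𝓞 L) L lamB = lamL := by
        rw [hlamB, ← IsScalarTower.algebraMap_apply]
      rw [map_pow, map_add, map_mul, map_one, hxβ, e, hβα, hα,
        ← IsScalarTower.algebraMap_apply (𝓞 K) (𝓞 L) L, hvL]
    have hαunit : IsUnit (lamB * x + 1) := by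
      rw [← isUnit_pow_iff hp0, hαx]
      exact v.isUnit.map _
    have hpB : (p : 𝓞 L) = algebraMap (𝓞 K) (𝓞 L) (ε : 𝓞 K) * lamB ^ (p - 1) := by
      rw [hlamB, ← map_pow, ← map_mul, ← hε, map_natCast]
    have key : lamB ^ p * aeval x (derivative g) =
        lamB ^ p * (algebraMap (𝓞 K) (𝓞 L) (ε : 𝓞 K) * (lamB * x + 1) ^ (p - 1)) := by
      have hpp : lamB ^ p = lamB ^ (p - 1) * lamB := by
        rw [← pow_succ, Nat.sub_add_cancel hp.out.one_le]
      rw [← hder, hpB, hpp]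
      ring
    have := mul_left_cancel₀ (pow_ne_zero p hlamB0) key
    rw [this]
    exact (ε.isUnit.map _).mul (hαunit.pow _)

omit hp hK in
attribute [local instance] FractionRing.liftAlgebra in
theorem isUnramifiedAt_of_generator (x : 𝓞 L)
    (hgen : Algebra.adjoin K {(algebraMap (𝓞 L) L) x} = ⊤)
    (hunit : IsUnit (aeval x (derivative (minpoly (𝓞 K) x))))
    (P : Ideal (𝓞 L)) [P.IsPrime] : Algebra.IsUnramifiedAt (𝓞 K) P := by
  have hmem := aeval_derivative_mem_differentIdeal (𝓞 K) K L x hgen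
  have htop : differentIdeal (𝓞 K) (𝓞 L) = ⊤ := Ideal.eq_top_of_isUnit_mem _ hmem hunit
  apply not_dvd_differentIdeal_iff.mp
  rw [htop, Ideal.dvd_iff_le, top_le_iff]
  exact Ideal.IsPrime.ne_top'

end Extension

end Fermat.Agent.Kummer.KummerLemmaUnram

namespace Fermat.Agent.Kummer

open KummerLemmaUnram

/-- **Kummer's lemma from the non-existence of unramified cyclic extensions** (T5):
if `K = ℚ(ζ_p)` has no everywhere unramified Galois extension of degree `p`, then every unit of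
`𝓞 K` congruent to a rational integer modulo `p` is a `p`-th power. -/
theorem kummer_lemma_of_not_unramified {p : ℕ} [hp : Fact p.Prime] (hodd : p ≠ 2) (K : Type u)
    [Field K] [NumberField K] [IsCyclotomicExtension {p} ℚ K]
    (hT7 : ∀ (L : Type u) [Field L] [NumberField L] [Algebra K L] [IsGalois K L],
      Module.finrank K L = p →
      (∀ (P : Ideal (𝓞 L)) [P.IsPrime], P ≠ ⊥ → Algebra.IsUnramifiedAt (𝓞 K) P) → False) :
    KummerProp p K := by
  intro u ⟨n, hn⟩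
  by_contra hcon
  have hp0 : p ≠ 0 := hp.out.ne_zero
  have hζ := IsCyclotomicExtension.zeta_spec p ℚ K
  set v : (𝓞 K)ˣ := u ^ (p - 1) with hv
  have hv1 : (hζ.toInteger - 1) ^ p ∣ (v : 𝓞 K) - 1 := by
    rw [hv, Units.val_pow_eq_pow_val]
    exact lam_pow_dvd_unit_pow_sub_one hζ hodd u n hn
  -- `v` is not a `p`-th power in `K`
  have hvnot : ∀ b : K, b ^ p ≠ ((v : 𝓞 K) : K) := by
    intro b hb
    obtain ⟨w, hw⟩ := exists_unit_pow_eq_of_pow_eq hp0 v b hb
    apply hcon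
    refine ⟨u * w⁻¹, ?_⟩
    rw [mul_pow, inv_pow, ← hw, hv]
    have : u ^ p = u ^ (p - 1) * u := by
      rw [← pow_succ, Nat.sub_add_cancel hp.out.one_le]
    rw [this, mul_comm (u ^ (p - 1)) u, mul_assoc, mul_inv_cancel, mul_one]
  set a : K := ((v : 𝓞 K) : K) with ha
  have hirr : Irreducible (X ^ p - C a) := X_pow_sub_C_irreducible_of_prime hp.out hvnot
  have : Fact (Irreducible (X ^ p - C a)) := ⟨hirr⟩
  have hprim : (primitiveRoots p K).Nonempty :=
    ⟨IsCyclotomicExtension.zeta p ℚ K, (mem_primitiveRoots hp.out.pos).mpr hζ⟩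
  have : IsSplittingField K (AdjoinRoot (X ^ p - C a)) (X ^ p - C a) :=
    isSplittingField_AdjoinRoot_X_pow_sub_C hprim hirr
  have : FiniteDimensional K (AdjoinRoot (X ^ p - C a)) :=
    IsSplittingField.finiteDimensional (AdjoinRoot (X ^ p - C a)) (X ^ p - C a)
  have : NumberField (AdjoinRoot (X ^ p - C a)) :=
    NumberField.of_module_finite K (AdjoinRoot (X ^ p - C a))
  have : IsGalois K (AdjoinRoot (X ^ p - C a)) :=
    isGalois_of_isSplittingField_X_pow_sub_C hprim hirr (AdjoinRoot (X ^ p - C a))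
  have hdeg : Module.finrank K (AdjoinRoot (X ^ p - C a)) = p :=
    finrank_of_isSplittingField_X_pow_sub_C hprim hirr (AdjoinRoot (X ^ p - C a))
  have hα : (AdjoinRoot.root (X ^ p - C a)) ^ p =
      algebraMap K (AdjoinRoot (X ^ p - C a)) ((v : 𝓞 K) : K) := by
    have := AdjoinRoot.eval₂_root (X ^ p - C a)
    rw [eval₂_sub, eval₂_pow, eval₂_X, eval₂_C, sub_eq_zero] at this
    rw [this]
    rfl
  obtain ⟨x, hx1, hx2⟩ := exists_generator_unit_derivative hζ v hv1
    (AdjoinRoot.root (X ^ p - C a)) hα hdeg AdjoinRoot.adjoinRoot_eq_top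
  exact hT7 (AdjoinRoot (X ^ p - C a)) hdeg
    (fun P _ _ => isUnramifiedAt_of_generator x hx1 hx2 P)

end Fermat.Agent.Kummer
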