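import Fermat.Agent.Kummer.Defs

set_option autoImplicit false

open NumberField

namespace Fermat.Agent.Kummer.LogDerivAssembly

/-- Abstract linear algebra: if `E` is generated by `gens` (with integer exponents), `D : E → S` is
additive into a `ZMod p`-algebra, and the `D`-images of `m` elements `us` are independent over
`ZMod p`, then every element killed by `D` is a `p`-th power. -/
theorem exists_pow_eq_of_logDeriv_eq_zero {p : ℕ} [hp : Fact p.Prime] {E : Type*} [CommGroup E]
    {S : Type*} [CommRing S] [Algebra (ZMod p) S] (m : ℕ)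
    (D : Additive E →+ S)
    (gens : Fin m → E) (hgens : ∀ u : E, ∃ e : Fin m → ℤ, u = ∏ i, gens i ^ e i)
    (us : Fin m → E)
    (hind : ∀ a : Fin m → ZMod p,
      ∑ i, algebraMap (ZMod p) S (a i) * D (Additive.ofMul (us i)) = 0 → ∀ i, a i = 0)
    (u : E) (hu : D (Additive.ofMul u) = 0) : ∃ v : E, u = v ^ p := by
  classical
  -- integer multiples in `S` come from `ZMod p`
  have hcast : ∀ (n : ℤ) (s : S), n • s = algebraMap (ZMod p) S (n : ZMod p) * s := by
    intro n s
    rw [zsmul_eq_mul]
    congr 1
    simp
  -- `D` of a product of powers of generators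
  have hDprod : ∀ e : Fin m → ℤ, D (Additive.ofMul (∏ i, gens i ^ e i)) =
      ∑ i, algebraMap (ZMod p) S ((e i : ℤ) : ZMod p) * D (Additive.ofMul (gens i)) := by
    intro e
    rw [ofMul_prod, map_sum]
    refine Finset.sum_congr rfl fun i _ => ?_
    rw [ofMul_zpow, map_zsmul, hcast]
  -- the linear map `T a = ∑ a_i D(gens i)`
  let T : (Fin m → ZMod p) →ₗ[ZMod p] S :=
    { toFun := fun a => ∑ i, algebraMap (ZMod p) S (a i) * D (Additive.ofMul (gens i))
      map_add' := by
        intro a b
        simp only [Pi.add_apply, map_add, add_mul, Finset.sum_add_distrib]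
      map_smul' := by
        intro c a
        simp only [Pi.smul_apply, smul_eq_mul, map_mul, RingHom.id_apply, Finset.mul_sum,
          Algebra.smul_def, mul_assoc] }
  -- exponent matrix of the `us`
  choose c hc using fun j => hgens (us j)
  let C : (Fin m → ZMod p) →ₗ[ZMod p] (Fin m → ZMod p) :=
    { toFun := fun a => fun i => ∑ j, a j * ((c j i : ℤ) : ZMod p)
      map_add' := by
        intro a b; ext i
        simp only [Pi.add_apply, add_mul, Finset.sum_add_distrib]
      map_smul' := by
        intro r a; ext i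
        simp only [Pi.smul_apply, smul_eq_mul, RingHom.id_apply, Finset.mul_sum, mul_assoc] }
  have hTC : ∀ a, T (C a) = ∑ j, algebraMap (ZMod p) S (a j) * D (Additive.ofMul (us j)) := by
    intro a
    show ∑ i, algebraMap (ZMod p) S (∑ j, a j * ((c j i : ℤ) : ZMod p)) *
      D (Additive.ofMul (gens i)) = _
    have : ∀ j, D (Additive.ofMul (us j)) =
        ∑ i, algebraMap (ZMod p) S ((c j i : ℤ) : ZMod p) * D (Additive.ofMul (gens i)) := by
      intro j
      conv_lhs => rw [hc j]
      exact hDprod (c j)
    simp_rw [this, map_sum, map_mul, Finset.sum_mul, Finset.mul_sum]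
    rw [Finset.sum_comm]
    refine Finset.sum_congr rfl fun j _ => Finset.sum_congr rfl fun i _ => ?_
    ring
  have hCinj : Function.Injective C := by
    rw [← LinearMap.ker_eq_bot, LinearMap.ker_eq_bot']
    intro a ha
    have h0 : T (C a) = 0 := by rw [ha, map_zero]
    rw [hTC] at h0
    funext i
    exact hind a h0 i
  have hCsurj : Function.Surjective C := LinearMap.surjective_of_injective hCinj
  have hTinj : ∀ v, T v = 0 → v = 0 := by
    intro v hv
    obtain ⟨a, rfl⟩ := hCsurj v
    rw [hTC] at hv
    have : a = 0 := funext fun i => hind a hv i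
    rw [this, map_zero]
  -- apply to `u`
  obtain ⟨e, he⟩ := hgens u
  have hTe : T (fun i => ((e i : ℤ) : ZMod p)) = 0 := by
    show ∑ i, algebraMap (ZMod p) S ((e i : ℤ) : ZMod p) * D (Additive.ofMul (gens i)) = 0
    rw [← hDprod e, ← he, hu]
  have hzero := hTinj _ hTe
  have hdvd : ∀ i, (p : ℤ) ∣ e i := by
    intro i
    have := congrFun hzero i
    simpa [ZMod.intCast_zmod_eq_zero_iff_dvd] using this
  choose f hf using hdvd
  refine ⟨∏ i, gens i ^ f i, ?_⟩
  rw [he, ← Finset.prod_pow]
  refine Finset.prod_congr rfl fun i _ => ?_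
  rw [hf i, mul_comm, zpow_mul, zpow_natCast]

end Fermat.Agent.Kummer.LogDerivAssembly
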