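import Mathlib

/-!
# Independence certificates for the logarithmic derivatives of cyclotomic units (`p = 5, 7, 11, 13`)

Abstract setting: `S` a commutative `ZMod p`-algebra, `x : S` with `x ^ (p - 2) = 0` and
`1, x, …, x ^ (p - 3)` independent over `ZMod p`; `w 0 = 1 / (1 + x)` (log-derivative of `ζ`) and
`w g = A_g'(x) / A_g(x)` with `A_g = ∑_{j ≤ g} (1 + x) ^ j` (log-derivative of
`1 + ζ + ⋯ + ζ ^ g`).  Then the `w i`, `i < (p - 1) / 2`, are linearly independent over `ZMod p`.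
The certificates (inverses modulo `x ^ (p - 2)`, `p`, and a left inverse of the coefficient matrix)
were computed offline; every step is checked by `linear_combination`.
-/

set_option autoImplicit false
set_option linter.unusedSimpArgs false

namespace Fermat.Agent.Kummer.LogDerivCert


/-- Independence certificate for `p = 5`. -/
theorem indep_5 {S : Type*} [CommRing S] [Algebra (ZMod 5) S] (x : S) (hx : x ^ 3 = 0)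
    (hpow : ∀ b : Fin 3 → ZMod 5,
      (∑ k, algebraMap (ZMod 5) S (b k) * x ^ (k : ℕ)) = 0 → ∀ k, b k = 0)
    (w : Fin 2 → S) (hw0 : (1 + x) * w 0 = 1)
    (hwg : ∀ g : Fin 2, g ≠ 0 → (∑ j ∈ Finset.range ((g : ℕ) + 1), (1 + x) ^ j) * w g =
      ∑ j ∈ Finset.range ((g : ℕ) + 1), (j : S) * (1 + x) ^ (j - 1))
    (a : Fin 2 → ZMod 5) (ha : ∑ i, algebraMap (ZMod 5) S (a i) * w i = 0) :
    ∀ i, a i = 0 := by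
  have hp : (5 : S) = 0 := by
    have h : ((5 : ZMod 5) : ZMod 5) = 0 := by decide
    have h2 := congrArg (algebraMap (ZMod 5) S) h
    rwa [map_ofNat, map_zero] at h2
  have h0 : w 0 = 1 + 4 * x + x ^ 2 := by
    linear_combination (1 + 4 * x + x ^ 2) * hw0 - (w 0 * (1) - (0)) * hx - (w 0 * (x + x ^ 2) - (0)) * hp
  have h1 : w 1 = 3 + x + 2 * x ^ 2 := by
    have hw := hwg 1 (by decide)
    have e1 : (((1 : Fin 2) : ℕ) + 1) = 2 := rfl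
    rw [e1] at hw
    simp only [Finset.sum_range_succ, Finset.sum_range_zero, zero_add, pow_zero, pow_one, Nat.cast_zero, Nat.cast_one, Nat.cast_ofNat, zero_mul, one_mul, Nat.sub_self, Nat.reduceSub, Nat.reduceAdd] at hw
    linear_combination (3 + x + 2 * x ^ 2) * hw - (w 1 * (2) - (0)) * hx - (w 1 * (1 + x + x ^ 2) - (0)) * hp
  have key := hpow ![a 0 * (1 : ℕ) + a 1 * (3 : ℕ), a 0 * (4 : ℕ) + a 1 * (1 : ℕ), a 0 * (1 : ℕ) + a 1 * (2 : ℕ)] ?_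
  · -- solve the linear system
    have k0 : a 0 * (1 : ℕ) + a 1 * (3 : ℕ) = 0 := by simpa using key 0
    have k1 : a 0 * (4 : ℕ) + a 1 * (1 : ℕ) = 0 := by simpa using key 1
    have k2 : a 0 * (1 : ℕ) + a 1 * (2 : ℕ) = 0 := by simpa using key 2
    have hp' : ((5 : ZMod 5)) = 0 := by decide
    intro i
    fin_cases i
    · show a 0 = 0
      linear_combination 4 * k0 + 3 * k1 - (3 * a 0 + 3 * a 1) * hp'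
    · show a 1 = 0
      linear_combination 4 * k0 + 4 * k1 - (4 * a 0 + 3 * a 1) * hp'
  · rw [← ha]
    simp [Fin.sum_univ_succ, h0, h1, -Nat.cast_ofNat]
    ring

/-- Independence certificate for `p = 7`. -/
theorem indep_7 {S : Type*} [CommRing S] [Algebra (ZMod 7) S] (x : S) (hx : x ^ 5 = 0)
    (hpow : ∀ b : Fin 5 → ZMod 7,
      (∑ k, algebraMap (ZMod 7) S (b k) * x ^ (k : ℕ)) = 0 → ∀ k, b k = 0)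
    (w : Fin 3 → S) (hw0 : (1 + x) * w 0 = 1)
    (hwg : ∀ g : Fin 3, g ≠ 0 → (∑ j ∈ Finset.range ((g : ℕ) + 1), (1 + x) ^ j) * w g =
      ∑ j ∈ Finset.range ((g : ℕ) + 1), (j : S) * (1 + x) ^ (j - 1))
    (a : Fin 3 → ZMod 7) (ha : ∑ i, algebraMap (ZMod 7) S (a i) * w i = 0) :
    ∀ i, a i = 0 := by
  have hp : (7 : S) = 0 := by
    have h : ((7 : ZMod 7) : ZMod 7) = 0 := by decide
    have h2 := congrArg (algebraMap (ZMod 7) S) h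
    rwa [map_ofNat, map_zero] at h2
  have h0 : w 0 = 1 + 6 * x + x ^ 2 + 6 * x ^ 3 + x ^ 4 := by
    linear_combination (1 + 6 * x + x ^ 2 + 6 * x ^ 3 + x ^ 4) * hw0 - (w 0 * (1) - (0)) * hx - (w 0 * (x + x ^ 2 + x ^ 3 + x ^ 4) - (0)) * hp
  have h1 : w 1 = 4 + 5 * x + x ^ 2 + 3 * x ^ 3 + 2 * x ^ 4 := by
    have hw := hwg 1 (by decide)
    have e1 : (((1 : Fin 3) : ℕ) + 1) = 2 := rfl
    rw [e1] at hw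
    simp only [Finset.sum_range_succ, Finset.sum_range_zero, zero_add, pow_zero, pow_one, Nat.cast_zero, Nat.cast_one, Nat.cast_ofNat, zero_mul, one_mul, Nat.sub_self, Nat.reduceSub, Nat.reduceAdd] at hw
    linear_combination (4 + 5 * x + x ^ 2 + 3 * x ^ 3 + 2 * x ^ 4) * hw - (w 1 * (2) - (0)) * hx - (w 1 * (1 + 2 * x + x ^ 2 + x ^ 3 + x ^ 4) - (0)) * hp
  have h2 : w 2 = 1 + 2 * x + 4 * x ^ 3 + 3 * x ^ 4 := by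
    have hw := hwg 2 (by decide)
    have e1 : (((2 : Fin 3) : ℕ) + 1) = 3 := rfl
    rw [e1] at hw
    simp only [Finset.sum_range_succ, Finset.sum_range_zero, zero_add, pow_zero, pow_one, Nat.cast_zero, Nat.cast_one, Nat.cast_ofNat, zero_mul, one_mul, Nat.sub_self, Nat.reduceSub, Nat.reduceAdd] at hw
    linear_combination (5 + 2 * x + x ^ 2 + 3 * x ^ 3 + 6 * x ^ 4) * hw - (w 2 * (21 + 6 * x) - (12)) * hx - (w 2 * (2 + 3 * x + 2 * x ^ 2 + 2 * x ^ 3 + 4 * x ^ 4) - (2 + 2 * x + x ^ 2 + x ^ 3 + 3 * x ^ 4)) * hp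
  have key := hpow ![a 0 * (1 : ℕ) + a 1 * (4 : ℕ) + a 2 * (1 : ℕ), a 0 * (6 : ℕ) + a 1 * (5 : ℕ) + a 2 * (2 : ℕ), a 0 * (1 : ℕ) + a 1 * (1 : ℕ), a 0 * (6 : ℕ) + a 1 * (3 : ℕ) + a 2 * (4 : ℕ), a 0 * (1 : ℕ) + a 1 * (2 : ℕ) + a 2 * (3 : ℕ)] ?_
  · -- solve the linear system
    have k0 : a 0 * (1 : ℕ) + a 1 * (4 : ℕ) + a 2 * (1 : ℕ) = 0 := by simpa using key 0
    have k1 : a 0 * (6 : ℕ) + a 1 * (5 : ℕ) + a 2 * (2 : ℕ) = 0 := by simpa using key 1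
    have k2 : a 0 * (1 : ℕ) + a 1 * (1 : ℕ) = 0 := by simpa using key 2
    have k3 : a 0 * (6 : ℕ) + a 1 * (3 : ℕ) + a 2 * (4 : ℕ) = 0 := by simpa using key 3
    have k4 : a 0 * (1 : ℕ) + a 1 * (2 : ℕ) + a 2 * (3 : ℕ) = 0 := by simpa using key 4
    have hp' : ((7 : ZMod 7)) = 0 := by decide
    intro i
    fin_cases i
    · show a 0 = 0
      linear_combination 5 * k1 + 1 * k3 - (5 * a 0 + 4 * a 1 + 2 * a 2) * hp'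
    · show a 1 = 0
      linear_combination 3 * k0 + 4 * k1 + 6 * k3 - (9 * a 0 + 7 * a 1 + 5 * a 2) * hp'
    · show a 2 = 0
      linear_combination 3 * k0 + 3 * k3 - (3 * a 0 + 3 * a 1 + 2 * a 2) * hp'
  · rw [← ha]
    simp [Fin.sum_univ_succ, h0, h1, h2, -Nat.cast_ofNat]
    ring

/-- Independence certificate for `p = 11`. -/
theorem indep_11 {S : Type*} [CommRing S] [Algebra (ZMod 11) S] (x : S) (hx : x ^ 9 = 0)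
    (hpow : ∀ b : Fin 9 → ZMod 11,
      (∑ k, algebraMap (ZMod 11) S (b k) * x ^ (k : ℕ)) = 0 → ∀ k, b k = 0)
    (w : Fin 5 → S) (hw0 : (1 + x) * w 0 = 1)
    (hwg : ∀ g : Fin 5, g ≠ 0 → (∑ j ∈ Finset.range ((g : ℕ) + 1), (1 + x) ^ j) * w g =
      ∑ j ∈ Finset.range ((g : ℕ) + 1), (j : S) * (1 + x) ^ (j - 1))
    (a : Fin 5 → ZMod 11) (ha : ∑ i, algebraMap (ZMod 11) S (a i) * w i = 0) :
    ∀ i, a i = 0 := by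
  have hp : (11 : S) = 0 := by
    have h : ((11 : ZMod 11) : ZMod 11) = 0 := by decide
    have h2 := congrArg (algebraMap (ZMod 11) S) h
    rwa [map_ofNat, map_zero] at h2
  have h0 : w 0 = 1 + 10 * x + x ^ 2 + 10 * x ^ 3 + x ^ 4 + 10 * x ^ 5 + x ^ 6 + 10 * x ^ 7 + x ^ 8 := by
    linear_combination (1 + 10 * x + x ^ 2 + 10 * x ^ 3 + x ^ 4 + 10 * x ^ 5 + x ^ 6 + 10 * x ^ 7 + x ^ 8) * hw0 - (w 0 * (1) - (0)) * hx - (w 0 * (x + x ^ 2 + x ^ 3 + x ^ 4 + x ^ 5 + x ^ 6 + x ^ 7 + x ^ 8) - (0)) * hp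
  have h1 : w 1 = 6 + 8 * x + 7 * x ^ 2 + 2 * x ^ 3 + 10 * x ^ 4 + 6 * x ^ 5 + 8 * x ^ 6 + 7 * x ^ 7 + 2 * x ^ 8 := by
    have hw := hwg 1 (by decide)
    have e1 : (((1 : Fin 5) : ℕ) + 1) = 2 := rfl
    rw [e1] at hw
    simp only [Finset.sum_range_succ, Finset.sum_range_zero, zero_add, pow_zero, pow_one, Nat.cast_zero, Nat.cast_one, Nat.cast_ofNat, zero_mul, one_mul, Nat.sub_self, Nat.reduceSub, Nat.reduceAdd] at hw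
    linear_combination (6 + 8 * x + 7 * x ^ 2 + 2 * x ^ 3 + 10 * x ^ 4 + 6 * x ^ 5 + 8 * x ^ 6 + 7 * x ^ 7 + 2 * x ^ 8) * hw - (w 1 * (2) - (0)) * hx - (w 1 * (1 + 2 * x + 2 * x ^ 2 + x ^ 3 + 2 * x ^ 4 + 2 * x ^ 5 + 2 * x ^ 6 + 2 * x ^ 7 + x ^ 8) - (0)) * hp
  have h2 : w 2 = 1 + 7 * x + 5 * x ^ 3 + 6 * x ^ 4 + 7 * x ^ 5 + 2 * x ^ 6 + 3 * x ^ 7 := by
    have hw := hwg 2 (by decide)
    have e1 : (((2 : Fin 5) : ℕ) + 1) = 3 := rfl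
    rw [e1] at hw
    simp only [Finset.sum_range_succ, Finset.sum_range_zero, zero_add, pow_zero, pow_one, Nat.cast_zero, Nat.cast_one, Nat.cast_ofNat, zero_mul, one_mul, Nat.sub_self, Nat.reduceSub, Nat.reduceAdd] at hw
    linear_combination (4 + 7 * x + 10 * x ^ 2 + 6 * x ^ 3 + 9 * x ^ 4 + 8 * x ^ 6 + 3 * x ^ 7 + 9 * x ^ 8) * hw - (w 2 * (30 + 9 * x) - (18)) * hx - (w 2 * (1 + 3 * x + 5 * x ^ 2 + 5 * x ^ 3 + 5 * x ^ 4 + 3 * x ^ 5 + 3 * x ^ 6 + 3 * x ^ 7 + 4 * x ^ 8) - (1 + 2 * x + 4 * x ^ 2 + 3 * x ^ 3 + 3 * x ^ 4 + x ^ 5 + 2 * x ^ 6 + 2 * x ^ 7 + 3 * x ^ 8)) * hp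
  have h3 : w 3 = 7 + 8 * x + x ^ 2 + 8 * x ^ 3 + 7 * x ^ 4 + 6 * x ^ 5 + 4 * x ^ 6 := by
    have hw := hwg 3 (by decide)
    have e1 : (((3 : Fin 5) : ℕ) + 1) = 4 := rfl
    rw [e1] at hw
    simp only [Finset.sum_range_succ, Finset.sum_range_zero, zero_add, pow_zero, pow_one, Nat.cast_zero, Nat.cast_one, Nat.cast_ofNat, zero_mul, one_mul, Nat.sub_self, Nat.reduceSub, Nat.reduceAdd] at hw
    linear_combination (3 + x + x ^ 2 + 5 * x ^ 3 + 5 * x ^ 4 + x ^ 5 + 6 * x ^ 6 + 8 * x ^ 7 + x ^ 8) * hw - (w 3 * (44 + 12 * x + x ^ 2) - (32 + 3 * x)) * hx - (w 3 * (1 + 2 * x + 2 * x ^ 2 + 3 * x ^ 3 + 5 * x ^ 4 + 5 * x ^ 5 + 5 * x ^ 6 + 7 * x ^ 7 + 7 * x ^ 8) - (1 + 2 * x + 2 * x ^ 2 + 3 * x ^ 3 + 6 * x ^ 4 + 5 * x ^ 5 + 5 * x ^ 6 + 9 * x ^ 7 + 8 * x ^ 8)) * hp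
  have h4 : w 4 = 2 + 10 * x ^ 2 + 3 * x ^ 3 + 6 * x ^ 5 + 5 * x ^ 6 + 6 * x ^ 7 + 5 * x ^ 8 := by
    have hw := hwg 4 (by decide)
    have e1 : (((4 : Fin 5) : ℕ) + 1) = 5 := rfl
    rw [e1] at hw
    simp only [Finset.sum_range_succ, Finset.sum_range_zero, zero_add, pow_zero, pow_one, Nat.cast_zero, Nat.cast_one, Nat.cast_ofNat, zero_mul, one_mul, Nat.sub_self, Nat.reduceSub, Nat.reduceAdd] at hw
    linear_combination (9 + 4 * x + 7 * x ^ 2 + 2 * x ^ 3 + 7 * x ^ 4 + 5 * x ^ 5 + 10 * x ^ 6) * hw - (w 4 * (55 + 10 * x) - (40)) * hx - (w 4 * (4 + 10 * x + 15 * x ^ 2 + 15 * x ^ 3 + 14 * x ^ 4 + 14 * x ^ 5 + 17 * x ^ 6 + 17 * x ^ 7 + 12 * x ^ 8) - (8 + 20 * x + 25 * x ^ 2 + 23 * x ^ 3 + 21 * x ^ 4 + 22 * x ^ 5 + 28 * x ^ 6 + 27 * x ^ 7 + 15 * x ^ 8)) * hp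
  have key := hpow ![a 0 * (1 : ℕ) + a 1 * (6 : ℕ) + a 2 * (1 : ℕ) + a 3 * (7 : ℕ) + a 4 * (2 : ℕ), a 0 * (10 : ℕ) + a 1 * (8 : ℕ) + a 2 * (7 : ℕ) + a 3 * (8 : ℕ), a 0 * (1 : ℕ) + a 1 * (7 : ℕ) + a 3 * (1 : ℕ) + a 4 * (10 : ℕ), a 0 * (10 : ℕ) + a 1 * (2 : ℕ) + a 2 * (5 : ℕ) + a 3 * (8 : ℕ) + a 4 * (3 : ℕ), a 0 * (1 : ℕ) + a 1 * (10 : ℕ) + a 2 * (6 : ℕ) + a 3 * (7 : ℕ), a 0 * (10 : ℕ) + a 1 * (6 : ℕ) + a 2 * (7 : ℕ) + a 3 * (6 : ℕ) + a 4 * (6 : ℕ), a 0 * (1 : ℕ) + a 1 * (8 : ℕ) + a 2 * (2 : ℕ) + a 3 * (4 : ℕ) + a 4 * (5 : ℕ), a 0 * (10 : ℕ) + a 1 * (7 : ℕ) + a 2 * (3 : ℕ) + a 4 * (6 : ℕ), a 0 * (1 : ℕ) + a 1 * (2 : ℕ) + a 4 * (5 : ℕ)] ?_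
  · -- solve the linear system
    have k0 : a 0 * (1 : ℕ) + a 1 * (6 : ℕ) + a 2 * (1 : ℕ) + a 3 * (7 : ℕ) + a 4 * (2 : ℕ) = 0 := by simpa using key 0
    have k1 : a 0 * (10 : ℕ) + a 1 * (8 : ℕ) + a 2 * (7 : ℕ) + a 3 * (8 : ℕ) = 0 := by simpa using key 1
    have k2 : a 0 * (1 : ℕ) + a 1 * (7 : ℕ) + a 3 * (1 : ℕ) + a 4 * (10 : ℕ) = 0 := by simpa using key 2
    have k3 : a 0 * (10 : ℕ) + a 1 * (2 : ℕ) + a 2 * (5 : ℕ) + a 3 * (8 : ℕ) + a 4 * (3 : ℕ) = 0 := by simpa using key 3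
    have k4 : a 0 * (1 : ℕ) + a 1 * (10 : ℕ) + a 2 * (6 : ℕ) + a 3 * (7 : ℕ) = 0 := by simpa using key 4
    have k5 : a 0 * (10 : ℕ) + a 1 * (6 : ℕ) + a 2 * (7 : ℕ) + a 3 * (6 : ℕ) + a 4 * (6 : ℕ) = 0 := by simpa using key 5
    have k6 : a 0 * (1 : ℕ) + a 1 * (8 : ℕ) + a 2 * (2 : ℕ) + a 3 * (4 : ℕ) + a 4 * (5 : ℕ) = 0 := by simpa using key 6
    have k7 : a 0 * (10 : ℕ) + a 1 * (7 : ℕ) + a 2 * (3 : ℕ) + a 4 * (6 : ℕ) = 0 := by simpa using key 7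
    have k8 : a 0 * (1 : ℕ) + a 1 * (2 : ℕ) + a 4 * (5 : ℕ) = 0 := by simpa using key 8
    have hp' : ((11 : ZMod 11)) = 0 := by decide
    intro i
    fin_cases i
    · show a 0 = 0
      linear_combination 9 * k0 + 1 * k1 + 9 * k3 + 9 * k7 - (18 * a 0 + 13 * a 1 + 8 * a 2 + 13 * a 3 + 9 * a 4) * hp'
    · show a 1 = 0
      linear_combination 6 * k0 + 8 * k1 + 8 * k5 + 1 * k7 - (16 * a 0 + 14 * a 1 + 11 * a 2 + 14 * a 3 + 6 * a 4) * hp'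
    · show a 2 = 0
      linear_combination 7 * k0 + 7 * k1 + 1 * k3 + 5 * k5 + 5 * k7 - (17 * a 0 + 15 * a 1 + 10 * a 2 + 13 * a 3 + 7 * a 4) * hp'
    · show a 3 = 0
      linear_combination 4 * k1 + 3 * k3 + 4 * k7 - (10 * a 0 + 6 * a 1 + 5 * a 2 + 5 * a 3 + 3 * a 4) * hp'
    · show a 4 = 0
      linear_combination 2 * k0 + 2 * k1 + 1 * k3 + 1 * k5 + 9 * k7 - (12 * a 0 + 9 * a 1 + 5 * a 2 + 4 * a 3 + 6 * a 4) * hp'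
  · rw [← ha]
    simp [Fin.sum_univ_succ, h0, h1, h2, h3, h4, -Nat.cast_ofNat]
    ring

/-- Independence certificate for `p = 13`. -/
theorem indep_13 {S : Type*} [CommRing S] [Algebra (ZMod 13) S] (x : S) (hx : x ^ 11 = 0)
    (hpow : ∀ b : Fin 11 → ZMod 13,
      (∑ k, algebraMap (ZMod 13) S (b k) * x ^ (k : ℕ)) = 0 → ∀ k, b k = 0)
    (w : Fin 6 → S) (hw0 : (1 + x) * w 0 = 1)
    (hwg : ∀ g : Fin 6, g ≠ 0 → (∑ j ∈ Finset.range ((g : ℕ) + 1), (1 + x) ^ j) * w g =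
      ∑ j ∈ Finset.range ((g : ℕ) + 1), (j : S) * (1 + x) ^ (j - 1))
    (a : Fin 6 → ZMod 13) (ha : ∑ i, algebraMap (ZMod 13) S (a i) * w i = 0) :
    ∀ i, a i = 0 := by
  have hp : (13 : S) = 0 := by
    have h : ((13 : ZMod 13) : ZMod 13) = 0 := by decide
    have h2 := congrArg (algebraMap (ZMod 13) S) h
    rwa [map_ofNat, map_zero] at h2
  have h0 : w 0 = 1 + 12 * x + x ^ 2 + 12 * x ^ 3 + x ^ 4 + 12 * x ^ 5 + x ^ 6 + 12 * x ^ 7 + x ^ 8 + 12 * x ^ 9 + x ^ 10 := by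
    linear_combination (1 + 12 * x + x ^ 2 + 12 * x ^ 3 + x ^ 4 + 12 * x ^ 5 + x ^ 6 + 12 * x ^ 7 + x ^ 8 + 12 * x ^ 9 + x ^ 10) * hw0 - (w 0 * (1) - (0)) * hx - (w 0 * (x + x ^ 2 + x ^ 3 + x ^ 4 + x ^ 5 + x ^ 6 + x ^ 7 + x ^ 8 + x ^ 9 + x ^ 10) - (0)) * hp
  have h1 : w 1 = 7 + 3 * x + 5 * x ^ 2 + 4 * x ^ 3 + 11 * x ^ 4 + x ^ 5 + 6 * x ^ 6 + 10 * x ^ 7 + 8 * x ^ 8 + 9 * x ^ 9 + 2 * x ^ 10 := by
    have hw := hwg 1 (by decide)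
    have e1 : (((1 : Fin 6) : ℕ) + 1) = 2 := rfl
    rw [e1] at hw
    simp only [Finset.sum_range_succ, Finset.sum_range_zero, zero_add, pow_zero, pow_one, Nat.cast_zero, Nat.cast_one, Nat.cast_ofNat, zero_mul, one_mul, Nat.sub_self, Nat.reduceSub, Nat.reduceAdd] at hw
    linear_combination (7 + 3 * x + 5 * x ^ 2 + 4 * x ^ 3 + 11 * x ^ 4 + x ^ 5 + 6 * x ^ 6 + 10 * x ^ 7 + 8 * x ^ 8 + 9 * x ^ 9 + 2 * x ^ 10) * hw - (w 1 * (2) - (0)) * hx - (w 1 * (1 + x + x ^ 2 + x ^ 3 + 2 * x ^ 4 + x ^ 5 + x ^ 6 + 2 * x ^ 7 + 2 * x ^ 8 + 2 * x ^ 9 + x ^ 10) - (0)) * hp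
  have h2 : w 2 = 1 + 4 * x + 3 * x ^ 3 + 10 * x ^ 4 + 2 * x ^ 5 + 12 * x ^ 6 + 9 * x ^ 7 + 10 * x ^ 9 + 3 * x ^ 10 := by
    have hw := hwg 2 (by decide)
    have e1 : (((2 : Fin 6) : ℕ) + 1) = 3 := rfl
    rw [e1] at hw
    simp only [Finset.sum_range_succ, Finset.sum_range_zero, zero_add, pow_zero, pow_one, Nat.cast_zero, Nat.cast_one, Nat.cast_ofNat, zero_mul, one_mul, Nat.sub_self, Nat.reduceSub, Nat.reduceAdd] at hw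
    linear_combination (9 + 4 * x + 6 * x ^ 2 + 10 * x ^ 3 + x ^ 4 + 4 * x ^ 6 + 9 * x ^ 7 + 7 * x ^ 8 + 3 * x ^ 9 + 12 * x ^ 10) * hw - (w 2 * (39 + 12 * x) - (24)) * hx - (w 2 * (2 + 3 * x + 3 * x ^ 2 + 4 * x ^ 3 + 3 * x ^ 4 + x ^ 5 + x ^ 6 + 3 * x ^ 7 + 4 * x ^ 8 + 3 * x ^ 9 + 4 * x ^ 10) - (2 + 2 * x + 2 * x ^ 2 + 3 * x ^ 3 + x ^ 4 + 2 * x ^ 7 + 3 * x ^ 8 + x ^ 9 + 3 * x ^ 10)) * hp
  have h3 : w 3 = 8 + 3 * x + 11 * x ^ 2 + 11 * x ^ 3 + x ^ 4 + x ^ 5 + 11 * x ^ 6 + 5 * x ^ 7 + 4 * x ^ 8 + 9 * x ^ 9 + 4 * x ^ 10 := by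
    have hw := hwg 3 (by decide)
    have e1 : (((3 : Fin 6) : ℕ) + 1) = 4 := rfl
    rw [e1] at hw
    simp only [Finset.sum_range_succ, Finset.sum_range_zero, zero_add, pow_zero, pow_one, Nat.cast_zero, Nat.cast_one, Nat.cast_ofNat, zero_mul, one_mul, Nat.sub_self, Nat.reduceSub, Nat.reduceAdd] at hw
    linear_combination (10 + 11 * x + 6 * x ^ 2 + 10 * x ^ 3 + 12 * x ^ 4 + 3 * x ^ 5 + 7 * x ^ 6 + 3 * x ^ 7 + 4 * x ^ 8 + 12 * x ^ 9) * hw - (w 3 * (52 + 12 * x) - (36)) * hx - (w 3 * (3 + 8 * x + 10 * x ^ 2 + 10 * x ^ 3 + 11 * x ^ 4 + 10 * x ^ 5 + 8 * x ^ 6 + 6 * x ^ 7 + 5 * x ^ 8 + 7 * x ^ 9 + 7 * x ^ 10) - (4 + 11 * x + 11 * x ^ 2 + 10 * x ^ 3 + 13 * x ^ 4 + 11 * x ^ 5 + 7 * x ^ 6 + 6 * x ^ 7 + 5 * x ^ 8 + 8 * x ^ 9 + 8 * x ^ 10)) * hp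
  have h4 : w 4 = 2 + 12 * x ^ 2 + 6 * x ^ 3 + 2 * x ^ 5 + 11 * x ^ 6 + 4 * x ^ 7 + 7 * x ^ 8 + 3 * x ^ 9 + 5 * x ^ 10 := by
    have hw := hwg 4 (by decide)
    have e1 : (((4 : Fin 6) : ℕ) + 1) = 5 := rfl
    rw [e1] at hw
    simp only [Finset.sum_range_succ, Finset.sum_range_zero, zero_add, pow_zero, pow_one, Nat.cast_zero, Nat.cast_one, Nat.cast_ofNat, zero_mul, one_mul, Nat.sub_self, Nat.reduceSub, Nat.reduceAdd] at hw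
    linear_combination (8 + 10 * x + 3 * x ^ 2 + 5 * x ^ 3 + x ^ 4 + 9 * x ^ 5 + 3 * x ^ 6 + 3 * x ^ 8 + 10 * x ^ 9 + 2 * x ^ 10) * hw - (w 4 * (135 + 73 * x + 20 * x ^ 2 + 2 * x ^ 3) - (202 + 70 * x + 8 * x ^ 2)) * hx - (w 4 * (3 + 10 * x + 15 * x ^ 2 + 15 * x ^ 3 + 11 * x ^ 4 + 10 * x ^ 5 + 11 * x ^ 6 + 10 * x ^ 7 + 7 * x ^ 8 + 8 * x ^ 9 + 11 * x ^ 10) - (6 + 20 * x + 26 * x ^ 2 + 22 * x ^ 3 + 15 * x ^ 4 + 15 * x ^ 5 + 18 * x ^ 6 + 15 * x ^ 7 + 8 * x ^ 8 + 13 * x ^ 9 + 20 * x ^ 10)) * hp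
  have h5 : w 5 = 9 + 8 * x + 3 * x ^ 2 + 8 * x ^ 3 + 9 * x ^ 4 + x ^ 5 + 6 * x ^ 6 + 7 * x ^ 7 + 6 * x ^ 8 + 7 * x ^ 9 + 6 * x ^ 10 := by
    have hw := hwg 5 (by decide)
    have e1 : (((5 : Fin 6) : ℕ) + 1) = 6 := rfl
    rw [e1] at hw
    simp only [Finset.sum_range_succ, Finset.sum_range_zero, zero_add, pow_zero, pow_one, Nat.cast_zero, Nat.cast_one, Nat.cast_ofNat, zero_mul, one_mul, Nat.sub_self, Nat.reduceSub, Nat.reduceAdd] at hw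
    linear_combination (11 + 5 * x + 5 * x ^ 2 + 4 * x ^ 3 + 4 * x ^ 4 + 5 * x ^ 5 + 6 * x ^ 6 + 12 * x ^ 7) * hw - (w 5 * (78 + 12 * x) - (60)) * hx - (w 5 * (5 + 15 * x + 25 * x ^ 2 + 28 * x ^ 3 + 25 * x ^ 4 + 22 * x ^ 5 + 22 * x ^ 6 + 27 * x ^ 7 + 31 * x ^ 8 + 28 * x ^ 9 + 17 * x ^ 10) - (12 + 39 * x + 59 * x ^ 2 + 57 * x ^ 3 + 47 * x ^ 4 + 43 * x ^ 5 + 45 * x ^ 6 + 58 * x ^ 7 + 68 * x ^ 8 + 54 * x ^ 9 + 24 * x ^ 10)) * hp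
  have key := hpow ![a 0 * (1 : ℕ) + a 1 * (7 : ℕ) + a 2 * (1 : ℕ) + a 3 * (8 : ℕ) + a 4 * (2 : ℕ) + a 5 * (9 : ℕ), a 0 * (12 : ℕ) + a 1 * (3 : ℕ) + a 2 * (4 : ℕ) + a 3 * (3 : ℕ) + a 5 * (8 : ℕ), a 0 * (1 : ℕ) + a 1 * (5 : ℕ) + a 3 * (11 : ℕ) + a 4 * (12 : ℕ) + a 5 * (3 : ℕ), a 0 * (12 : ℕ) + a 1 * (4 : ℕ) + a 2 * (3 : ℕ) + a 3 * (11 : ℕ) + a 4 * (6 : ℕ) + a 5 * (8 : ℕ), a 0 * (1 : ℕ) + a 1 * (11 : ℕ) + a 2 * (10 : ℕ) + a 3 * (1 : ℕ) + a 5 * (9 : ℕ), a 0 * (12 : ℕ) + a 1 * (1 : ℕ) + a 2 * (2 : ℕ) + a 3 * (1 : ℕ) + a 4 * (2 : ℕ) + a 5 * (1 : ℕ), a 0 * (1 : ℕ) + a 1 * (6 : ℕ) + a 2 * (12 : ℕ) + a 3 * (11 : ℕ) + a 4 * (11 : ℕ) + a 5 * (6 : ℕ), a 0 * (12 : ℕ) + a 1 * (10 : ℕ) + a 2 * (9 : ℕ) + a 3 * (5 : ℕ) + a 4 * (4 : ℕ) + a 5 * (7 : ℕ), a 0 * (1 : ℕ) + a 1 * (8 : ℕ) + a 3 * (4 : ℕ) + a 4 * (7 : ℕ) +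 a 5 * (6 : ℕ), a 0 * (12 : ℕ) + a 1 * (9 : ℕ) + a 2 * (10 : ℕ) + a 3 * (9 : ℕ) + a 4 * (3 : ℕ) + a 5 * (7 : ℕ), a 0 * (1 : ℕ) + a 1 * (2 : ℕ) + a 2 * (3 : ℕ) + a 3 * (4 : ℕ) + a 4 * (5 : ℕ) + a 5 * (6 : ℕ)] ?_
  · -- solve the linear system
    have k0 : a 0 * (1 : ℕ) + a 1 * (7 : ℕ) + a 2 * (1 : ℕ) + a 3 * (8 : ℕ) + a 4 * (2 : ℕ) + a 5 * (9 : ℕ) = 0 := by simpa using key 0
    have k1 : a 0 * (12 : ℕ) + a 1 * (3 : ℕ) + a 2 * (4 : ℕ) + a 3 * (3 : ℕ) + a 5 * (8 : ℕ) = 0 := by simpa using key 1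
    have k2 : a 0 * (1 : ℕ) + a 1 * (5 : ℕ) + a 3 * (11 : ℕ) + a 4 * (12 : ℕ) + a 5 * (3 : ℕ) = 0 := by simpa using key 2
    have k3 : a 0 * (12 : ℕ) + a 1 * (4 : ℕ) + a 2 * (3 : ℕ) + a 3 * (11 : ℕ) + a 4 * (6 : ℕ) + a 5 * (8 : ℕ) = 0 := by simpa using key 3
    have k4 : a 0 * (1 : ℕ) + a 1 * (11 : ℕ) + a 2 * (10 : ℕ) + a 3 * (1 : ℕ) + a 5 * (9 : ℕ) = 0 := by simpa using key 4
    have k5 : a 0 * (12 : ℕ) + a 1 * (1 : ℕ) + a 2 * (2 : ℕ) + a 3 * (1 : ℕ) + a 4 * (2 : ℕ) + a 5 * (1 : ℕ) = 0 := by simpa using key 5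
    have k6 : a 0 * (1 : ℕ) + a 1 * (6 : ℕ) + a 2 * (12 : ℕ) + a 3 * (11 : ℕ) + a 4 * (11 : ℕ) + a 5 * (6 : ℕ) = 0 := by simpa using key 6
    have k7 : a 0 * (12 : ℕ) + a 1 * (10 : ℕ) + a 2 * (9 : ℕ) + a 3 * (5 : ℕ) + a 4 * (4 : ℕ) + a 5 * (7 : ℕ) = 0 := by simpa using key 7
    have k8 : a 0 * (1 : ℕ) + a 1 * (8 : ℕ) + a 3 * (4 : ℕ) + a 4 * (7 : ℕ) + a 5 * (6 : ℕ) = 0 := by simpa using key 8
    have k9 : a 0 * (12 : ℕ) + a 1 * (9 : ℕ) + a 2 * (10 : ℕ) + a 3 * (9 : ℕ) + a 4 * (3 : ℕ) + a 5 * (7 : ℕ) = 0 := by simpa using key 9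
    have k10 : a 0 * (1 : ℕ) + a 1 * (2 : ℕ) + a 2 * (3 : ℕ) + a 3 * (4 : ℕ) + a 4 * (5 : ℕ) + a 5 * (6 : ℕ) = 0 := by simpa using key 10
    have hp' : ((13 : ZMod 13)) = 0 := by decide
    intro i
    fin_cases i
    · show a 0 = 0
      linear_combination 1 * k0 + 3 * k1 + 3 * k3 + 9 * k5 + 7 * k7 + 4 * k9 - (24 * a 0 + 11 * a 1 + 11 * a 2 + 10 * a 3 + 6 * a 4 + 11 * a 5) * hp'
    · show a 1 = 0
      linear_combination 10 * k0 + 2 * k1 + 10 * k3 + 7 * k5 + 11 * k7 + 6 * k9 - (34 * a 0 + 22 * a 1 + 17 * a 2 + 24 * a 3 + 12 * a 4 + 24 * a 5) * hp'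
    · show a 2 = 0
      linear_combination 12 * k0 + 12 * k1 + 2 * k3 + 4 * k5 + 7 * k9 - (24 * a 0 + 15 * a 1 + 11 * a 2 + 17 * a 3 + 5 * a 4 + 21 * a 5) * hp'
    · show a 3 = 0
      linear_combination 7 * k0 + 11 * k1 + 9 * k3 + 9 * k5 + 6 * k7 + 11 * k9 - (43 * a 0 + 22 * a 1 + 20 * a 2 + 25 * a 3 + 11 * a 4 + 27 * a 5) * hp'
    · show a 4 = 0
      linear_combination 4 * k0 + 2 * k1 + 2 * k3 + 7 * k5 + 1 * k7 + 5 * k9 - (16 * a 0 + 8 * a 1 + 7 * a 2 + 9 * a 3 + 4 * a 4 + 9 * a 5) * hp'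
    · show a 5 = 0
      linear_combination 4 * k0 + 1 * k1 + 2 * k3 + 11 * k5 + 1 * k7 + 2 * k9 - (16 * a 0 + 6 * a 1 + 5 * a 2 + 7 * a 3 + 4 * a 4 + 7 * a 5) * hp'
  · rw [← ha]
    simp [Fin.sum_univ_succ, h0, h1, h2, h3, h4, h5, -Nat.cast_ofNat]
    ring

end Fermat.Agent.Kummer.LogDerivCert
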