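import Mathlib

/-!
# Kummer project, piece T1/T2: principal primes in prime cyclotomic fields via certificates

For a prime `p` and the `p`-th cyclotomic field `K`, a degree one prime of `𝓞 K` above a rational
prime `q` is of the form `(q, ζ - r)` with `r` a root of the `p`-th cyclotomic polynomial modulo
`q` (Kummer-Dedekind). The lemma `exists_isPrincipal_of_cert` shows that such a prime is principal
as soon as one exhibits `α` together with explicit cofactors.
-/

set_option autoImplicit false

open NumberField Polynomial Ideal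
open IsCyclotomicExtension.Rat RingOfIntegers NumberField.Ideal

universe u

namespace Fermat.Agent.Kummer.PidCert

variable (p q : ℕ) [hp : Fact p.Prime] [hq : Fact q.Prime]
  (K : Type u) [Field K] [NumberField K] [hK : IsCyclotomicExtension {p} ℚ K]

/-- The chosen primitive `p`-th root of unity, as an algebraic integer. -/
noncomputable abbrev zetaInt : 𝓞 K := (IsCyclotomicExtension.zeta_spec p ℚ K).toInteger

lemma minpoly_zetaInt : minpoly ℤ (zetaInt p K) = cyclotomic p ℤ := by
  have h := cyclotomic_eq_minpoly (IsCyclotomicExtension.zeta_spec p ℚ K) hp.out.pos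
  rw [h, ← RingOfIntegers.minpoly_coe]
  rfl

lemma geom_sum_zetaInt : ∑ i ∈ Finset.range p, (zetaInt p K) ^ i = 0 :=
  (IsCyclotomicExtension.zeta_spec p ℚ K).toInteger_isPrimitiveRoot.geom_sum_eq_zero hp.out.one_lt

lemma not_dvd_exponent : ¬ q ∣ exponent (zetaInt p K) := by
  rw [exponent_eq_one_iff.mpr <| adjoin_singleton_eq_top (IsCyclotomicExtension.zeta_spec p ℚ K)]
  exact hq.out.not_dvd_one

/-- Certificate lemma: a degree one prime above `q` in the `p`-th cyclotomic field is principal,
given explicit cofactors. -/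
theorem exists_isPrincipal_of_cert (r : ℤ)
    (hr : (q : ℤ) ∣ ∑ i ∈ Finset.range p, r ^ i)
    (α β γ u v : 𝓞 K) (h1 : α * β = (q : 𝓞 K)) (h2 : α * γ = zetaInt p K - (r : 𝓞 K))
    (h3 : α = (q : 𝓞 K) * u + (zetaInt p K - (r : 𝓞 K)) * v) :
    ∃ P ∈ primesOver (span {(q : ℤ)}) (𝓞 K), Submodule.IsPrincipal P := by
  have hexp := not_dvd_exponent p q K
  have h0 : map (Int.castRingHom (ZMod q)) (minpoly ℤ (zetaInt p K)) ≠ 0 :=
    map_monic_ne_zero (minpoly.monic (zetaInt p K).isIntegral)
  have hQ : (X - C r : ℤ[X]).map (Int.castRingHom (ZMod q)) ∈ monicFactorsMod (zetaInt p K) q := by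
    rw [Multiset.mem_toFinset, Polynomial.mem_normalizedFactors_iff h0]
    have hmap : (X - C r : ℤ[X]).map (Int.castRingHom (ZMod q)) = X - C ((r : ZMod q)) := by
      simp
    rw [hmap]
    refine ⟨irreducible_X_sub_C _, monic_X_sub_C _, ?_⟩
    rw [dvd_iff_isRoot, IsRoot.def, minpoly_zetaInt, map_cyclotomic_int, cyclotomic_prime,
      eval_geom_sum]
    have : ((∑ i ∈ Finset.range p, r ^ i : ℤ) : ZMod q) = 0 :=
      (ZMod.intCast_zmod_eq_zero_iff_dvd _ _).mpr hr
    push_cast at this
    exact this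
  refine ⟨((primesOverSpanEquivMonicFactorsMod hexp).symm ⟨_, hQ⟩ : Ideal (𝓞 K)),
    ((primesOverSpanEquivMonicFactorsMod hexp).symm ⟨_, hQ⟩).prop, ?_⟩
  rw [primesOverSpanEquivMonicFactorsMod_symm_apply_eq_span hexp hQ]
  have haeval : aeval (zetaInt p K) (X - C r : ℤ[X]) = zetaInt p K - (r : 𝓞 K) := by
    simp
  rw [haeval]
  refine ⟨⟨α, ?_⟩⟩
  apply le_antisymm
  · rw [Ideal.span_le]
    intro x hx
    rcases hx with rfl | rfl
    · exact Ideal.mem_span_singleton.mpr ⟨β, h1.symm⟩
    · exact Ideal.mem_span_singleton.mpr ⟨γ, h2.symm⟩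
  · rw [Ideal.submodule_span_eq, Ideal.span_singleton_le_iff_mem, h3]
    exact Ideal.add_mem _ (Ideal.mul_mem_right _ _ (Ideal.subset_span (by simp)))
      (Ideal.mul_mem_right _ _ (Ideal.subset_span (by simp)))

end Fermat.Agent.Kummer.PidCert
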