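import Mathlib

/-!
# Shared lemmas for showing that cyclotomic rings of integers are PIDs

The main statement `isPrincipal_of_prod_conj` says: in the `p`-th cyclotomic field, if an explicit
integer polynomial `g` satisfies `∏_{1 ≤ k < p} g(ζ^k) = q ^ f` with `f` the order of `q` modulo
`p`, then every prime ideal above `q` is principal.
-/

set_option autoImplicit false

open NumberField Module Ideal Polynomial IsCyclotomicExtension IsCyclotomicExtension.Rat

universe u

namespace Fermat.Agent.Kummer.PidCommon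

/-- Two ideals with `I ≤ J` and the same nonzero absolute norm are equal. -/
theorem eq_of_le_of_absNorm_eq {S : Type*} [CommRing S] [IsDedekindDomain S]
    [Module.Free ℤ S] {I J : Ideal S} (hle : I ≤ J) (h : absNorm I = absNorm J)
    (h0 : absNorm I ≠ 0) : I = J := by
  refine le_antisymm hle ?_
  have hle' : I.toAddSubgroup ≤ J.toAddSubgroup := fun x hx => hle hx
  have h1 : I.toAddSubgroup.relIndex J.toAddSubgroup * J.toAddSubgroup.index =
      I.toAddSubgroup.index := AddSubgroup.relIndex_mul_index hle'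
  rw [← absNorm_eq_index, ← absNorm_eq_index, h] at h1
  have h2 : I.toAddSubgroup.relIndex J.toAddSubgroup = 1 := by
    have hJ : absNorm J ≠ 0 := h ▸ h0
    exact Nat.eq_of_mul_eq_mul_right (Nat.pos_of_ne_zero hJ) (by rw [h1, one_mul] :
      I.toAddSubgroup.relIndex J.toAddSubgroup * absNorm J = 1 * absNorm J)
  have := AddSubgroup.relIndex_eq_one.mp h2
  exact fun x hx => this hx

variable {p : ℕ} [hp : Fact p.Prime] (K : Type u) [Field K] [NumberField K]
  [hK : IsCyclotomicExtension {p} ℚ K]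

omit [NumberField K] in
theorem coe_aeval (g : ℤ[X]) (x : 𝓞 K) : ((aeval x g : 𝓞 K) : K) = aeval (x : K) g :=
  (aeval_algebraMap_apply K x g).symm

/-- The Galois conjugates `g(ζ^k)` all have the same norm. -/
theorem norm_aeval_pow_eq (g : ℤ[X]) {k : ℕ} (hk : k.Coprime p) :
    Algebra.norm ℤ (aeval ((zeta_spec p ℚ K).toInteger ^ k) g) =
      Algebra.norm ℤ (aeval (zeta_spec p ℚ K).toInteger g) := by
  have hζ := zeta_spec p ℚ K
  have hμ : IsPrimitiveRoot ((zeta p ℚ K) ^ k) p := hζ.pow_of_coprime k hk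
  have hirr : Irreducible (cyclotomic p ℚ) := cyclotomic.irreducible_rat hp.out.pos
  let σ : K ≃ₐ[ℚ] K := fromZetaAut hμ hirr
  have hσ : σ (zeta p ℚ K) = (zeta p ℚ K) ^ k := fromZetaAut_spec hμ hirr
  have h1 : ((aeval (hζ.toInteger ^ k) g : 𝓞 K) : K) = σ ((aeval hζ.toInteger g : 𝓞 K) : K) := by
    rw [coe_aeval, coe_aeval]
    have : σ ((aeval (hζ.toInteger : K)) g) = aeval (σ (hζ.toInteger : K)) g := by
      have := Polynomial.aeval_algHom_apply (σ.toAlgHom.restrictScalars ℤ) (hζ.toInteger : K) g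
      simpa using this.symm
    rw [this]
    have e2 : ((hζ.toInteger ^ k : 𝓞 K) : K) = σ (hζ.toInteger : K) := by
      have e0 : (hζ.toInteger : K) = zeta p ℚ K := hζ.coe_toInteger
      rw [RingOfIntegers.coe_eq_algebraMap, map_pow, ← RingOfIntegers.coe_eq_algebraMap, e0, hσ]
    rw [e2]
  apply Int.cast_injective (α := ℚ)
  rw [Algebra.coe_norm_int, Algebra.coe_norm_int, h1, Algebra.norm_eq_of_algEquiv]

/-- If the product of the conjugates `g(ζ^k)`, `1 ≤ k < p`, equals `q ^ f` where `f` is the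
order of `q` modulo `p`, then every prime above `q` is principal. -/
theorem isPrincipal_of_prod_conj (g : ℤ[X]) {q f : ℕ} [hq : Fact q.Prime] (hqp : q ≠ p)
    (hf : orderOf (q : ZMod p) = f)
    (hprod : ∏ k ∈ Finset.Ico 1 p, aeval ((zeta_spec p ℚ K).toInteger ^ k) g = (q : 𝓞 K) ^ f)
    (P : Ideal (𝓞 K)) [P.IsPrime] [P.LiesOver (span {(q : ℤ)})] : Submodule.IsPrincipal P := by
  set z := (zeta_spec p ℚ K).toInteger with hz
  set n := Algebra.norm ℤ (aeval z g) with hn
  have hp2 := hp.out.two_le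
  have hcop : ∀ k ∈ Finset.Ico 1 p, k.Coprime p := by
    intro k hk
    rw [Finset.mem_Ico] at hk
    exact (Nat.coprime_of_lt_prime (by omega) hk.2 hp.out).symm
  have hrank : finrank ℤ (𝓞 K) = p - 1 := by
    rw [RingOfIntegers.rank, IsCyclotomicExtension.finrank (n := p) K
      (cyclotomic.irreducible_rat hp.out.pos), Nat.totient_prime hp.out]
  have hqdvd : ¬ q ∣ p := fun h => hqp ((Nat.prime_dvd_prime_iff_eq hq.out hp.out).mp h)
  -- norm of the product
  have hnorm : n ^ (p - 1) = ((q : ℤ) ^ f) ^ (p - 1) := by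
    have h1 := congrArg (Algebra.norm ℤ) hprod
    rw [map_prod, map_pow] at h1
    rw [Finset.prod_congr rfl (fun k hk => norm_aeval_pow_eq K g (hcop k hk))] at h1
    rw [Finset.prod_const, Nat.card_Ico] at h1
    rw [h1]
    have : Algebra.norm ℤ (q : 𝓞 K) = (q : ℤ) ^ (p - 1) := by
      have := Algebra.norm_algebraMap (S := 𝓞 K) (q : ℤ)
      rw [hrank] at this
      simpa using this
    rw [this, ← pow_mul, ← pow_mul, mul_comm]
  have hnabs : n.natAbs = q ^ f := by
    have h2 : (n.natAbs) ^ (p - 1) = (q ^ f) ^ (p - 1) := by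
      have := congrArg Int.natAbs hnorm
      rw [Int.natAbs_pow, Int.natAbs_pow, Int.natAbs_pow, Int.natAbs_natCast] at this
      exact this
    exact Nat.pow_left_injective (by omega) h2
  -- `q ∈ P`
  have hqP : (q : 𝓞 K) ∈ P := by
    have h3 : (q : ℤ) ∈ P.under ℤ := by
      rw [← Ideal.over_def P (span {(q : ℤ)})]
      exact Ideal.mem_span_singleton_self _
    simpa using h3
  have hprodP : ∏ k ∈ Finset.Ico 1 p, aeval (z ^ k) g ∈ P := by
    rw [hprod]
    refine Ideal.pow_mem_of_mem P hqP f ?_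
    rw [← hf, ← inertiaDeg_eq_of_not_dvd q K P hqdvd]
    exact Ideal.inertiaDeg_pos P ℤ
  obtain ⟨k, hk, hkP⟩ := (Ideal.IsPrime.prod_mem_iff).mp hprodP
  have hle : span {aeval (z ^ k) g} ≤ P := (span_singleton_le_iff_mem P).mpr hkP
  have hN1 : absNorm (span {aeval (z ^ k) g}) = q ^ f := by
    rw [absNorm_span_singleton, norm_aeval_pow_eq K g (hcop k hk), ← hnabs]
  have hN2 : absNorm P = q ^ f := by
    rw [← Ideal.pow_inertiaDeg q P, inertiaDeg_eq_of_not_dvd q K P hqdvd, hf]
  have hne : absNorm (span {aeval (z ^ k) g}) ≠ 0 := by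
    rw [hN1]; exact pow_ne_zero _ hq.out.ne_zero
  have := eq_of_le_of_absNorm_eq hle (hN1.trans hN2.symm) hne
  rw [← this]
  exact ⟨⟨_, rfl⟩⟩

end Fermat.Agent.Kummer.PidCommon
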