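import Mathlib
import Fermat.Agent.Kummer.PidCert

/-!
# Kummer project, piece T1: the ring of integers of the 11-th cyclotomic field is a PID

The Minkowski bound is `< 66`; the only primes below it whose inertia degree is too small are
`11` (totally ramified, generated by `ζ - 1`) and `23`, for which we exhibit the generator
`1 + ζ + ζ ^ 3` of the prime `(23, ζ - 4)`.
-/

set_option autoImplicit false

open NumberField Polynomial Ideal InfinitePlace Nat Real Module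
open IsCyclotomicExtension.Rat RingOfIntegers NumberField.Ideal

universe u

namespace Fermat.Agent.Kummer.PidEleven

open Fermat.Agent.Kummer.PidCert

theorem fact_prime_eleven : Fact (Nat.Prime 11) := ⟨by norm_num⟩

theorem fact_prime_twentythree : Fact (Nat.Prime 23) := ⟨by norm_num⟩

attribute [local instance] fact_prime_eleven fact_prime_twentythree

lemma small_check : ∀ p < 66, ∀ f < 7, 0 < f → p ^ f < 66 →
    ((p : ℕ) : ZMod 11) ^ f = 1 → p % 11 = 1 := by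
  decide

lemma prime_mod : ∀ p < 66, p % 11 = 1 → p.Prime → p = 23 := by
  intro p hp hmod hpp
  interval_cases p <;> first | rfl | omega | (exfalso; revert hpp; norm_num)

lemma pow_orderOf_ge (p : ℕ) (hp : p < 66) (hpp : p.Prime) (h11 : p ≠ 11) (h23 : p ≠ 23) :
    66 ≤ p ^ orderOf ((p : ℕ) : ZMod 11) := by
  by_contra hlt
  rw [not_le] at hlt
  have hpos : 0 < orderOf ((p : ℕ) : ZMod 11) := by
    apply orderOf_pos_iff.mpr
    have hu : IsUnit ((p : ℕ) : ZMod 11) := by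
      rw [ZMod.isUnit_iff_coprime]
      exact (Nat.coprime_primes hpp (by norm_num)).mpr h11
    exact hu.isOfFinOrder
  have hf7 : orderOf ((p : ℕ) : ZMod 11) < 7 := by
    by_contra h7
    rw [not_lt] at h7
    have : 2 ^ 7 ≤ p ^ orderOf ((p : ℕ) : ZMod 11) :=
      le_trans (Nat.pow_le_pow_left hpp.two_le 7) (Nat.pow_le_pow_right hpp.pos h7)
    omega
  exact h23 (prime_mod p hp (small_check p hp _ hf7 hpos hlt (pow_orderOf_eq_one _)) hpp)

lemma minkowski_lt :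
    (4 / π) ^ ((11 - 1) / 2) * (((11 - 1)! : ℕ) / ((11 - 1 : ℕ) : ℝ) ^ (11 - 1) *
      √|((((-1) ^ ((11 - 1) / 2) * (11 : ℕ) ^ (11 - 2) : ℤ)) : ℝ)|) < 66 := by
  have h1 : ((11 - 1)! : ℕ) = 3628800 := by decide
  have hpi : (4 / π) < 4 / 3.14 := by
    apply div_lt_div_of_pos_left (by norm_num) (by norm_num) pi_gt_d2
  have hpi0 : (0 : ℝ) < 4 / π := by positivity
  have hsq : √(2357947691 : ℝ) < 48559 := by
    rw [Real.sqrt_lt' (by norm_num)]; norm_num
  have h3 : (4 / π) ^ 5 < (4 / 3.14) ^ 5 := by gcongr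
  norm_num [h1]
  calc (4 / π) ^ 5 * (567 / 1562500 * √2357947691)
      < (4 / 3.14) ^ 5 * (567 / 1562500 * 48559) := by gcongr
    _ < 66 := by norm_num

variable (K : Type u) [Field K] [NumberField K] [IsCyclotomicExtension {11} ℚ K]

/-- The prime `(23, ζ - 4)` of the `11`-th cyclotomic field is generated by `1 + ζ + ζ ^ 3`. -/
theorem principal_23 :
    ∃ P ∈ primesOver (span {((23 : ℕ) : ℤ)}) (𝓞 K), Submodule.IsPrincipal P := by
  have hΦ := geom_sum_zetaInt 11 K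
  simp only [Finset.sum_range_succ, Finset.sum_range_zero, zero_add, pow_zero, pow_one] at hΦ
  set ζ := zetaInt 11 K with hζ
  refine exists_isPrincipal_of_cert 11 23 K 4 (by decide)
    (1 + ζ + ζ ^ 3)
    (-2 - 14 * ζ - 17 * ζ ^ 2 - 12 * ζ ^ 3 - 5 * ζ ^ 4 - 9 * ζ ^ 5 - 10 * ζ ^ 6 - 16 * ζ ^ 7
      - 6 * ζ ^ 8 - 15 * ζ ^ 9)
    (1 + 3 * ζ + 3 * ζ ^ 2 + 2 * ζ ^ 3 + ζ ^ 4 + 2 * ζ ^ 5 + 2 * ζ ^ 6 + 3 * ζ ^ 7 + ζ ^ 8
      + 3 * ζ ^ 9)
    3 (17 + 4 * ζ + ζ ^ 2) ?_ ?_ ?_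
  · push_cast
    linear_combination (-25 + 9 * ζ - 15 * ζ ^ 2) * hΦ
  · push_cast
    linear_combination (5 - 2 * ζ + 3 * ζ ^ 2) * hΦ
  · push_cast
    ring

end Fermat.Agent.Kummer.PidEleven

namespace Fermat.Agent.Kummer

open PidEleven

attribute [local instance] fact_prime_eleven fact_prime_twentythree

/-- T1: the ring of integers of the `11`-th cyclotomic field is a principal ideal ring. -/
theorem pid_eleven (K : Type u) [Field K] [NumberField K] [IsCyclotomicExtension {11} ℚ K] :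
    IsPrincipalIdealRing (𝓞 K) := by
  have : IsGalois ℚ K := IsCyclotomicExtension.isGalois {11} ℚ K
  apply RingOfIntegers.isPrincipalIdealRing_of_isPrincipal_of_lt_or_isPrincipal_of_mem_primesOver_of_mem_Icc
  rw [discr_prime 11 K, IsCyclotomicExtension.finrank (n := 11) K
    (cyclotomic.irreducible_rat (by simp)), nrComplexPlaces_eq_totient_div_two 11,
    totient_prime (Fact.out : Nat.Prime 11)]
  have hM : ⌊(4 / π) ^ ((11 - 1) / 2) * (((11 - 1)! : ℕ) / ((11 - 1 : ℕ) : ℝ) ^ (11 - 1) *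
      √|((((-1) ^ ((11 - 1) / 2) * (11 : ℕ) ^ (11 - 2) : ℤ)) : ℝ)|)⌋₊ < 66 := by
    rw [Nat.floor_lt (by positivity)]
    exact_mod_cast minkowski_lt
  intro p hp hpp
  rw [Finset.mem_Icc] at hp
  have hp66 : p < 66 := lt_of_le_of_lt hp.2 hM
  have hpF : Fact p.Prime := ⟨hpp⟩
  by_cases h11 : p = 11
  · subst h11
    obtain ⟨⟨P, hP1, hP2⟩⟩ := (span {((11 : ℕ) : ℤ)}).nonempty_primesOver (S := 𝓞 K)
    refine ⟨P, ⟨hP1, hP2⟩, Or.inr ?_⟩
    rw [eq_span_zeta_sub_one_of_liesOver' 11 K (IsCyclotomicExtension.zeta_spec 11 ℚ K) P]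
    exact ⟨⟨_, rfl⟩⟩
  by_cases h23 : p = 23
  · subst h23
    obtain ⟨P, hP, hprinc⟩ := principal_23 K
    exact ⟨P, hP, Or.inr hprinc⟩
  obtain ⟨⟨P, hP1, hP2⟩⟩ := (span {(p : ℤ)}).nonempty_primesOver (S := 𝓞 K)
  refine ⟨P, ⟨hP1, hP2⟩, Or.inl ?_⟩
  have hnd : ¬ p ∣ 11 := by
    rw [Nat.prime_dvd_prime_iff_eq hpp (by norm_num)]
    exact h11
  rw [inertiaDeg_eq_of_not_dvd (m := 11) p K P hnd]
  exact lt_of_lt_of_le hM (pow_orderOf_ge p hp66 hpp h11 h23)

end Fermat.Agent.Kummer
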