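import Mathlib

/-!
# Kummer project, piece T1: the ring of integers of the 7-th cyclotomic field is a PID

The Minkowski bound is `< 5`, and the primes `2` and `3` have inertia degrees `3` and `6`.
-/

set_option autoImplicit false

open NumberField Polynomial InfinitePlace Nat Real Module Ideal
open IsCyclotomicExtension.Rat

universe u

namespace Fermat.Agent.Kummer.PidSeven

lemma minkowski_lt :
    (4 / π) ^ ((7 - 1) / 2) * (((7 - 1)! : ℕ) / ((7 - 1 : ℕ) : ℝ) ^ (7 - 1) *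
      √|((((-1) ^ ((7 - 1) / 2) * (7 : ℕ) ^ (7 - 2) : ℤ)) : ℝ)|) < 5 := by
  have h1 : ((7 - 1)! : ℕ) = 720 := by decide
  have hpi : (4 / π) < 4 / 3.14 := by
    apply div_lt_div_of_pos_left (by norm_num) (by norm_num) pi_gt_d2
  have hpi0 : (0 : ℝ) < 4 / π := by positivity
  have hsq : √(16807 : ℝ) < 130 := by
    rw [Real.sqrt_lt' (by norm_num)]; norm_num
  have h3 : (4 / π) ^ 3 < (4 / 3.14) ^ 3 := by gcongr
  norm_num [h1]
  calc (4 / π) ^ 3 * (5 / 324 * √16807) < (4 / 3.14) ^ 3 * (5 / 324 * 130) := by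
        gcongr
    _ < 5 := by norm_num

lemma orderOf_two : orderOf ((2 : ℕ) : ZMod 7) = 3 := by
  rw [orderOf_eq_iff (by norm_num)]
  decide

lemma orderOf_three : orderOf ((3 : ℕ) : ZMod 7) = 6 := by
  rw [orderOf_eq_iff (by norm_num)]
  decide

end Fermat.Agent.Kummer.PidSeven

namespace Fermat.Agent.Kummer

open PidSeven

/-- T1: the ring of integers of the `7`-th cyclotomic field is a principal ideal ring. -/
theorem pid_seven (K : Type u) [Field K] [NumberField K] [IsCyclotomicExtension {7} ℚ K] :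
    IsPrincipalIdealRing (𝓞 K) := by
  have hp7 : Fact (Nat.Prime 7) := ⟨by norm_num⟩
  have : IsGalois ℚ K := IsCyclotomicExtension.isGalois {7} ℚ K
  apply RingOfIntegers.isPrincipalIdealRing_of_isPrincipal_of_lt_or_isPrincipal_of_mem_primesOver_of_mem_Icc
  rw [discr_prime 7 K, IsCyclotomicExtension.finrank (n := 7) K
    (cyclotomic.irreducible_rat (by simp)), nrComplexPlaces_eq_totient_div_two 7,
    totient_prime hp7.out]
  have hM : ⌊(4 / π) ^ ((7 - 1) / 2) * (((7 - 1)! : ℕ) / ((7 - 1 : ℕ) : ℝ) ^ (7 - 1) *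
      √|((((-1) ^ ((7 - 1) / 2) * (7 : ℕ) ^ (7 - 2) : ℤ)) : ℝ)|)⌋₊ < 5 := by
    rw [Nat.floor_lt (by positivity)]
    exact_mod_cast minkowski_lt
  intro p hp hpp
  rw [Finset.mem_Icc] at hp
  have hp5 : p < 5 := lt_of_le_of_lt hp.2 hM
  have hpF : Fact p.Prime := ⟨hpp⟩
  obtain ⟨⟨P, hP1, hP2⟩⟩ := (span {(p : ℤ)}).nonempty_primesOver (S := 𝓞 K)
  refine ⟨P, ⟨hP1, hP2⟩, Or.inl ?_⟩
  have hp23 : p = 2 ∨ p = 3 := by
    interval_cases p <;> simp_all <;> norm_num at hpp
  rcases hp23 with rfl | rfl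
  · rw [inertiaDeg_eq_of_not_dvd (m := 7) 2 K P (by norm_num), orderOf_two]
    omega
  · rw [inertiaDeg_eq_of_not_dvd (m := 7) 3 K P (by norm_num), orderOf_three]
    omega

end Fermat.Agent.Kummer
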