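import Fermat.Agent.Kummer.PidTools

/-!
# The ring of integers of the 13th cyclotomic field is a PID

Minkowski bound `⌊M⌋ = 306`; the only primes `q ≤ 306` with `q ^ f ≤ 306` (`f` the order of `q`
mod 13) are `3` (`f = 3`), `13`, `53`, `79`, `131`, `157`; explicit elements of norm
`27, 53, 79, 131, 157` generate primes above them.
-/

set_option autoImplicit false
set_option linter.unusedSimpArgs false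

open NumberField Ideal Polynomial IsCyclotomicExtension.Rat IsCyclotomicExtension InfinitePlace

namespace Fermat.Agent.Kummer.PidThirteen

open Fermat.Agent.Kummer.PidTools

theorem exists_norm_27 (K : Type*) [Field K] [NumberField K] [IsCyclotomicExtension {13} ℚ K] :
    ∃ α : 𝓞 K, Algebra.norm ℤ α = 27 := by
  have : Fact (Nat.Prime 13) := ⟨by norm_num⟩
  have hζ := zeta_spec 13 ℚ K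
  refine ⟨1 + hζ.toInteger - hζ.toInteger ^ 3,
    norm_int_eq_of_prod_eq 13 K hζ _ (1 + X - X ^ 3) ?_ 27 ?_⟩
  · have h : (algebraMap (𝓞 K) K) hζ.toInteger = zeta 13 ℚ K := rfl
    simp [h]
  · have hΦ := hζ.geom_sum_eq_zero (by norm_num)
    simp only [Finset.sum_range_succ, Finset.sum_range_zero, zero_add, pow_zero, pow_one] at hΦ
    generalize zeta 13 ℚ K = ζ at hΦ
    simp only [map_add, map_sub, map_one, map_pow, aeval_X, Int.cast_ofNat,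
      Finset.prod_Ico_eq_prod_range, Finset.prod_range_succ, Finset.prod_range_zero]
    linear_combination ((-26) + (27)*ζ + (1)*ζ^4 + (1)*ζ^7 + (1)*ζ^8 + (1)*ζ^9 + (-1)*ζ^10 + (2)*ζ^11 + (2)*ζ^12 + (-26)*ζ^13 + (27)*ζ^14 + (2)*ζ^16 + (1)*ζ^17 + (1)*ζ^19 + (2)*ζ^20 + (-1)*ζ^22 + (1)*ζ^24 + (1)*ζ^25 + (-30)*ζ^26 + (25)*ζ^27 + (1)*ζ^28 + (-2)*ζ^29 + (-3)*ζ^30 + (-3)*ζ^31 + (-1)*ζ^32 + (-4)*ζ^33 + (-6)*ζ^34 + (-2)*ζ^35 + (-1)*ζ^36 + (-5)*ζ^37 + (-6)*ζ^38 + (-32)*ζ^39 + (26)*ζ^40 + (-5)*ζ^41 + (-6)*ζ^42 + (-4)*ζ^43 + (-1)*ζ^44 + (-1)*ζ^45 + (-7)*ζ^46 + (-1)*ζ^47 + (5)*ζ^48 + (-1)*ζ^49 + (-5)*ζ^50 + (3)*ζ^51 + (-24)*ζ^52 + (32)*ζ^53 + (6)*ζ^55 + (11)*ζ^56 + (6)*ζ^57 + (3)*ζ^58 + (6)*ζ^59 + (12)*ζ^60 + (11)*ζ^61 + (4)*ζ^62 + (6)*ζ^63 + (16)*ζ^64 + (-22)*ζ^65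 + (33)*ζ^66 + (10)*ζ^67 + (11)*ζ^68 + (2)*ζ^69 + (2)*ζ^70 + (3)*ζ^71 + (7)*ζ^72 + (1)*ζ^73 + (1)*ζ^74 + (-7)*ζ^75 + (1)*ζ^76 + (-45)*ζ^78 + (29)*ζ^79 + (-9)*ζ^80 + (-7)*ζ^81 + (-17)*ζ^82 + (-7)*ζ^83 + (-3)*ζ^84 + (-16)*ζ^85 + (-18)*ζ^86 + (-8)*ζ^87 + (-10)*ζ^88 + (-10)*ζ^89 + (-10)*ζ^90 + (-46)*ζ^91 + (29)*ζ^92 + (-3)*ζ^93 + (-14)*ζ^94 + (-5)*ζ^95 + (7)*ζ^96 + (-5)*ζ^97 + (-4)*ζ^98 + (2)*ζ^99 + (10)*ζ^100 + (1)*ζ^101 + (9)*ζ^102 + (6)*ζ^103 + (-24)*ζ^104 + (42)*ζ^105 + (8)*ζ^106 + (9)*ζ^107 + (11)*ζ^108 + (15)*ζ^109 + (13)*ζ^110 + (7)*ζ^111 + (11)*ζ^112 + (10)*ζ^113 + (-1)*ζ^114 + (16)*ζ^115 + (3)*ζ^116 + (-36)*ζ^117 + (40)*ζ^118 + (5)*ζ^119 + (-1)*ζ^120 + (10)*ζ^121 + (-8)*ζ^122 + (-5)*ζ^123 + (-9)*ζ^124 + (-1)*ζ^125 + (-10)*ζ^126 + (-7)*ζ^127 + (-3)*ζ^128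 + (-15)*ζ^129 + (-32)*ζ^130 + (25)*ζ^131 + (-4)*ζ^132 + (-8)*ζ^133 + (-8)*ζ^134 + (-10)*ζ^135 + (-9)*ζ^136 + (-2)*ζ^137 + (6)*ζ^138 + (-13)*ζ^139 + (1)*ζ^140 + (2)*ζ^141 + (-1)*ζ^142 + (-32)*ζ^143 + (41)*ζ^144 + (-11)*ζ^145 + (9)*ζ^146 + (11)*ζ^147 + (-10)*ζ^148 + (9)*ζ^149 + (8)*ζ^150 + (8)*ζ^151 + (-11)*ζ^152 + (12)*ζ^153 + (7)*ζ^154 + (2)*ζ^155 + (-28)*ζ^156 + (32)*ζ^157 + (3)*ζ^158 + (5)*ζ^159 + (-3)*ζ^160 + (-1)*ζ^161 + (-3)*ζ^162 + (7)*ζ^163 + (-3)*ζ^164 + (-6)*ζ^165 + (5)*ζ^166 + (-1)*ζ^167 + (-9)*ζ^168 + (-16)*ζ^169 + (18)*ζ^170 + (-11)*ζ^171 + (10)*ζ^172 + (-8)*ζ^173 + (1)*ζ^174 + (-6)*ζ^175 + (6)*ζ^176 + (-7)*ζ^177 + (2)*ζ^178 + (-4)*ζ^181 + (-8)*ζ^182 + (12)*ζ^183 + (-4)*ζ^184 + (6)*ζ^185 + (-2)*ζ^186 + (2)*ζ^187 + (-1)*ζ^188 + (8)*ζ^189 +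 (-6)*ζ^190 + (3)*ζ^191 + (1)*ζ^192 + (1)*ζ^193 + (-6)*ζ^194 + (5)*ζ^196 + (-2)*ζ^197 + (1)*ζ^198 + (-2)*ζ^199 + (2)*ζ^200 + (1)*ζ^202 + (-3)*ζ^203 + (2)*ζ^204 + (-1)*ζ^205 + (1)*ζ^206 + (-4)*ζ^207 + (1)*ζ^209 + (-1)*ζ^210 + (1)*ζ^211 + (2)*ζ^215 + (-1)*ζ^216 + (1)*ζ^217 + (-1)*ζ^220 + (-1)*ζ^221 + (1)*ζ^222) * hΦ

theorem exists_norm_53 (K : Type*) [Field K] [NumberField K] [IsCyclotomicExtension {13} ℚ K] :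
    ∃ α : 𝓞 K, Algebra.norm ℤ α = 53 := by
  have : Fact (Nat.Prime 13) := ⟨by norm_num⟩
  have hζ := zeta_spec 13 ℚ K
  refine ⟨1 - hζ.toInteger + hζ.toInteger ^ 3,
    norm_int_eq_of_prod_eq 13 K hζ _ (1 - X + X ^ 3) ?_ 53 ?_⟩
  · have h : (algebraMap (𝓞 K) K) hζ.toInteger = zeta 13 ℚ K := rfl
    simp [h]
  · have hΦ := hζ.geom_sum_eq_zero (by norm_num)
    simp only [Finset.sum_range_succ, Finset.sum_range_zero, zero_add, pow_zero, pow_one] at hΦ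
    generalize zeta 13 ℚ K = ζ at hΦ
    simp only [map_add, map_sub, map_one, map_pow, aeval_X, Int.cast_ofNat,
      Finset.prod_Ico_eq_prod_range, Finset.prod_range_succ, Finset.prod_range_zero]
    linear_combination ((-52) + (51)*ζ + (2)*ζ^3 + (-1)*ζ^4 + (-1)*ζ^7 + (1)*ζ^8 + (1)*ζ^9 + (-1)*ζ^10 + (2)*ζ^12 + (-54)*ζ^13 + (49)*ζ^14 + (4)*ζ^15 + (-2)*ζ^16 + (-1)*ζ^17 + (4)*ζ^18 + (-3)*ζ^19 + (2)*ζ^21 + (-3)*ζ^22 + (2)*ζ^23 + (5)*ζ^24 + (-3)*ζ^25 + (-56)*ζ^26 + (53)*ζ^27 + (3)*ζ^28 + (-6)*ζ^29 + (5)*ζ^30 + (-3)*ζ^31 + (-3)*ζ^32 + (10)*ζ^33 + (-8)*ζ^34 + (9)*ζ^36 + (-5)*ζ^37 + (-46)*ζ^39 + (44)*ζ^40 + (-1)*ζ^41 + (2)*ζ^42 + (-2)*ζ^43 + (-5)*ζ^44 + (9)*ζ^45 + (-7)*ζ^46 + (-7)*ζ^47 + (23)*ζ^48 + (-11)*ζ^49 + (-5)*ζ^50 + (17)*ζ^51 + (-60)*ζ^52 + (48)*ζ^53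 + (12)*ζ^54 + (-12)*ζ^55 + (-5)*ζ^56 + (6)*ζ^57 + (-5)*ζ^58 + (-10)*ζ^59 + (16)*ζ^60 + (-5)*ζ^61 + (-18)*ζ^62 + (32)*ζ^63 + (-8)*ζ^64 + (-58)*ζ^65 + (67)*ζ^66 + (-12)*ζ^67 + (3)*ζ^68 + (18)*ζ^69 + (-22)*ζ^70 + (-9)*ζ^71 + (19)*ζ^72 + (-9)*ζ^73 + (-17)*ζ^74 + (17)*ζ^75 + (-5)*ζ^76 + (-16)*ζ^77 + (-11)*ζ^78 + (25)*ζ^79 + (-7)*ζ^80 + (35)*ζ^81 + (-25)*ζ^82 + (-1)*ζ^83 + (31)*ζ^84 + (-24)*ζ^85 + (-14)*ζ^86 + (20)*ζ^87 + (-4)*ζ^88 + (-20)*ζ^89 + (24)*ζ^90 + (-58)*ζ^91 + (15)*ζ^92 + (57)*ζ^93 + (-24)*ζ^94 + (-21)*ζ^95 + (51)*ζ^96 + (-29)*ζ^97 + (-12)*ζ^98 + (42)*ζ^99 + (-36)*ζ^100 + (-3)*ζ^101 + (23)*ζ^102 + (-6)*ζ^103 + (-68)*ζ^104 + (60)*ζ^105 + (-2)*ζ^106 + (-33)*ζ^107 + (63)*ζ^108 + (-19)*ζ^109 + (-35)*ζ^110 + (45)*ζ^111 + (-21)*ζ^112 + (-14)*ζ^113 + (49)*ζ^114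 + (-38)*ζ^115 + (3)*ζ^116 + (-22)*ζ^117 + (14)*ζ^118 + (-13)*ζ^119 + (35)*ζ^120 + (-6)*ζ^121 + (-32)*ζ^122 + (51)*ζ^123 + (-21)*ζ^124 + (-33)*ζ^125 + (50)*ζ^126 + (-25)*ζ^127 + (-17)*ζ^128 + (71)*ζ^129 + (-92)*ζ^130 + (15)*ζ^131 + (38)*ζ^132 + (-10)*ζ^133 + (-20)*ζ^134 + (34)*ζ^135 + (-15)*ζ^136 + (-26)*ζ^137 + (46)*ζ^138 + (-13)*ζ^139 + (-39)*ζ^140 + (48)*ζ^141 + (-5)*ζ^142 + (-54)*ζ^143 + (67)*ζ^144 + (-35)*ζ^145 + (-3)*ζ^146 + (23)*ζ^147 + (-6)*ζ^148 + (-21)*ζ^149 + (32)*ζ^150 + (-18)*ζ^151 + (-15)*ζ^152 + (32)*ζ^153 + (-7)*ζ^154 + (-32)*ζ^155 + (32)*ζ^156 + (-6)*ζ^157 + (-23)*ζ^158 + (49)*ζ^159 + (-41)*ζ^160 + (1)*ζ^161 + (21)*ζ^162 + (-3)*ζ^163 + (-23)*ζ^164 + (32)*ζ^165 + (-19)*ζ^166 + (-11)*ζ^167 + (23)*ζ^168 + (-8)*ζ^169 + (-14)*ζ^170 + (27)*ζ^171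 + (-10)*ζ^172 + (-22)*ζ^173 + (35)*ζ^174 + (-18)*ζ^175 + (-8)*ζ^176 + (11)*ζ^177 + (4)*ζ^178 + (-12)*ζ^179 + (14)*ζ^180 + (-12)*ζ^181 + (-4)*ζ^182 + (14)*ζ^183 + (2)*ζ^184 + (-18)*ζ^185 + (14)*ζ^186 + (-2)*ζ^187 + (-11)*ζ^188 + (18)*ζ^189 + (-12)*ζ^190 + (1)*ζ^191 + (7)*ζ^192 + (-5)*ζ^193 + (-6)*ζ^194 + (8)*ζ^195 + (-3)*ζ^196 + (3)*ζ^198 + (-6)*ζ^200 + (6)*ζ^201 + (-1)*ζ^202 + (-5)*ζ^203 + (8)*ζ^204 + (-3)*ζ^205 + (-3)*ζ^206 + (2)*ζ^207 + (-1)*ζ^209 + (3)*ζ^210 + (-3)*ζ^211 + (2)*ζ^213 + (-2)*ζ^215 + (1)*ζ^216 + (1)*ζ^217 + (-2)*ζ^218 + (2)*ζ^219 + (-1)*ζ^220 + (-1)*ζ^221 + (1)*ζ^222) * hΦ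

theorem exists_norm_79 (K : Type*) [Field K] [NumberField K] [IsCyclotomicExtension {13} ℚ K] :
    ∃ α : 𝓞 K, Algebra.norm ℤ α = 79 := by
  have : Fact (Nat.Prime 13) := ⟨by norm_num⟩
  have hζ := zeta_spec 13 ℚ K
  refine ⟨1 - hζ.toInteger - hζ.toInteger ^ 4,
    norm_int_eq_of_prod_eq 13 K hζ _ (1 - X - X ^ 4) ?_ 79 ?_⟩
  · have h : (algebraMap (𝓞 K) K) hζ.toInteger = zeta 13 ℚ K := rfl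
    simp [h]
  · have hΦ := hζ.geom_sum_eq_zero (by norm_num)
    simp only [Finset.sum_range_succ, Finset.sum_range_zero, zero_add, pow_zero, pow_one] at hΦ
    generalize zeta 13 ℚ K = ζ at hΦ
    simp only [map_add, map_sub, map_one, map_pow, aeval_X, Int.cast_ofNat,
      Finset.prod_Ico_eq_prod_range, Finset.prod_range_succ, Finset.prod_range_zero]
    linear_combination ((-78) + (77)*ζ + (1)*ζ^3 + (-1)*ζ^4 + (2)*ζ^5 + (1)*ζ^7 + (-2)*ζ^8 + (1)*ζ^9 + (-1)*ζ^10 + (-2)*ζ^12 + (-75)*ζ^13 + (76)*ζ^14 + (-6)*ζ^15 + (6)*ζ^16 + (-3)*ζ^17 + (2)*ζ^18 + (3)*ζ^19 + (4)*ζ^20 + (-4)*ζ^21 + (8)*ζ^22 + (-5)*ζ^23 + (-3)*ζ^25 + (-71)*ζ^26 + (70)*ζ^27 + (-6)*ζ^28 + (2)*ζ^29 + (-9)*ζ^30 + (4)*ζ^31 + (2)*ζ^32 + (5)*ζ^33 + (-6)*ζ^34 + (14)*ζ^35 + (-5)*ζ^36 + (5)*ζ^37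 + (-5)*ζ^38 + (-56)*ζ^39 + (59)*ζ^40 + (-10)*ζ^43 + (7)*ζ^45 + (-9)*ζ^46 + (-4)*ζ^47 + (16)*ζ^48 + (-18)*ζ^49 + (13)*ζ^50 + (3)*ζ^51 + (-59)*ζ^52 + (53)*ζ^53 + (10)*ζ^54 + (-7)*ζ^55 + (-8)*ζ^56 + (16)*ζ^57 + (1)*ζ^58 + (-16)*ζ^59 + (15)*ζ^60 + (-10)*ζ^61 + (-19)*ζ^62 + (18)*ζ^63 + (7)*ζ^64 + (-53)*ζ^65 + (52)*ζ^66 + (-7)*ζ^67 + (-3)*ζ^68 + (-10)*ζ^69 + (15)*ζ^70 + (12)*ζ^71 + (-15)*ζ^72 + (24)*ζ^73 + (-4)*ζ^74 + (-31)*ζ^75 + (6)*ζ^76 + (-4)*ζ^77 + (-8)*ζ^78 + (24)*ζ^79 + (-4)*ζ^80 + (3)*ζ^81 + (-19)*ζ^82 + (-4)*ζ^83 + (18)*ζ^84 + (2)*ζ^85 + (11)*ζ^86 + (6)*ζ^87 + (-30)*ζ^88 + (13)*ζ^89 + (-23)*ζ^90 + (11)*ζ^91 + (32)*ζ^92 + (-27)*ζ^93 + (16)*ζ^94 + (-9)*ζ^95 + (-34)*ζ^96 + (38)*ζ^97 + (-16)*ζ^98 + (10)*ζ^99 + (24)*ζ^100 + (-26)*ζ^101 + (-8)*ζ^102 + (8)*ζ^103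 + (-9)*ζ^104 + (-1)*ζ^105 + (24)*ζ^106 + (20)*ζ^107 + (-49)*ζ^108 + (14)*ζ^109 + (1)*ζ^110 + (-27)*ζ^111 + (32)*ζ^112 + (34)*ζ^113 + (-61)*ζ^114 + (31)*ζ^115 + (15)*ζ^116 + (-60)*ζ^117 + (22)*ζ^118 + (23)*ζ^119 + (-1)*ζ^120 + (-8)*ζ^121 + (21)*ζ^122 + (-41)*ζ^123 + (13)*ζ^124 + (26)*ζ^125 + (-19)*ζ^126 + (4)*ζ^127 + (25)*ζ^128 + (-32)*ζ^129 + (-2)*ζ^130 + (-1)*ζ^131 + (-27)*ζ^132 + (38)*ζ^133 + (13)*ζ^134 + (-30)*ζ^135 + (11)*ζ^136 + (13)*ζ^137 + (-7)*ζ^138 + (-10)*ζ^139 + (11)*ζ^140 + (7)*ζ^141 + (-3)*ζ^142 + (-2)*ζ^143 + (-9)*ζ^144 + (-30)*ζ^145 + (40)*ζ^146 + (-24)*ζ^147 + (16)*ζ^148 + (5)*ζ^149 + (8)*ζ^150 + (-9)*ζ^151 + (-5)*ζ^152 + (-7)*ζ^153 + (-1)*ζ^154 + (28)*ζ^155 + (-12)*ζ^156 + (-15)*ζ^157 + (2)*ζ^158 + (22)*ζ^159 + (-42)*ζ^160 + (8)*ζ^161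 + (44)*ζ^162 + (-28)*ζ^163 + (27)*ζ^165 + (-48)*ζ^166 + (5)*ζ^167 + (43)*ζ^168 + (-28)*ζ^169 + (-17)*ζ^170 + (49)*ζ^171 + (-29)*ζ^172 + (-35)*ζ^173 + (49)*ζ^174 + (-20)*ζ^175 + (-9)*ζ^176 + (62)*ζ^177 + (-56)*ζ^178 + (-16)*ζ^179 + (55)*ζ^180 + (-38)*ζ^181 + (-35)*ζ^182 + (83)*ζ^183 + (-45)*ζ^184 + (-16)*ζ^185 + (53)*ζ^186 + (-50)*ζ^187 + (-20)*ζ^188 + (77)*ζ^189 + (-30)*ζ^190 + (-38)*ζ^191 + (70)*ζ^192 + (-36)*ζ^193 + (-48)*ζ^194 + (68)*ζ^195 + (-32)*ζ^196 + (-27)*ζ^197 + (80)*ζ^198 + (-47)*ζ^199 + (-42)*ζ^200 + (82)*ζ^201 + (-40)*ζ^202 + (-37)*ζ^203 + (86)*ζ^204 + (-45)*ζ^205 + (-38)*ζ^206 + (75)*ζ^207 + (-50)*ζ^208 + (-39)*ζ^209 + (89)*ζ^210 + (-30)*ζ^211 + (-49)*ζ^212 + (74)*ζ^213 + (-25)*ζ^214 + (-53)*ζ^215 + (78)*ζ^216 + (-32)*ζ^217 + (-34)*ζ^218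 + (65)*ζ^219 + (-29)*ζ^220 + (-46)*ζ^221 + (69)*ζ^222 + (-24)*ζ^223 + (-36)*ζ^224 + (62)*ζ^225 + (-22)*ζ^226 + (-38)*ζ^227 + (60)*ζ^228 + (-27)*ζ^229 + (-36)*ζ^230 + (55)*ζ^231 + (-11)*ζ^232 + (-41)*ζ^233 + (51)*ζ^234 + (-13)*ζ^235 + (-37)*ζ^236 + (51)*ζ^237 + (-21)*ζ^238 + (-24)*ζ^239 + (45)*ζ^240 + (-17)*ζ^241 + (-29)*ζ^242 + (41)*ζ^243 + (-14)*ζ^244 + (-23)*ζ^245 + (36)*ζ^246 + (-12)*ζ^247 + (-22)*ζ^248 + (32)*ζ^249 + (-11)*ζ^250 + (-22)*ζ^251 + (28)*ζ^252 + (-2)*ζ^253 + (-21)*ζ^254 + (23)*ζ^255 + (-4)*ζ^256 + (-19)*ζ^257 + (21)*ζ^258 + (-4)*ζ^259 + (-15)*ζ^260 + (21)*ζ^261 + (-6)*ζ^262 + (-12)*ζ^263 + (11)*ζ^264 + (-1)*ζ^265 + (-10)*ζ^266 + (16)*ζ^267 + (-5)*ζ^268 + (-8)*ζ^269 + (10)*ζ^270 + (-4)*ζ^271 + (-7)*ζ^272 + (9)*ζ^273 + (1)*ζ^274 + (-8)*ζ^275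 + (8)*ζ^276 + (-3)*ζ^277 + (-4)*ζ^278 + (5)*ζ^279 + (1)*ζ^280 + (-5)*ζ^281 + (5)*ζ^282 + (-2)*ζ^283 + (-2)*ζ^284 + (2)*ζ^285 + (-2)*ζ^287 + (3)*ζ^288 + (-3)*ζ^290 + (3)*ζ^291 + (-1)*ζ^292 + (-1)*ζ^293 + (1)*ζ^294 + (1)*ζ^295 + (-2)*ζ^296 + (1)*ζ^297 + (-1)*ζ^299 + (1)*ζ^300) * hΦ

theorem exists_norm_131 (K : Type*) [Field K] [NumberField K] [IsCyclotomicExtension {13} ℚ K] :
    ∃ α : 𝓞 K, Algebra.norm ℤ α = 131 := by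
  have : Fact (Nat.Prime 13) := ⟨by norm_num⟩
  have hζ := zeta_spec 13 ℚ K
  refine ⟨1 - hζ.toInteger - hζ.toInteger ^ 3,
    norm_int_eq_of_prod_eq 13 K hζ _ (1 - X - X ^ 3) ?_ 131 ?_⟩
  · have h : (algebraMap (𝓞 K) K) hζ.toInteger = zeta 13 ℚ K := rfl
    simp [h]
  · have hΦ := hζ.geom_sum_eq_zero (by norm_num)
    simp only [Finset.sum_range_succ, Finset.sum_range_zero, zero_add, pow_zero, pow_one] at hΦ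
    generalize zeta 13 ℚ K = ζ at hΦ
    simp only [map_add, map_sub, map_one, map_pow, aeval_X, Int.cast_ofNat,
      Finset.prod_Ico_eq_prod_range, Finset.prod_range_succ, Finset.prod_range_zero]
    linear_combination ((-130) + (129)*ζ + (1)*ζ^4 + (2)*ζ^5 + (-2)*ζ^6 + (3)*ζ^7 + (-3)*ζ^8 + (1)*ζ^9 + (-1)*ζ^10 + (-4)*ζ^12 + (-126)*ζ^13 + (127)*ζ^14 + (-2)*ζ^15 + (1)*ζ^17 + (8)*ζ^18 + (-5)*ζ^19 + (8)*ζ^20 + (-2)*ζ^21 + (7)*ζ^22 + (-6)*ζ^23 + (5)*ζ^24 + (-17)*ζ^25 + (-114)*ζ^26 + (117)*ζ^27 + (-5)*ζ^28 + (-10)*ζ^29 + (3)*ζ^30 + (5)*ζ^31 + (-3)*ζ^32 + (10)*ζ^33 + (-4)*ζ^34 + (8)*ζ^35 + (9)*ζ^36 + (11)*ζ^37 + (-20)*ζ^38 + (-98)*ζ^39 + (100)*ζ^40 + (13)*ζ^41 + (-32)*ζ^42 + (20)*ζ^43 + (-9)*ζ^44 + (-5)*ζ^45 + (1)*ζ^46 + (1)*ζ^47 + (-13)*ζ^48 + (25)*ζ^49 +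 (-5)*ζ^50 + (-1)*ζ^51 + (-88)*ζ^52 + (88)*ζ^53 + (-6)*ζ^54 + (-12)*ζ^55 + (25)*ζ^56 + (2)*ζ^57 + (-13)*ζ^58 + (8)*ζ^59 + (-6)*ζ^60 + (-7)*ζ^61 + (20)*ζ^62 + (-26)*ζ^63 + (30)*ζ^64 + (-72)*ζ^65 + (67)*ζ^66 + (-22)*ζ^67 + (-13)*ζ^68 + (16)*ζ^69 + (6)*ζ^70 + (-21)*ζ^71 + (25)*ζ^72 + (-17)*ζ^73 + (7)*ζ^74 + (37)*ζ^75 + (-61)*ζ^76 + (-6)*ζ^77 + (39)*ζ^78 + (-7)*ζ^79 + (31)*ζ^80 + (-61)*ζ^81 + (55)*ζ^82 + (-17)*ζ^83 + (-1)*ζ^84 + (-14)*ζ^85 + (2)*ζ^86 + (-32)*ζ^87 + (72)*ζ^88 + (-58)*ζ^89 + (20)*ζ^90 + (6)*ζ^91 + (-9)*ζ^92 + (13)*ζ^93 + (-30)*ζ^94 + (47)*ζ^95 + (-23)*ζ^96 + (7)*ζ^97 + (-4)*ζ^98 + (-22)*ζ^99 + (10)*ζ^100 + (23)*ζ^101 + (-27)*ζ^102 + (24)*ζ^103 + (-28)*ζ^106 + (11)*ζ^107 + (-9)*ζ^108 + (31)*ζ^109 + (-21)*ζ^110 + (1)*ζ^111 + (-27)*ζ^112 + (54)*ζ^113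 + (-35)*ζ^114 + (32)*ζ^115 + (-51)*ζ^116 + (64)*ζ^117 + (-54)*ζ^118 + (31)*ζ^119 + (-21)*ζ^120 + (8)*ζ^121 + (-20)*ζ^122 + (51)*ζ^123 + (-57)*ζ^124 + (43)*ζ^125 + (-34)*ζ^126 + (25)*ζ^127 + (-17)*ζ^128 + (23)*ζ^129 + (-8)*ζ^130 + (-13)*ζ^131 + (-12)*ζ^132 + (38)*ζ^133 + (-42)*ζ^134 + (42)*ζ^135 + (-25)*ζ^136 + (2)*ζ^137 + (4)*ζ^138 + (7)*ζ^139 + (-5)*ζ^140 + (-10)*ζ^141 + (11)*ζ^142 + (10)*ζ^143 + (-19)*ζ^144 + (3)*ζ^145 + (7)*ζ^146 + (-13)*ζ^147 + (20)*ζ^148 + (-15)*ζ^149 + (12)*ζ^150 + (-22)*ζ^151 + (31)*ζ^152 + (-26)*ζ^153 + (23)*ζ^154 + (-12)*ζ^155 + (10)*ζ^156 + (-26)*ζ^157 + (31)*ζ^158 + (-33)*ζ^159 + (37)*ζ^160 + (-41)*ζ^161 + (41)*ζ^162 + (-35)*ζ^163 + (33)*ζ^164 + (-28)*ζ^165 + (19)*ζ^166 + (-25)*ζ^167 + (41)*ζ^168 + (-38)*ζ^169 + (34)*ζ^170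 + (-41)*ζ^171 + (34)*ζ^172 + (-30)*ζ^173 + (33)*ζ^174 + (-30)*ζ^175 + (24)*ζ^176 + (-25)*ζ^177 + (34)*ζ^178 + (-38)*ζ^179 + (34)*ζ^180 + (-30)*ζ^181 + (26)*ζ^182 + (-24)*ζ^183 + (22)*ζ^184 + (-22)*ζ^185 + (20)*ζ^186 + (-18)*ζ^187 + (21)*ζ^188 + (-22)*ζ^189 + (20)*ζ^190 + (-19)*ζ^191 + (17)*ζ^192 + (-15)*ζ^193 + (16)*ζ^194 + (-16)*ζ^195 + (11)*ζ^196 + (-10)*ζ^197 + (11)*ζ^198 + (-10)*ζ^199 + (12)*ζ^200 + (-12)*ζ^201 + (9)*ζ^202 + (-7)*ζ^203 + (6)*ζ^204 + (-5)*ζ^205 + (3)*ζ^206 + (-2)*ζ^207 + (4)*ζ^208 + (-5)*ζ^209 + (5)*ζ^210 + (-5)*ζ^211 + (4)*ζ^212 + (-2)*ζ^213 + (2)*ζ^214 + (-2)*ζ^215 + (1)*ζ^216 + (-1)*ζ^217 + (2)*ζ^218 + (-2)*ζ^219 + (1)*ζ^220 + (-1)*ζ^221 + (1)*ζ^222) * hΦ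

theorem exists_norm_157 (K : Type*) [Field K] [NumberField K] [IsCyclotomicExtension {13} ℚ K] :
    ∃ α : 𝓞 K, Algebra.norm ℤ α = 157 := by
  have : Fact (Nat.Prime 13) := ⟨by norm_num⟩
  have hζ := zeta_spec 13 ℚ K
  refine ⟨1 - hζ.toInteger + hζ.toInteger ^ 2 + hζ.toInteger ^ 4,
    norm_int_eq_of_prod_eq 13 K hζ _ (1 - X + X ^ 2 + X ^ 4) ?_ 157 ?_⟩
  · have h : (algebraMap (𝓞 K) K) hζ.toInteger = zeta 13 ℚ K := rfl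
    simp [h]
  · have hΦ := hζ.geom_sum_eq_zero (by norm_num)
    simp only [Finset.sum_range_succ, Finset.sum_range_zero, zero_add, pow_zero, pow_one] at hΦ
    generalize zeta 13 ℚ K = ζ at hΦ
    simp only [map_add, map_sub, map_one, map_pow, aeval_X, Int.cast_ofNat,
      Finset.prod_Ico_eq_prod_range, Finset.prod_range_succ, Finset.prod_range_zero]
    linear_combination ((-156) + (155)*ζ + (1)*ζ^2 + (1)*ζ^4 + (-2)*ζ^5 + (1)*ζ^6 + (-2)*ζ^7 + (4)*ζ^8 + (-3)*ζ^9 + (3)*ζ^10 + (-4)*ζ^11 + (6)*ζ^12 + (-163)*ζ^13 + (159)*ζ^14 + (-2)*ζ^15 + (5)*ζ^16 + (-6)*ζ^17 + (6)*ζ^18 + (-7)*ζ^19 + (10)*ζ^20 + (-12)*ζ^21 + (10)*ζ^22 + (-9)*ζ^23 + (15)*ζ^24 + (-15)*ζ^25 + (-148)*ζ^26 + (141)*ζ^27 + (24)*ζ^28 + (-25)*ζ^29 + (24)*ζ^30 + (-27)*ζ^31 + (33)*ζ^32 + (-25)*ζ^33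 + (20)*ζ^34 + (-25)*ζ^35 + (37)*ζ^36 + (-39)*ζ^37 + (34)*ζ^38 + (-199)*ζ^39 + (204)*ζ^40 + (-54)*ζ^41 + (45)*ζ^42 + (-47)*ζ^43 + (62)*ζ^44 + (-63)*ζ^45 + (62)*ζ^46 + (-71)*ζ^47 + (104)*ζ^48 + (-93)*ζ^49 + (82)*ζ^50 + (-99)*ζ^51 + (-40)*ζ^52 + (42)*ζ^53 + (95)*ζ^54 + (-118)*ζ^55 + (137)*ζ^56 + (-146)*ζ^57 + (132)*ζ^58 + (-150)*ζ^59 + (178)*ζ^60 + (-169)*ζ^61 + (165)*ζ^62 + (-158)*ζ^63 + (196)*ζ^64 + (-354)*ζ^65 + (345)*ζ^66 + (-219)*ζ^67 + (268)*ζ^68 + (-256)*ζ^69 + (237)*ζ^70 + (-293)*ζ^71 + (317)*ζ^72 + (-316)*ζ^73 + (281)*ζ^74 + (-323)*ζ^75 + (384)*ζ^76 + (-371)*ζ^77 + (200)*ζ^78 + (-243)*ζ^79 + (462)*ζ^80 + (-444)*ζ^81 + (432)*ζ^82 + (-435)*ζ^83 + (497)*ζ^84 + (-484)*ζ^85 + (450)*ζ^86 + (-534)*ζ^87 + (619)*ζ^88 + (-611)*ζ^89 + (578)*ζ^90 + (-819)*ζ^91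 + (856)*ζ^92 + (-653)*ζ^93 + (627)*ζ^94 + (-713)*ζ^95 + (807)*ζ^96 + (-794)*ζ^97 + (798)*ζ^98 + (-850)*ζ^99 + (908)*ζ^100 + (-870)*ζ^101 + (837)*ζ^102 + (-864)*ζ^103 + (786)*ζ^104 + (-834)*ζ^105 + (974)*ζ^106 + (-1033)*ζ^107 + (1142)*ζ^108 + (-1115)*ζ^109 + (1067)*ζ^110 + (-1174)*ζ^111 + (1252)*ζ^112 + (-1189)*ζ^113 + (1167)*ζ^114 + (-1295)*ζ^115 + (1422)*ζ^116 + (-1542)*ζ^117 + (1475)*ζ^118 + (-1445)*ζ^119 + (1570)*ζ^120 + (-1492)*ζ^121 + (1433)*ζ^122 + (-1488)*ζ^123 + (1593)*ζ^124 + (-1587)*ζ^125 + (1546)*ζ^126 + (-1650)*ζ^127 + (1788)*ζ^128 + (-1708)*ζ^129 + (1530)*ζ^130 + (-1690)*ζ^131 + (1871)*ζ^132 + (-1780)*ζ^133 + (1787)*ζ^134 + (-1950)*ζ^135 + (2046)*ζ^136 + (-1976)*ζ^137 + (1975)*ζ^138 + (-2096)*ζ^139 + (2142)*ζ^140 + (-2096)*ζ^141 + (2082)*ζ^142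 + (-2170)*ζ^143 + (2227)*ζ^144 + (-2125)*ζ^145 + (2092)*ζ^146 + (-2168)*ζ^147 + (2271)*ζ^148 + (-2248)*ζ^149 + (2182)*ζ^150 + (-2239)*ζ^151 + (2297)*ζ^152 + (-2201)*ζ^153 + (2166)*ζ^154 + (-2340)*ζ^155 + (2409)*ζ^156 + (-2344)*ζ^157 + (2421)*ζ^158 + (-2516)*ζ^159 + (2518)*ζ^160 + (-2406)*ζ^161 + (2328)*ζ^162 + (-2360)*ζ^163 + (2447)*ζ^164 + (-2462)*ζ^165 + (2416)*ζ^166 + (-2443)*ζ^167 + (2526)*ζ^168 + (-2473)*ζ^169 + (2385)*ζ^170 + (-2362)*ζ^171 + (2377)*ζ^172 + (-2318)*ζ^173 + (2294)*ζ^174 + (-2404)*ζ^175 + (2462)*ζ^176 + (-2366)*ζ^177 + (2326)*ζ^178 + (-2378)*ζ^179 + (2394)*ζ^180 + (-2311)*ζ^181 + (2254)*ζ^182 + (-2236)*ζ^183 + (2280)*ζ^184 + (-2266)*ζ^185 + (2210)*ζ^186 + (-2205)*ζ^187 + (2201)*ζ^188 + (-2128)*ζ^189 + (2080)*ζ^190 + (-2078)*ζ^191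 + (2084)*ζ^192 + (-1981)*ζ^193 + (1885)*ζ^194 + (-1907)*ζ^195 + (1953)*ζ^196 + (-1898)*ζ^197 + (1858)*ζ^198 + (-1853)*ζ^199 + (1821)*ζ^200 + (-1756)*ζ^201 + (1725)*ζ^202 + (-1665)*ζ^203 + (1626)*ζ^204 + (-1603)*ζ^205 + (1576)*ζ^206 + (-1567)*ζ^207 + (1578)*ζ^208 + (-1487)*ζ^209 + (1378)*ζ^210 + (-1349)*ζ^211 + (1361)*ζ^212 + (-1296)*ζ^213 + (1221)*ζ^214 + (-1199)*ζ^215 + (1210)*ζ^216 + (-1168)*ζ^217 + (1126)*ζ^218 + (-1107)*ζ^219 + (1069)*ζ^220 + (-986)*ζ^221 + (957)*ζ^222 + (-947)*ζ^223 + (933)*ζ^224 + (-881)*ζ^225 + (832)*ζ^226 + (-810)*ζ^227 + (806)*ζ^228 + (-766)*ζ^229 + (713)*ζ^230 + (-675)*ζ^231 + (660)*ζ^232 + (-616)*ζ^233 + (583)*ζ^234 + (-562)*ζ^235 + (544)*ζ^236 + (-501)*ζ^237 + (486)*ζ^238 + (-488)*ζ^239 + (470)*ζ^240 + (-415)*ζ^241 + (380)*ζ^242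 + (-365)*ζ^243 + (354)*ζ^244 + (-338)*ζ^245 + (327)*ζ^246 + (-301)*ζ^247 + (296)*ζ^248 + (-279)*ζ^249 + (252)*ζ^250 + (-234)*ζ^251 + (223)*ζ^252 + (-196)*ζ^253 + (181)*ζ^254 + (-178)*ζ^255 + (177)*ζ^256 + (-158)*ζ^257 + (142)*ζ^258 + (-133)*ζ^259 + (131)*ζ^260 + (-114)*ζ^261 + (100)*ζ^262 + (-90)*ζ^263 + (87)*ζ^264 + (-83)*ζ^265 + (80)*ζ^266 + (-73)*ζ^267 + (70)*ζ^268 + (-60)*ζ^269 + (52)*ζ^270 + (-49)*ζ^271 + (50)*ζ^272 + (-40)*ζ^273 + (31)*ζ^274 + (-30)*ζ^275 + (32)*ζ^276 + (-26)*ζ^277 + (22)*ζ^278 + (-21)*ζ^279 + (22)*ζ^280 + (-17)*ζ^281 + (14)*ζ^282 + (-12)*ζ^283 + (9)*ζ^284 + (-7)*ζ^285 + (9)*ζ^286 + (-9)*ζ^287 + (9)*ζ^288 + (-7)*ζ^289 + (5)*ζ^290 + (-4)*ζ^291 + (4)*ζ^292 + (-2)*ζ^293 + (1)*ζ^294 + (-2)*ζ^295 + (3)*ζ^296 + (-2)*ζ^297 + (1)*ζ^298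 + (-1)*ζ^299 + (1)*ζ^300) * hΦ

theorem minkowski_floor_le (K : Type*) [Field K] [NumberField K] [IsCyclotomicExtension {13} ℚ K] :
    ⌊(4 / Real.pi) ^ nrComplexPlaces K *
      (↑(Module.finrank ℚ K).factorial / ↑(Module.finrank ℚ K) ^ Module.finrank ℚ K *
        √|(↑(discr K) : ℝ)|)⌋₊ ≤ 306 := by
  have : Fact (Nat.Prime 13) := ⟨by norm_num⟩
  rw [discr_prime 13 K, IsCyclotomicExtension.finrank (n := 13) K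
    (cyclotomic.irreducible_rat (by norm_num)), nrComplexPlaces_eq_totient_div_two 13,
    Nat.totient_prime (by norm_num : Nat.Prime 13)]
  have hsqrt : √(1792160394037 : ℝ) ≤ 1338716 := by
    rw [Real.sqrt_le_left (by norm_num)]
    norm_num
  have hpi : (4 / Real.pi) ^ 6 ≤ (4 / 3.1415 : ℝ) ^ 6 := by
    have h1 : (4 / Real.pi) ≤ 4 / 3.1415 := by
      apply div_le_div_of_nonneg_left (by norm_num) (by norm_num) Real.pi_gt_d4.le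
    exact pow_le_pow_left₀ (by positivity) h1 6
  apply Nat.le_of_lt_succ
  rw [Nat.floor_lt (by positivity)]
  norm_num [Nat.factorial]
  calc (4 / Real.pi) ^ 6 * (1925 / 35831808 * √(1792160394037 : ℝ))
      ≤ (4 / 3.1415 : ℝ) ^ 6 * (1925 / 35831808 * 1338716) := by gcongr
    _ < 307 := by norm_num

set_option maxRecDepth 100000 in
/-- The finite check: a prime `q ≤ 306` with `q ^ f ≤ 306` and `q ^ f ≡ 1 mod 13` for some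
`0 < f` is one of `3, 53, 79, 131, 157`. -/
theorem small_primes_check : ∀ q ∈ Finset.range 307, ∀ f ∈ Finset.range 9, q.Prime → 0 < f →
    q ^ f ≤ 306 → q ^ f % 13 = 1 → q = 3 ∨ q = 53 ∨ q = 79 ∨ q = 131 ∨ q = 157 := by
  decide

theorem orderOf_three : orderOf ((3 : ℕ) : ZMod 13) = 3 := by
  rw [orderOf_eq_iff (by norm_num)]
  refine ⟨by decide, ?_⟩
  intro m hm hm0
  interval_cases m <;> decide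

theorem orderOf_of_mod_eq_one (q : ℕ) (h : q % 13 = 1) : orderOf ((q : ℕ) : ZMod 13) = 1 := by
  rw [orderOf_eq_one_iff]
  have : ((q : ℕ) : ZMod 13) = ((1 : ℕ) : ZMod 13) := by
    rw [ZMod.natCast_eq_natCast_iff']
    exact h
  simpa using this

end Fermat.Agent.Kummer.PidThirteen

namespace Fermat.Agent.Kummer

open Fermat.Agent.Kummer.PidTools Fermat.Agent.Kummer.PidThirteen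

universe u

/-- The ring of integers of the 13th cyclotomic field is a principal ideal domain. -/
theorem pid_thirteen (K : Type u) [Field K] [NumberField K] [IsCyclotomicExtension {13} ℚ K] :
    IsPrincipalIdealRing (𝓞 K) := by
  have h13 : Fact (Nat.Prime 13) := ⟨by norm_num⟩
  have : IsGalois ℚ K := IsCyclotomicExtension.isGalois {13} ℚ K
  apply RingOfIntegers.isPrincipalIdealRing_of_isPrincipal_of_lt_or_isPrincipal_of_mem_primesOver_of_mem_Icc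
  intro q hq hqprime
  have hM := minkowski_floor_le K
  have hq306 : q ≤ 306 := (Finset.mem_Icc.mp hq).2.trans hM
  have hqf : Fact q.Prime := ⟨hqprime⟩
  by_cases hq13 : q = 13
  · subst hq13
    obtain ⟨P, hP, hprinc⟩ := exists_principal_prime_over_self 13 K
    exact ⟨P, hP, Or.inr hprinc⟩
  -- explicit principal primes
  have key : ∀ (N : ℤ), (∃ α : 𝓞 K, Algebra.norm ℤ α = N) →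
      N.natAbs = q ^ orderOf (q : ZMod 13) →
      ∃ P ∈ primesOver (span {(q : ℤ)}) (𝓞 K),
        ⌊(4 / Real.pi) ^ nrComplexPlaces K *
          (↑(Module.finrank ℚ K).factorial / ↑(Module.finrank ℚ K) ^ Module.finrank ℚ K *
            √|(↑(discr K) : ℝ)|)⌋₊ < q ^ P.inertiaDeg ℤ ∨ Submodule.IsPrincipal P := by
    rintro N ⟨α, hα⟩ hN
    obtain ⟨P, hP, hprinc⟩ := exists_principal_prime_over 13 q hq13 K α (by rw [hα, hN])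
    exact ⟨P, hP, Or.inr hprinc⟩
  by_cases hsp : q = 3 ∨ q = 53 ∨ q = 79 ∨ q = 131 ∨ q = 157
  · rcases hsp with rfl | rfl | rfl | rfl | rfl
    · exact key 27 (exists_norm_27 K) (by rw [orderOf_three]; rfl)
    · exact key 53 (exists_norm_53 K) (by rw [orderOf_of_mod_eq_one 53 (by norm_num)]; rfl)
    · exact key 79 (exists_norm_79 K) (by rw [orderOf_of_mod_eq_one 79 (by norm_num)]; rfl)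
    · exact key 131 (exists_norm_131 K) (by rw [orderOf_of_mod_eq_one 131 (by norm_num)]; rfl)
    · exact key 157 (exists_norm_157 K) (by rw [orderOf_of_mod_eq_one 157 (by norm_num)]; rfl)
  · obtain ⟨P, hP, hdeg⟩ := exists_prime_over_inertiaDeg 13 q hq13 K
    refine ⟨P, hP, Or.inl ?_⟩
    rw [hdeg]
    obtain ⟨hfpos, hmod⟩ := pow_orderOf_mod 13 q hq13
    by_contra hcon
    have hle : q ^ orderOf (q : ZMod 13) ≤ 306 := (not_lt.mp hcon).trans hM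
    have hf9 : orderOf (q : ZMod 13) < 9 := by
      by_contra h9
      have h2 : 2 ^ 9 ≤ q ^ orderOf (q : ZMod 13) :=
        (Nat.pow_le_pow_left hqprime.two_le 9).trans
          (Nat.pow_le_pow_right hqprime.pos (not_lt.mp h9))
      omega
    exact hsp (small_primes_check q (Finset.mem_range.mpr (by omega)) _
      (Finset.mem_range.mpr hf9) hqprime hfpos hle hmod)

end Fermat.Agent.Kummer
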