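import Mathlib

/-!
# Tools for proving that the ring of integers of a prime cyclotomic field is a PID

* `norm_int_eq_of_prod_eq`: the norm of `α = f(ζ)` is `∏_{a=1}^{p-1} f(ζ^a)`.
* `exists_principal_prime_over`: an element of norm `± q ^ f` (`f` the order of `q` mod `p`)
  generates a prime ideal above `q`.
* `exists_prime_over_inertiaDeg`: a prime above `q ≠ p` together with its inertia degree.
* `exists_principal_prime_over_self`: the prime `(ζ - 1)` above `p`.
-/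

set_option autoImplicit false

open NumberField Ideal Polynomial IsCyclotomicExtension.Rat

namespace Fermat.Agent.Kummer.PidTools

theorem coprime_of_mem_Ico {p a : ℕ} (hp : p.Prime) (ha : a ∈ Finset.Ico 1 p) : a.Coprime p := by
  rw [Finset.mem_Ico] at ha
  exact (Nat.coprime_of_lt_prime (by omega) ha.2 hp).symm

/-- Reindexing a product over the units of `ZMod p` (`p` prime) as a product over `[1, p)`. -/
theorem prod_units_zmod_prime {M : Type*} [CommMonoid M] (p : ℕ) [hp : Fact p.Prime] (g : ℕ → M) :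
    ∏ t : (ZMod p)ˣ, g t.val.val = ∏ a ∈ Finset.Ico 1 p, g a := by
  refine Finset.prod_bij' (fun t _ => t.val.val)
    (fun a ha => ZMod.unitOfCoprime a (coprime_of_mem_Ico hp.out ha)) ?_ ?_ ?_ ?_ ?_
  · intro t _
    rw [Finset.mem_Ico]
    refine ⟨?_, ZMod.val_lt _⟩
    have : (t.val).val ≠ 0 := by
      rw [Ne, ZMod.val_eq_zero]
      exact t.ne_zero
    omega
  · intro a ha
    exact Finset.mem_univ _
  · intro t _
    ext
    simp
  · intro a ha
    rw [Finset.mem_Ico] at ha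
    simp only [ZMod.coe_unitOfCoprime]
    exact ZMod.val_cast_of_lt ha.2
  · intro t _
    rfl

/-- The norm of `f(ζ)` in the `p`-th cyclotomic field is `∏_{a=1}^{p-1} f(ζ^a)`. -/
theorem norm_aeval_eq_prod (p : ℕ) [hp : Fact p.Prime] (K : Type*) [Field K] [NumberField K]
    [IsCyclotomicExtension {p} ℚ K] {ζ : K} (hζ : IsPrimitiveRoot ζ p) (f : ℚ[X]) :
    algebraMap ℚ K (Algebra.norm ℚ (aeval ζ f)) = ∏ a ∈ Finset.Ico 1 p, aeval (ζ ^ a) f := by
  have : IsGalois ℚ K := IsCyclotomicExtension.isGalois {p} ℚ K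
  rw [Algebra.norm_eq_prod_automorphisms]
  have h1 : ∀ σ : K ≃ₐ[ℚ] K, σ (aeval ζ f) = aeval (ζ ^ (galEquivZMod p K σ).val.val) f := by
    intro σ
    rw [← galEquivZMod_apply_of_pow_eq p K σ hζ.pow_eq_one]
    exact (Polynomial.aeval_algHom_apply (σ : K →ₐ[ℚ] K) ζ f).symm
  simp_rw [h1]
  rw [← prod_units_zmod_prime p (fun a => aeval (ζ ^ a) f)]
  exact Fintype.prod_equiv (galEquivZMod p K).toEquiv _ _ (fun σ => rfl)

/-- Integer version: the norm of an algebraic integer `α = f(ζ)` is the integer `N` as soon as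
`∏_{a=1}^{p-1} f(ζ^a) = N`. -/
theorem norm_int_eq_of_prod_eq (p : ℕ) [hp : Fact p.Prime] (K : Type*) [Field K] [NumberField K]
    [IsCyclotomicExtension {p} ℚ K] {ζ : K} (hζ : IsPrimitiveRoot ζ p) (α : 𝓞 K) (f : ℚ[X])
    (hα : (α : K) = aeval ζ f) (N : ℤ)
    (hN : ∏ a ∈ Finset.Ico 1 p, aeval (ζ ^ a) f = (N : K)) : Algebra.norm ℤ α = N := by
  have h1 := norm_aeval_eq_prod p K hζ f
  rw [hN, ← hα, ← Algebra.coe_norm_int] at h1
  have h2 : ((Algebra.norm ℤ α : ℤ) : K) = (N : K) := by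
    rw [← h1]; simp
  exact_mod_cast h2

/-- In the `p`-th cyclotomic field, an integer `α` whose norm has absolute value `q ^ f`, with `f`
the order of the prime `q ≠ p` modulo `p`, generates a prime ideal above `q`. -/
theorem exists_principal_prime_over (p q : ℕ) [hp : Fact p.Prime] [hq : Fact q.Prime] (hqp : q ≠ p)
    (K : Type*) [Field K] [NumberField K] [IsCyclotomicExtension {p} ℚ K] (α : 𝓞 K)
    (hα : (Algebra.norm ℤ α).natAbs = q ^ orderOf (q : ZMod p)) :
    ∃ P ∈ primesOver (span {(q : ℤ)}) (𝓞 K), Submodule.IsPrincipal P := by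
  have hndvd : ¬ q ∣ p := fun h => hqp ((Nat.prime_dvd_prime_iff_eq hq.out hp.out).mp h)
  have hq0 : (q : ZMod p) ≠ 0 := by
    rw [Ne, ZMod.natCast_eq_zero_iff]
    exact fun h => hqp ((Nat.prime_dvd_prime_iff_eq hp.out hq.out).mp h).symm
  have hfpos : 0 < orderOf (q : ZMod p) := by
    rw [orderOf_pos_iff, isOfFinOrder_iff_pow_eq_one]
    exact ⟨p - 1, Nat.sub_pos_of_lt hp.out.one_lt, ZMod.pow_card_sub_one_eq_one hq0⟩
  set f := orderOf (q : ZMod p) with hf
  have hI : absNorm (span {α}) = q ^ f := by rw [absNorm_span_singleton, hα]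
  have hItop : span {α} ≠ ⊤ := by
    rw [Ne, ← absNorm_eq_one_iff, hI]
    exact (Nat.one_lt_pow hfpos.ne' hq.out.one_lt).ne'
  obtain ⟨P, hPmax, hIP⟩ := Ideal.exists_le_maximal _ hItop
  have hPprime : P.IsPrime := hPmax.isPrime
  have hqP : (q : 𝓞 K) ∈ P := by
    have h1 : ((q ^ f : ℕ) : 𝓞 K) ∈ P := hI ▸ hIP (absNorm_mem (span {α}))
    rw [Nat.cast_pow] at h1
    exact hPprime.mem_of_pow_mem _ h1
  have hqmax : (span {(q : ℤ)}).IsMaximal :=
    PrincipalIdealRing.isMaximal_of_irreducible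
      (Nat.prime_iff_prime_int.mp hq.out).irreducible
  have hlies : P.LiesOver (span {(q : ℤ)}) := by
    constructor
    refine hqmax.eq_of_le (Ideal.comap_ne_top _ hPprime.ne_top) ?_
    rw [Ideal.span_singleton_le_iff_mem, Ideal.mem_comap]
    simpa using hqP
  refine ⟨P, ⟨hPprime, hlies⟩, ?_⟩
  have hdeg : P.inertiaDeg ℤ = f := inertiaDeg_eq_of_not_dvd q K P hndvd
  have hPnorm : absNorm P = q ^ f := by
    rw [absNorm_eq_pow_inertiaDeg' P hq.out, inertiaDeg'_eq_inertiaDeg, hdeg]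
  obtain ⟨J, hJ⟩ := Ideal.dvd_iff_le.mpr hIP
  have hJ1 : absNorm J = 1 := by
    have := congrArg absNorm hJ
    rw [map_mul, hI, hPnorm] at this
    have hpos : 0 < q ^ f := Nat.pow_pos hq.out.pos
    exact (Nat.eq_of_mul_eq_mul_left hpos (by rw [mul_one]; exact this)).symm
  rw [absNorm_eq_one_iff] at hJ1
  rw [hJ1, Ideal.mul_top] at hJ
  exact ⟨⟨α, hJ.symm⟩⟩

/-- A prime above `q ≠ p` in the `p`-th cyclotomic field, with its inertia degree. -/
theorem exists_prime_over_inertiaDeg (p q : ℕ) [hp : Fact p.Prime] [hq : Fact q.Prime]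
    (hqp : q ≠ p) (K : Type*) [Field K] [NumberField K] [IsCyclotomicExtension {p} ℚ K] :
    ∃ P ∈ primesOver (span {(q : ℤ)}) (𝓞 K), P.inertiaDeg ℤ = orderOf (q : ZMod p) := by
  have hndvd : ¬ q ∣ p := fun h => hqp ((Nat.prime_dvd_prime_iff_eq hq.out hp.out).mp h)
  obtain ⟨⟨P, hP1, hP2⟩⟩ := (span {(q : ℤ)}).nonempty_primesOver (S := 𝓞 K)
  exact ⟨P, ⟨hP1, hP2⟩, inertiaDeg_eq_of_not_dvd q K P hndvd⟩

/-- The order of `q` modulo `p` is positive and `q ^ (order) ≡ 1 mod p`. -/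
theorem pow_orderOf_mod (p q : ℕ) [hp : Fact p.Prime] [hq : Fact q.Prime] (hqp : q ≠ p) :
    0 < orderOf (q : ZMod p) ∧ q ^ orderOf (q : ZMod p) % p = 1 := by
  have hq0 : (q : ZMod p) ≠ 0 := by
    rw [Ne, ZMod.natCast_eq_zero_iff]
    exact fun h => hqp ((Nat.prime_dvd_prime_iff_eq hp.out hq.out).mp h).symm
  refine ⟨?_, ?_⟩
  · rw [orderOf_pos_iff, isOfFinOrder_iff_pow_eq_one]
    exact ⟨p - 1, Nat.sub_pos_of_lt hp.out.one_lt, ZMod.pow_card_sub_one_eq_one hq0⟩
  · have h1 : ((q ^ orderOf (q : ZMod p) : ℕ) : ZMod p) = ((1 : ℕ) : ZMod p) := by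
      rw [Nat.cast_pow, pow_orderOf_eq_one, Nat.cast_one]
    rw [ZMod.natCast_eq_natCast_iff'] at h1
    rw [h1, Nat.mod_eq_of_lt hp.out.one_lt]

/-- The prime `(ζ - 1)` above `p` is principal. -/
theorem exists_principal_prime_over_self (p : ℕ) [hp : Fact p.Prime]
    (K : Type*) [Field K] [NumberField K] [IsCyclotomicExtension {p} ℚ K] :
    ∃ P ∈ primesOver (span {(p : ℤ)}) (𝓞 K), Submodule.IsPrincipal P := by
  have hζ := IsCyclotomicExtension.zeta_spec p ℚ K
  have hK : IsCyclotomicExtension {p ^ (0 + 1)} ℚ K := by rwa [zero_add, pow_one]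
  have hζ' : IsPrimitiveRoot (IsCyclotomicExtension.zeta p ℚ K) (p ^ (0 + 1)) := by
    rwa [zero_add, pow_one]
  exact ⟨span {hζ'.toInteger - 1}, ⟨isPrime_span_zeta_sub_one p 0 hζ',
    liesOver_span_zeta_sub_one p 0 hζ'⟩, ⟨⟨_, rfl⟩⟩⟩

end Fermat.Agent.Kummer.PidTools
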