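import Mathlib

/-!
# Abstract engine for Kummer's lemma (Kummer project, shared)

`exists_pow_eq_of_map_eq_zero`: for a number field `K`, a prime `p`, and a homomorphism `D` from
the unit group of `𝓞 K` to an `𝔽_p`-vector space: if `rank K + 1` units have linearly
independent `D`-images, then every unit killed by `D` is a `p`-th power.
(Dirichlet's unit theorem: the units are generated by a torsion generator and `rank K`
fundamental units, so `units / p-th powers` has dimension at most `rank K + 1`.)
-/

set_option autoImplicit false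
set_option linter.unusedSectionVars false

namespace Fermat.Agent.Kummer.UnitRank

open NumberField NumberField.Units Module

universe u v

variable {p : ℕ} [Fact p.Prime] {K : Type u} [Field K] [NumberField K]
  {W : Type v} [AddCommGroup W] [Module (ZMod p) W]

section
variable (D : (𝓞 K)ˣ → W) (hD : ∀ x y, D (x * y) = D x + D y)
include hD

theorem map_one_eq : D 1 = 0 := by
  have h := hD 1 1
  rw [mul_one] at h
  exact left_eq_add.mp h

theorem map_inv_eq (x : (𝓞 K)ˣ) : D x⁻¹ = - D x := by
  have h := hD x x⁻¹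
  rw [mul_inv_cancel, map_one_eq D hD] at h
  exact eq_neg_of_add_eq_zero_right h.symm

theorem map_pow_eq (x : (𝓞 K)ˣ) (n : ℕ) : D (x ^ n) = n • D x := by
  induction n with
  | zero => simp [map_one_eq D hD]
  | succ n ih => rw [pow_succ, hD, ih, succ_nsmul]

theorem map_zpow_eq (x : (𝓞 K)ˣ) (n : ℤ) : D (x ^ n) = n • D x := by
  cases n with
  | ofNat n => simp [map_pow_eq D hD]
  | negSucc n =>
    rw [zpow_negSucc, map_inv_eq D hD, map_pow_eq D hD, negSucc_zsmul]

theorem map_prod_eq {ι : Type*} (s : Finset ι) (f : ι → (𝓞 K)ˣ) :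
    D (∏ i ∈ s, f i) = ∑ i ∈ s, D (f i) := by
  classical
  induction s using Finset.induction_on with
  | empty => simp [map_one_eq D hD]
  | insert a s ha ih => rw [Finset.prod_insert ha, Finset.sum_insert ha, hD, ih]

/-- The family `D τ, D η₁, …, D η_r` (`τ` a generator of the torsion, `η` a fundamental system). -/
noncomputable def gens (τ : (𝓞 K)ˣ) : Option (Fin (rank K)) → W
  | none => D τ
  | some i => D (fundSystem K i)

/-- Every value of `D` is a `ZMod p`-combination of the family `gens`. -/
theorem map_mem_span (τ : (𝓞 K)ˣ) (hτ : ∀ ζ ∈ torsion K, ∃ a : ℤ, ζ = τ ^ a) (x : (𝓞 K)ˣ) :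
    D x ∈ Submodule.span (ZMod p) (Set.range (gens D τ)) := by
  obtain ⟨⟨ζ, e⟩, hx, -⟩ := exist_unique_eq_mul_prod K x
  obtain ⟨a, ha⟩ := hτ ζ ζ.2
  simp only at hx
  rw [hx, hD, map_prod_eq D hD, ha, map_zpow_eq D hD]
  refine Submodule.add_mem _ ?_ (Submodule.sum_mem _ fun i _ => ?_)
  · rw [← Int.cast_smul_eq_zsmul (ZMod p)]
    exact Submodule.smul_mem _ _ (Submodule.subset_span ⟨none, rfl⟩)
  · rw [map_zpow_eq D hD, ← Int.cast_smul_eq_zsmul (ZMod p)]
    exact Submodule.smul_mem _ _ (Submodule.subset_span ⟨some i, rfl⟩)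

end

/-- **Abstract Kummer-lemma engine** (valid for every number field `K` and prime `p`).
Let `D` be a homomorphism from the unit group to an `𝔽_p`-vector space. If there are
`rank K + 1` units whose `D`-images are linearly independent, then the kernel of `D`
consists of `p`-th powers. -/
theorem exists_pow_eq_of_map_eq_zero
    (D : (𝓞 K)ˣ → W) (hD : ∀ x y, D (x * y) = D x + D y)
    {ι : Type*} [Fintype ι] (c : ι → (𝓞 K)ˣ)
    (hc : LinearIndependent (ZMod p) (fun i => D (c i)))
    (hcard : rank K + 1 ≤ Fintype.card ι)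
    (u : (𝓞 K)ˣ) (hu : D u = 0) : ∃ v : (𝓞 K)ˣ, u = v ^ p := by
  classical
  have hp : p.Prime := Fact.out
  -- a generator of the torsion subgroup
  obtain ⟨τ', hτ'⟩ := IsCyclic.exists_generator (α := torsion K)
  set τ : (𝓞 K)ˣ := (τ' : (𝓞 K)ˣ) with hτdef
  have hτ : ∀ ζ ∈ torsion K, ∃ a : ℤ, ζ = τ ^ a := by
    intro ζ hζ
    obtain ⟨a, ha⟩ := Subgroup.mem_zpowers_iff.mp (hτ' ⟨ζ, hζ⟩)
    refine ⟨a, ?_⟩
    have := congrArg Subtype.val ha
    simpa using this.symm
  -- the family `gens` is linearly independent by a dimension count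
  have hspan : Submodule.span (ZMod p) (Set.range fun i => D (c i)) ≤
      Submodule.span (ZMod p) (Set.range (gens D τ)) := by
    rw [Submodule.span_le]
    rintro _ ⟨i, rfl⟩
    exact map_mem_span D hD τ hτ (c i)
  have hfin1 : finrank (ZMod p) (Submodule.span (ZMod p) (Set.range fun i => D (c i))) =
      Fintype.card ι := finrank_span_eq_card hc
  have hfin2 : finrank (ZMod p) (Submodule.span (ZMod p) (Set.range (gens D τ))) ≤
      Fintype.card (Option (Fin (rank K))) := finrank_range_le_card _
  have hcardO : Fintype.card (Option (Fin (rank K))) = rank K + 1 := by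
    simp
  have : Module.Finite (ZMod p) (Submodule.span (ZMod p) (Set.range (gens D τ))) :=
    FiniteDimensional.span_of_finite _ (Set.finite_range _)
  have hle : finrank (ZMod p) (Submodule.span (ZMod p) (Set.range fun i => D (c i))) ≤
      finrank (ZMod p) (Submodule.span (ZMod p) (Set.range (gens D τ))) :=
    Submodule.finrank_mono hspan
  have hli : LinearIndependent (ZMod p) (gens D τ) := by
    rw [linearIndependent_iff_card_eq_finrank_span, Set.finrank]
    omega
  -- decompose `u`
  obtain ⟨⟨ζ, e⟩, hx, -⟩ := exist_unique_eq_mul_prod K u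
  obtain ⟨a, ha⟩ := hτ ζ ζ.2
  simp only at hx
  have hDu : ((a : ZMod p)) • gens D τ none +
      ∑ i : Fin (rank K), ((e i : ZMod p)) • gens D τ (some i) = 0 := by
    rw [← hu, hx, hD, map_prod_eq D hD, ha, map_zpow_eq D hD, Int.cast_smul_eq_zsmul]
    congr 1
    refine Finset.sum_congr rfl fun i _ => ?_
    rw [map_zpow_eq D hD, Int.cast_smul_eq_zsmul]
    rfl
  -- all coefficients vanish mod `p`
  have hcoef := Fintype.linearIndependent_iff.mp hli
    (fun o => Option.casesOn o (a : ZMod p) (fun i => (e i : ZMod p)))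
  rw [Fintype.sum_option] at hcoef
  have hzero := hcoef hDu
  have ha0 : (p : ℤ) ∣ a := (ZMod.intCast_zmod_eq_zero_iff_dvd a p).mp (hzero none)
  have he0 : ∀ i, (p : ℤ) ∣ e i := fun i =>
    (ZMod.intCast_zmod_eq_zero_iff_dvd (e i) p).mp (hzero (some i))
  obtain ⟨a', ha'⟩ := ha0
  choose e' he' using he0
  refine ⟨τ ^ a' * ∏ i, (fundSystem K i) ^ (e' i), ?_⟩
  rw [hx, ha, mul_pow, ← Finset.prod_pow, ← zpow_natCast, ← zpow_mul, ha', mul_comm (p : ℤ) a']
  congr 1
  refine Finset.prod_congr rfl fun i _ => ?_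
  rw [← zpow_natCast, ← zpow_mul, he' i, mul_comm]

end Fermat.Agent.Kummer.UnitRank
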