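import Fermat.Agent.Kummer.CaseI
import Fermat.Agent.Kummer.CaseII
import Fermat.Agent.Kummer.PidSeven
import Fermat.Agent.Kummer.PidEleven
import Fermat.Agent.Kummer.PidThirteen
import Fermat.Prelude.Def_FLTPrelim_FreyPackage

/-!
# Wiring: no Frey package with `p ∈ {5, 7, 11, 13}`, given Kummer's lemma

Everything here is parametrised by the statement of Kummer's lemma (`KummerProp`), for PID
cyclotomic rings of integers.
-/

set_option autoImplicit false

namespace Fermat.Agent.Kummer

open NumberField

universe u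

/-- Fermat's Last Theorem for a prime exponent `p ≥ 5` such that the ring of integers of the
`p`-th cyclotomic field is a PID, given Kummer's lemma. -/
theorem flt_of_pid_of_kummerProp {p : ℕ} [Fact p.Prime] (hp5 : 5 ≤ p) (K : Type u) [Field K]
    [NumberField K] [IsCyclotomicExtension {p} ℚ K] (hpid : IsPrincipalIdealRing (𝓞 K))
    (hkum : KummerProp p K)
    {a b c : ℤ} (ha : a ≠ 0) (hb : b ≠ 0) (hc : c ≠ 0) (hab : IsCoprime a b) :
    a ^ p + b ^ p ≠ c ^ p := by
  by_cases hp : (p : ℤ) ∣ a * b * c
  · exact caseII hp5 K hpid hkum ha hb hc hab hp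
  · exact caseI hp5 K hpid hab hp

/-- A Frey package whose prime has a PID cyclotomic ring of integers satisfying Kummer's lemma
cannot exist. -/
theorem no_freyPackage_of_pid (P : FreyPackage) (K : Type u) [Field K] [NumberField K]
    [IsCyclotomicExtension {P.p} ℚ K] (hpid : IsPrincipalIdealRing (𝓞 K))
    (hkum : KummerProp P.p K) : False := by
  have : Fact P.p.Prime := ⟨P.pp⟩
  have hab : IsCoprime P.a P.b := by
    rw [Int.isCoprime_iff_gcd_eq_one]
    have h := P.hgcdab
    rw [← Int.coe_gcd] at h
    exact_mod_cast h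
  exact flt_of_pid_of_kummerProp P.hp5 K hpid hkum P.ha0 P.hb0 P.hc0 hab P.hFLT

/-- The instance `IsCyclotomicExtension {p} ℚ (CyclotomicField p ℚ)` for the `ℚ`-algebra structure
found by instance search. -/
theorem isCyclotomicExtension_cyclotomicField (p : ℕ) [NeZero p] :
    IsCyclotomicExtension {p} ℚ (CyclotomicField p ℚ) :=
  CyclotomicField.isCyclotomicExtension p ℚ

/-- The ring of integers of the `p`-th cyclotomic field is a PID for `p ∈ {5, 7, 11, 13}`. -/
theorem pid_of_mem {p : ℕ} (hp : p = 5 ∨ p = 7 ∨ p = 11 ∨ p = 13) :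
    IsPrincipalIdealRing (𝓞 (CyclotomicField p ℚ)) := by
  rcases hp with rfl | rfl | rfl | rfl
  · have := isCyclotomicExtension_cyclotomicField 5
    exact IsCyclotomicExtension.Rat.five_pid (CyclotomicField 5 ℚ)
  · have := isCyclotomicExtension_cyclotomicField 7
    exact pid_seven (CyclotomicField 7 ℚ)
  · have := isCyclotomicExtension_cyclotomicField 11
    exact pid_eleven (CyclotomicField 11 ℚ)
  · have := isCyclotomicExtension_cyclotomicField 13
    exact pid_thirteen (CyclotomicField 13 ℚ)

/-- Given Kummer's lemma for PID cyclotomic fields, there is no Frey package with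
`p ∈ {5, 7, 11, 13}`. -/
theorem no_freyPackage_small
    (hkum : ∀ (p : ℕ) [Fact p.Prime] (K : Type) [Field K] [NumberField K]
      [IsCyclotomicExtension {p} ℚ K], p ≠ 2 → IsPrincipalIdealRing (𝓞 K) → KummerProp p K)
    (P : FreyPackage) (hp : P.p = 5 ∨ P.p = 7 ∨ P.p = 11 ∨ P.p = 13) : False := by
  have : Fact P.p.Prime := ⟨P.pp⟩
  have : NeZero P.p := ⟨P.pp.ne_zero⟩
  have := isCyclotomicExtension_cyclotomicField P.p
  have hpid := pid_of_mem hp
  have hodd : P.p ≠ 2 := by have := P.hp5; omega
  exact no_freyPackage_of_pid P (CyclotomicField P.p ℚ) hpid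
    (hkum P.p (CyclotomicField P.p ℚ) hodd hpid)

end Fermat.Agent.Kummer
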